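/-
S53 piece B: Burnside's theorem for 2 × 2 matrices.
Pure linear algebra: a monoid of 2 × 2 matrices over a field `k` with no common eigenvector over
the algebraic closure spans the full matrix algebra.  Main result: `burnside_two`.
-/
import Mathlib

set_option autoImplicit false

namespace Fermat.Agent.S53lib

open Matrix

section AlgClosed

variable {K : Type*} [Field K]

/-- The "cross product" (2 × 2 determinant) of two vectors in `K²`. -/
def bsCross (q p : Fin 2 → K) : K := q 0 * p 1 - q 1 * p 0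

omit [Field K] in
lemma bs_vec_ext {x y : Fin 2 → K} (h0 : x 0 = y 0) (h1 : x 1 = y 1) : x = y := by
  funext i
  rcases Fin.exists_fin_two.mp ⟨i, rfl⟩ with rfl | rfl
  · exact h0
  · exact h1

omit [Field K] in
lemma bs_mat_ext {x y : Matrix (Fin 2) (Fin 2) K} (h00 : x 0 0 = y 0 0) (h01 : x 0 1 = y 0 1)
    (h10 : x 1 0 = y 1 0) (h11 : x 1 1 = y 1 1) : x = y := by
  ext i j
  rcases Fin.exists_fin_two.mp ⟨i, rfl⟩ with rfl | rfl <;>
  rcases Fin.exists_fin_two.mp ⟨j, rfl⟩ with rfl | rfl <;> assumption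

lemma cross2_ne_zero_of_not_smul {q p : Fin 2 → K} (hq : q ≠ 0) (h : ∀ c : K, p ≠ c • q) :
    bsCross q p ≠ 0 := by
  intro h0
  unfold bsCross at h0
  by_cases h1 : q 0 = 0
  · have h2 : q 1 ≠ 0 := by
      intro h2
      apply hq
      exact bs_vec_ext h1 h2
    apply h (p 1 / q 1)
    apply bs_vec_ext
    · simp only [Pi.smul_apply, smul_eq_mul, h1, mul_zero]
      rw [h1] at h0
      have : q 1 * p 0 = 0 := by linear_combination -h0
      rcases mul_eq_zero.mp this with h3 | h3
      · exact absurd h3 h2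
      · exact h3
    · simp only [Pi.smul_apply, smul_eq_mul]
      rw [div_mul_cancel₀ _ h2]
  · apply h (p 0 / q 0)
    apply bs_vec_ext
    · simp only [Pi.smul_apply, smul_eq_mul]
      rw [div_mul_cancel₀ _ h1]
    · simp only [Pi.smul_apply, smul_eq_mul]
      rw [div_mul_eq_mul_div, eq_div_iff h1]
      linear_combination h0

lemma eq_comb_of_cross2_ne_zero {q p : Fin 2 → K} (h : bsCross q p ≠ 0) (x : Fin 2 → K) :
    x = (bsCross x p / bsCross q p) • q + (bsCross q x / bsCross q p) • p := by
  have key : ∀ i, x i = (bsCross x p / bsCross q p) * q i + (bsCross q x / bsCross q p) * p i := by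
    intro i
    rw [div_mul_eq_mul_div, div_mul_eq_mul_div, ← add_div, eq_div_iff h]
    unfold bsCross
    rcases Fin.exists_fin_two.mp ⟨i, rfl⟩ with rfl | rfl <;> ring
  funext i
  simpa using key i

/-- A singular 2 × 2 matrix is an outer product. -/
lemma bs_exists_vecMulVec_of_det_eq_zero (T : Matrix (Fin 2) (Fin 2) K) (hdet : T.det = 0) :
    ∃ u w : Fin 2 → K, T = vecMulVec u w := by
  rw [Matrix.det_fin_two] at hdet
  by_cases ha : T 0 0 = 0
  · by_cases hb : T 0 1 = 0
    · refine ⟨![0, 1], ![T 1 0, T 1 1], ?_⟩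
      apply bs_mat_ext <;> simp [vecMulVec_apply, ha, hb]
    · have hc : T 1 0 = 0 := by
        rw [ha] at hdet
        have : T 0 1 * T 1 0 = 0 := by linear_combination -hdet
        rcases mul_eq_zero.mp this with h3 | h3
        · exact absurd h3 hb
        · exact h3
      refine ⟨![T 0 1, T 1 1], ![0, 1], ?_⟩
      apply bs_mat_ext <;> simp [vecMulVec_apply, ha, hc]
  · refine ⟨![T 0 0, T 1 0], ![1, T 0 1 / T 0 0], ?_⟩
    apply bs_mat_ext
    · simp [vecMulVec_apply]
    · have : T 0 1 = T 0 0 * (T 0 1 / T 0 0) := by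
        rw [mul_div_cancel₀ _ ha]
      simpa [vecMulVec_apply] using this
    · simp [vecMulVec_apply]
    · have : T 1 1 = T 1 0 * (T 0 1 / T 0 0) := by
        rw [mul_div_assoc', eq_div_iff ha]
        linear_combination hdet
      simpa [vecMulVec_apply] using this

/-- Every 2 × 2 matrix has an eigenvalue over an algebraically closed field, in the form
`det (X - c • 1) = 0`. -/
lemma bs_exists_det_sub_smul_one_eq_zero [IsAlgClosed K] (X : Matrix (Fin 2) (Fin 2) K) :
    ∃ c : K, (X - c • (1 : Matrix (Fin 2) (Fin 2) K)).det = 0 := by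
  obtain ⟨c, hc⟩ := IsAlgClosed.exists_root (X.charpoly) (by
    rw [Matrix.charpoly_degree_eq_dim]
    simp)
  refine ⟨c, ?_⟩
  rw [Polynomial.IsRoot.def, Matrix.charpoly_fin_two] at hc
  simp only [Polynomial.eval_add, Polynomial.eval_sub, Polynomial.eval_pow, Polynomial.eval_X,
    Polynomial.eval_mul, Polynomial.eval_C] at hc
  rw [Matrix.det_fin_two]
  simp only [Matrix.sub_apply, Matrix.smul_apply, Matrix.one_apply_eq, smul_eq_mul, mul_one,
    Matrix.one_apply_ne (show (0 : Fin 2) ≠ 1 by decide),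
    Matrix.one_apply_ne (show (1 : Fin 2) ≠ 0 by decide), mul_zero, sub_zero]
  rw [Matrix.trace_fin_two, Matrix.det_fin_two] at hc
  linear_combination hc

theorem bs_subalgebra_eq_top_of_no_common_eigenvector [IsAlgClosed K]
    (E : Subalgebra K (Matrix (Fin 2) (Fin 2) K))
    (hirr : ∀ v : Fin 2 → K, v ≠ 0 → ∃ X ∈ E, ∀ c : K, X.mulVec v ≠ c • v) : E = ⊤ := by
  -- a non-scalar element
  obtain ⟨X, hXE, hX⟩ := hirr ![1, 0] (by
    intro h
    have := congrFun h 0
    simp at this)
  obtain ⟨c, hc⟩ := bs_exists_det_sub_smul_one_eq_zero X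
  set T : Matrix (Fin 2) (Fin 2) K := X - c • 1 with hT
  have hTE : T ∈ E := E.sub_mem hXE (E.smul_mem E.one_mem c)
  have hT0 : T ≠ 0 := by
    intro h0
    apply hX c
    have hXc : X = c • 1 := by
      rw [hT] at h0
      exact sub_eq_zero.mp h0
    rw [hXc, Matrix.smul_mulVec, Matrix.one_mulVec]
  obtain ⟨u, w, huw⟩ := bs_exists_vecMulVec_of_det_eq_zero T hc
  have hu : u ≠ 0 := by
    rintro rfl
    apply hT0
    rw [huw]
    ext i j
    simp [vecMulVec_apply]
  have hw : w ≠ 0 := by
    rintro rfl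
    apply hT0
    rw [huw]
    ext i j
    simp [vecMulVec_apply]
  obtain ⟨A, hAE, hA⟩ := hirr u hu
  have hcu := cross2_ne_zero_of_not_smul hu hA
  have hx : (![w 1, -w 0] : Fin 2 → K) ≠ 0 := by
    intro h
    apply hw
    have h0 := congrFun h 0
    have h1 := congrFun h 1
    simp at h0 h1
    exact bs_vec_ext h1 h0
  obtain ⟨B, hBE, hB⟩ := hirr _ hx
  have hcx := cross2_ne_zero_of_not_smul hx hB
  have hcw : bsCross w (w ᵥ* B) ≠ 0 := by
    have : bsCross w (w ᵥ* B) = - bsCross ![w 1, -w 0] (B *ᵥ ![w 1, -w 0]) := by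
      unfold bsCross
      simp [Matrix.vecMul, Matrix.mulVec, dotProduct, Fin.sum_univ_two]
      ring
    rw [this]
    exact neg_ne_zero.mpr hcx
  -- all outer products lie in E
  have hall : ∀ y z : Fin 2 → K, vecMulVec y z ∈ E := by
    intro y z
    have hy := eq_comb_of_cross2_ne_zero hcu y
    have hz := eq_comb_of_cross2_ne_zero hcw z
    set α := bsCross y (A *ᵥ u) / bsCross u (A *ᵥ u)
    set β := bsCross u y / bsCross u (A *ᵥ u)
    set γ := bsCross z (w ᵥ* B) / bsCross w (w ᵥ* B)
    set δ := bsCross w z / bsCross w (w ᵥ* B)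
    have hY : (α • (1 : Matrix (Fin 2) (Fin 2) K) + β • A) ∈ E :=
      E.add_mem (E.smul_mem E.one_mem _) (E.smul_mem hAE _)
    have hZ : (γ • (1 : Matrix (Fin 2) (Fin 2) K) + δ • B) ∈ E :=
      E.add_mem (E.smul_mem E.one_mem _) (E.smul_mem hBE _)
    have hprod : (α • (1 : Matrix (Fin 2) (Fin 2) K) + β • A) * T *
        (γ • (1 : Matrix (Fin 2) (Fin 2) K) + δ • B) = vecMulVec y z := by
      rw [huw, Matrix.mul_vecMulVec, Matrix.vecMulVec_mul]
      congr 1
      · rw [Matrix.add_mulVec, Matrix.smul_mulVec, Matrix.smul_mulVec, Matrix.one_mulVec]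
        exact hy.symm
      · rw [Matrix.vecMul_add, Matrix.vecMul_smul, Matrix.vecMul_smul, Matrix.vecMul_one]
        exact hz.symm
    rw [← hprod]
    exact E.mul_mem (E.mul_mem hY hTE) hZ
  rw [eq_top_iff]
  intro M _
  have hM : M = vecMulVec ![1, 0] ![M 0 0, M 0 1] + vecMulVec ![0, 1] ![M 1 0, M 1 1] := by
    apply bs_mat_ext <;> simp [vecMulVec_apply]
  rw [hM]
  exact E.add_mem (hall _ _) (hall _ _)

end AlgClosed

section Descent

variable {k : Type*} [Field k]

/-- A linear functional on 2 × 2 matrices is determined by its values on matrix units. -/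
lemma bs_linearMap_apply_eq_sum_single {R : Type*} [CommRing R]
    (f : Matrix (Fin 2) (Fin 2) R →ₗ[R] R) (M : Matrix (Fin 2) (Fin 2) R) :
    f M = ∑ i, ∑ j, M i j * f (Matrix.single i j 1) := by
  conv_lhs => rw [Matrix.matrix_eq_sum_single M]
  rw [map_sum]
  refine Finset.sum_congr rfl fun i _ => ?_
  rw [map_sum]
  refine Finset.sum_congr rfl fun j _ => ?_
  have : Matrix.single i j (M i j) = M i j • Matrix.single i j (1 : R) := by
    rw [Matrix.smul_single, smul_eq_mul, mul_one]
  rw [this, map_smul, smul_eq_mul]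

/-- **Burnside's theorem for 2 × 2 matrices.** A monoid of 2 × 2 matrices over a field `k` which
has no common eigenvector over the algebraic closure spans the whole matrix algebra over `k`. -/
theorem burnside_two {G : Type*} [Monoid G] (r : G →* Matrix (Fin 2) (Fin 2) k)
    (hirr : ∀ v : Fin 2 → AlgebraicClosure k, v ≠ 0 →
      ¬ ∀ g, ∃ c : AlgebraicClosure k,
        ((r g).map (algebraMap k (AlgebraicClosure k))).mulVec v = c • v) :
    Submodule.span k (Set.range r) = ⊤ := by
  classical
  set K := AlgebraicClosure k with hK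
  set ι : k →+* K := algebraMap k K with hι
  let rK : G →* Matrix (Fin 2) (Fin 2) K := (ι.mapMatrix (m := Fin 2)).toMonoidHom.comp r
  have hrK : ∀ g, rK g = (r g).map ι := fun g => rfl
  -- Burnside over `K`
  have hE : Algebra.adjoin K (Set.range rK) = ⊤ := by
    apply bs_subalgebra_eq_top_of_no_common_eigenvector
    intro v hv
    have := hirr v hv
    rw [not_forall] at this
    obtain ⟨g, hg⟩ := this
    rw [not_exists] at hg
    exact ⟨rK g, Algebra.subset_adjoin ⟨g, rfl⟩, hg⟩
  have hspanK : Submodule.span K (Set.range rK) = ⊤ := by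
    have h1 := Algebra.adjoin_eq_span (R := K) (s := Set.range rK)
    have h2 : Submonoid.closure (Set.range rK) = MonoidHom.mrange rK := by
      rw [← MonoidHom.coe_mrange, Submonoid.closure_eq]
    rw [h2, MonoidHom.coe_mrange, hE] at h1
    rw [← h1]
    rfl
  -- descent to `k`
  by_contra hne
  obtain ⟨f, hf0, hf⟩ := Submodule.exists_le_ker_of_lt_top _ (lt_top_iff_ne_top.mpr hne)
  let F : Matrix (Fin 2) (Fin 2) K →ₗ[K] K :=
    ∑ i, ∑ j, (ι (f (Matrix.single i j 1))) • (Matrix.entryLinearMap K K i j)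
  have hF : ∀ M, F M = ∑ i, ∑ j, M i j * ι (f (Matrix.single i j 1)) := by
    intro M
    simp only [F, LinearMap.sum_apply, LinearMap.smul_apply, Matrix.entryLinearMap_apply,
      smul_eq_mul]
    refine Finset.sum_congr rfl fun i _ => Finset.sum_congr rfl fun j _ => ?_
    ring
  have hFr : ∀ g, F (rK g) = 0 := by
    intro g
    rw [hF, hrK]
    have h0 : f (r g) = 0 := hf (Submodule.subset_span ⟨g, rfl⟩)
    rw [bs_linearMap_apply_eq_sum_single f (r g)] at h0
    have := congrArg ι h0
    simp only [map_sum, map_mul, map_zero] at this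
    simpa using this
  have hFtop : Submodule.span K (Set.range rK) ≤ LinearMap.ker F := by
    rw [Submodule.span_le]
    rintro _ ⟨g, rfl⟩
    exact hFr g
  rw [hspanK] at hFtop
  have hF0 : ∀ M, F M = 0 := fun M => hFtop (Submodule.mem_top)
  apply hf0
  apply LinearMap.ext
  intro M
  rw [bs_linearMap_apply_eq_sum_single f M]
  have hz : ∀ i j, f (Matrix.single i j 1) = 0 := by
    intro i j
    have h2 : F (Matrix.single i j 1) = ι (f (Matrix.single i j 1)) := by
      rw [hF]
      simp [Matrix.single_apply, Finset.sum_ite_eq, Fin.sum_univ_two]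
      fin_cases i <;> fin_cases j <;> simp
    have h3 := hF0 (Matrix.single i j 1)
    rw [h2] at h3
    exact (map_eq_zero ι).mp h3
  simp [hz]

end Descent

end Fermat.Agent.S53lib
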