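/-
S53 (universal deformation ring) — shared definitions for the S53 sub-team.
Matrix model of `GaloisRepAdic`.  Everything lives in `Fermat.Agent.S53lib`.
-/
import Mathlib
import Fermat.Prelude.Def_GaloisRep_DeformationRingData
import Fermat.Prelude.Def_GaloisRep_DeformationCondition

set_option autoImplicit false

noncomputable section

namespace Fermat.Agent.S53lib

open IsLocalRing

/-- The absolute Galois group of `ℚ`. -/
abbrev Gal : Type := AlgebraicClosure ℚ ≃ₐ[ℚ] AlgebraicClosure ℚ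

/-- `2 × 2` matrices. -/
abbrev M2 (A : Type) : Type := Matrix (Fin 2) (Fin 2) A

/-- Adic continuity of a matrix representation (matrix form of `GaloisActionIsAdicContinuous`). -/
def MatCont (A : Type) [CommRing A] [IsLocalRing A] (r : Gal →* M2 A) : Prop :=
  ∀ n : ℕ, ∃ L : IntermediateField ℚ (AlgebraicClosure ℚ), FiniteDimensional ℚ L ∧
    ∀ σ : Gal, (∀ x ∈ L, σ x = x) → ∀ i j, (r σ - 1) i j ∈ maximalIdeal A ^ n

/-- The matrix representation factors through a finite level (the right notion over finite rings). -/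
def MatFin (A : Type) [CommRing A] (r : Gal →* M2 A) : Prop :=
  ∃ L : IntermediateField ℚ (AlgebraicClosure ℚ), FiniteDimensional ℚ L ∧
    ∀ σ : Gal, (∀ x ∈ L, σ x = x) → r σ = 1

lemma MatFin.matCont {A : Type} [CommRing A] [IsLocalRing A] {r : Gal →* M2 A}
    (h : MatFin A r) : MatCont A r := by
  intro n
  obtain ⟨L, hL, h1⟩ := h
  refine ⟨L, hL, fun σ hσ i j => ?_⟩
  rw [h1 σ hσ, sub_self]
  exact Submodule.zero_mem _

lemma mem_pow_smul_top_of_forall {A : Type} [CommRing A] (I : Ideal A) (w : Fin 2 → A)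
    (hw : ∀ i, w i ∈ I) : w ∈ I • (⊤ : Submodule A (Fin 2 → A)) := by
  have : w = ∑ i, w i • (Pi.single i (1 : A) : Fin 2 → A) := by
    ext j
    simp [Finset.sum_apply, Pi.single_apply]
  rw [this]
  exact Submodule.sum_mem _ fun i _ => Submodule.smul_mem_smul (hw i) Submodule.mem_top

/-- The `GaloisRepAdic` attached to a continuous matrix representation: `V = Fin 2 → A`,
`σ ↦ (v ↦ r σ *ᵥ v)`. -/
def ofMat {A : Type} [CommRing A] [IsLocalRing A] (r : Gal →* M2 A)
    (h : MatCont A r) : GaloisRepAdic A where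
  V := Fin 2 → A
  finrank_eq := by simp
  ρ := (Matrix.toLinAlgEquiv' : M2 A ≃ₐ[A] Module.End A (Fin 2 → A)).toAlgHom.toRingHom.toMonoidHom.comp r
  isAdicContinuous := by
    intro n
    obtain ⟨L, hL, h1⟩ := h n
    refine ⟨L, hL, fun σ hσ v => ?_⟩
    apply mem_pow_smul_top_of_forall
    intro i
    have : ((Matrix.toLinAlgEquiv' : M2 A ≃ₐ[A] Module.End A (Fin 2 → A)).toAlgHom.toRingHom.toMonoidHom.comp r) σ v - v
        = (r σ - 1).mulVec v := by
      simp [Matrix.sub_mulVec]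
    rw [this]
    simp only [Matrix.mulVec, dotProduct]
    exact Ideal.sum_mem _ fun j _ => Ideal.mul_mem_right _ _ (h1 σ hσ i j)

@[simp] lemma ofMat_ρ_apply {A : Type} [CommRing A] [IsLocalRing A] (r : Gal →* M2 A)
    (h : MatCont A r) (σ : Gal) (v : Fin 2 → A) :
    (ofMat r h).ρ σ v = (r σ).mulVec v := rfl

/-- Push a matrix representation forward along a ring hom. -/
def mapMat {A B : Type} [CommRing A] [CommRing B] (φ : A →+* B) (r : Gal →* M2 A) : Gal →* M2 B :=
  (φ.mapMatrix (m := Fin 2)).toMonoidHom.comp r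

@[simp] lemma mapMat_apply {A B : Type} [CommRing A] [CommRing B] (φ : A →+* B)
    (r : Gal →* M2 A) (σ : Gal) (i j : Fin 2) : mapMat φ r σ i j = φ (r σ i j) := rfl

lemma MatCont.map {A B : Type} [CommRing A] [IsLocalRing A] [CommRing B] [IsLocalRing B]
    (φ : A →+* B) [IsLocalHom φ] {r : Gal →* M2 A} (h : MatCont A r) : MatCont B (mapMat φ r) := by
  intro n
  obtain ⟨L, hL, h1⟩ := h n
  refine ⟨L, hL, fun σ hσ i j => ?_⟩
  have hmap : (maximalIdeal A ^ n).map φ ≤ maximalIdeal B ^ n := by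
    rw [Ideal.map_pow]
    exact Ideal.pow_right_mono (Ideal.map_le_iff_le_comap.mpr fun a ha =>
      Ideal.mem_comap.mpr (map_nonunit φ a ha)) n
  have : (mapMat φ r σ - 1) i j = φ ((r σ - 1) i j) := by
    by_cases hij : i = j <;> simp [Matrix.sub_apply, hij]
  rw [this]
  exact hmap (Ideal.mem_map_of_mem φ (h1 σ hσ i j))

lemma MatFin.map {A B : Type} [CommRing A] [CommRing B]
    (φ : A →+* B) {r : Gal →* M2 A} (h : MatFin A r) : MatFin B (mapMat φ r) := by
  obtain ⟨L, hL, h1⟩ := h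
  refine ⟨L, hL, fun σ hσ => ?_⟩
  ext i j
  simp [h1 σ hσ, Matrix.one_apply]

/-- Conjugate a matrix representation by an invertible matrix: `σ ↦ P * r σ * P⁻¹`. -/
def conjMat {A : Type} [CommRing A] (P : (M2 A)ˣ) (r : Gal →* M2 A) : Gal →* M2 A where
  toFun σ := (P : M2 A) * r σ * ((P⁻¹ : (M2 A)ˣ) : M2 A)
  map_one' := by simp
  map_mul' σ τ := by
    rw [map_mul]
    calc (P : M2 A) * (r σ * r τ) * ((P⁻¹ : (M2 A)ˣ) : M2 A)
        = (P : M2 A) * r σ * (((P⁻¹ : (M2 A)ˣ) : M2 A) * (P : M2 A)) * r τ * ((P⁻¹ : (M2 A)ˣ) : M2 A) := by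
          rw [Units.inv_mul]; simp [mul_assoc]
      _ = _ := by simp [mul_assoc]

@[simp] lemma conjMat_apply {A : Type} [CommRing A] (P : (M2 A)ˣ) (r : Gal →* M2 A) (σ : Gal) :
    conjMat P r σ = (P : M2 A) * r σ * ((P⁻¹ : (M2 A)ˣ) : M2 A) := rfl

/-- The trace function of a matrix representation. -/
def trMat {A : Type} [CommRing A] (r : Gal →* M2 A) (σ : Gal) : A := (r σ).trace

@[simp] lemma trMat_conjMat {A : Type} [CommRing A] (P : (M2 A)ˣ) (r : Gal →* M2 A) (σ : Gal) :
    trMat (conjMat P r) σ = trMat r σ := by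
  simp only [trMat, conjMat_apply]
  rw [Matrix.trace_mul_comm, ← mul_assoc, Units.inv_mul, one_mul]

@[simp] lemma trMat_mapMat {A B : Type} [CommRing A] [CommRing B] (φ : A →+* B)
    (r : Gal →* M2 A) (σ : Gal) : trMat (mapMat φ r) σ = φ (trMat r σ) := by
  simp [trMat, Matrix.trace, mapMat]

end Fermat.Agent.S53lib

end
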