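/-
S53 piece A (helper20): dictionary between `GaloisRepAdic` and matrix representations.
-/
import Mathlib
import Fermat.Agent.S53lib.Defs

set_option autoImplicit false

noncomputable section

namespace Fermat.Agent.S53lib

open IsLocalRing
open scoped TensorProduct

/-- coordinates of an element of `I • ⊤` in a basis lie in `I`. -/
lemma dict_repr_mem_of_mem_smul_top {A : Type} [CommRing A] {V : Type} [AddCommGroup V] [Module A V]
    {ι : Type} (b : Module.Basis ι A V) (I : Ideal A) {w : V}
    (hw : w ∈ I • (⊤ : Submodule A V)) (i : ι) : b.repr w i ∈ I := by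
  refine Submodule.smul_induction_on (p := fun x => b.repr x i ∈ I) hw ?_ ?_
  · intro a ha v _
    rw [map_smul, Finsupp.smul_apply, smul_eq_mul]
    exact Ideal.mul_mem_right _ _ ha
  · intro x y hx hy
    rw [map_add, Finsupp.add_apply]
    exact Ideal.add_mem _ hx hy

/-- The matrix representation attached to a `GaloisRepAdic` and a basis. -/
def matOfBasis {A : Type} [CommRing A] [IsLocalRing A] (X : GaloisRepAdic A)
    (b : Module.Basis (Fin 2) A X.V) : Gal →* M2 A :=
  ((LinearMap.toMatrixAlgEquiv b : Module.End A X.V ≃ₐ[A] M2 A).toAlgHom.toRingHom.toMonoidHom).comp X.ρ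

@[simp] lemma matOfBasis_apply {A : Type} [CommRing A] [IsLocalRing A] (X : GaloisRepAdic A)
    (b : Module.Basis (Fin 2) A X.V) (σ : Gal) :
    matOfBasis X b σ = LinearMap.toMatrix b b (X.ρ σ) := rfl

lemma matOfBasis_matCont {A : Type} [CommRing A] [IsLocalRing A] (X : GaloisRepAdic A)
    (b : Module.Basis (Fin 2) A X.V) : MatCont A (matOfBasis X b) := by
  intro n
  obtain ⟨L, hL, h1⟩ := X.isAdicContinuous n
  refine ⟨L, hL, fun σ hσ i j => ?_⟩
  have h := dict_repr_mem_of_mem_smul_top b _ (h1 σ hσ (b j)) i
  have e : (matOfBasis X b σ - 1) i j = b.repr (X.ρ σ (b j) - b j) i := by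
    rw [Matrix.sub_apply, matOfBasis_apply, LinearMap.toMatrix_apply, map_sub, Finsupp.sub_apply,
      Matrix.one_apply, Module.Basis.repr_self, Finsupp.single_apply]
    by_cases hij : i = j
    · simp [hij]
    · simp [hij, Ne.symm hij]
  rw [e]
  exact h

/-- the equivalence between `ofMat (matOfBasis X b)` and `X`. -/
def matOfBasisEquiv {A : Type} [CommRing A] [IsLocalRing A] (X : GaloisRepAdic A)
    (b : Module.Basis (Fin 2) A X.V) :
    GaloisRepAdic.Equiv (ofMat (matOfBasis X b) (matOfBasis_matCont X b)) X where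
  toLinearEquiv := b.equivFun.symm
  map_apply σ x := by
    have key : ∀ y : Fin 2 → A,
        b.equivFun.symm ((matOfBasis X b σ).mulVec y) = X.ρ σ (b.equivFun.symm y) := by
      intro y
      apply b.equivFun.injective
      rw [LinearEquiv.apply_symm_apply, matOfBasis_apply]
      have := LinearMap.toMatrix_mulVec_repr b b (X.ρ σ) (b.equivFun.symm y)
      ext i
      have h2 := congrFun this i
      simp only [Module.Basis.equivFun_apply] at h2 ⊢
      rw [← h2]
      congr 1
      ext j
      have h3 := congrFun (b.equivFun.apply_symm_apply y) j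
      rw [Module.Basis.equivFun_apply] at h3
      exact h3.symm
    exact key x

/-- A1. Every `GaloisRepAdic` is equivalent to a matrix representation. -/
theorem exists_ofMat_isEquiv {A : Type} [CommRing A] [IsLocalRing A] (X : GaloisRepAdic A) :
    ∃ (r : Gal →* M2 A) (h : MatCont A r), (ofMat r h).IsEquiv X := by
  have b : Module.Basis (Fin 2) A X.V := Module.finBasisOfFinrankEq A X.V X.finrank_eq
  exact ⟨matOfBasis X b, matOfBasis_matCont X b, ⟨matOfBasisEquiv X b⟩⟩

/-- The linear equivalence of `Fin 2 → A` attached to an invertible matrix. -/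
def unitLinearEquiv {A : Type} [CommRing A] (P : (M2 A)ˣ) : (Fin 2 → A) ≃ₗ[A] (Fin 2 → A) :=
  LinearMap.GeneralLinearGroup.generalLinearEquiv A (Fin 2 → A)
    (Units.mapEquiv (Matrix.toLinAlgEquiv' : M2 A ≃ₐ[A] Module.End A (Fin 2 → A)).toMulEquiv P)

@[simp] lemma unitLinearEquiv_apply {A : Type} [CommRing A] (P : (M2 A)ˣ) (v : Fin 2 → A) :
    unitLinearEquiv P v = (P : M2 A).mulVec v := rfl

/-- The invertible matrix attached to a linear equivalence of `Fin 2 → A`. -/
def linearEquivUnit {A : Type} [CommRing A] (e : (Fin 2 → A) ≃ₗ[A] (Fin 2 → A)) : (M2 A)ˣ :=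
  (Units.mapEquiv (Matrix.toLinAlgEquiv' : M2 A ≃ₐ[A] Module.End A (Fin 2 → A)).toMulEquiv).symm
    ((LinearMap.GeneralLinearGroup.generalLinearEquiv A (Fin 2 → A)).symm e)

lemma linearEquivUnit_mulVec {A : Type} [CommRing A] (e : (Fin 2 → A) ≃ₗ[A] (Fin 2 → A))
    (v : Fin 2 → A) : ((linearEquivUnit e : (M2 A)ˣ) : M2 A).mulVec v = e v := by
  have : unitLinearEquiv (linearEquivUnit e) = e := by
    unfold unitLinearEquiv linearEquivUnit
    rw [MulEquiv.apply_symm_apply, MulEquiv.apply_symm_apply]
  rw [← unitLinearEquiv_apply, this]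

lemma conjMat_mul_eq {A : Type} [CommRing A] (P : (M2 A)ˣ) (r : Gal →* M2 A) (σ : Gal) :
    conjMat P r σ * (P : M2 A) = (P : M2 A) * r σ := by
  rw [conjMat_apply, mul_assoc, Units.inv_mul, mul_one]

/-- The equivalence `ofMat r ≃ ofMat (conjMat P r)`. -/
def conjMatEquiv {A : Type} [CommRing A] [IsLocalRing A] (P : (M2 A)ˣ) (r : Gal →* M2 A)
    (h : MatCont A r) (h' : MatCont A (conjMat P r)) :
    GaloisRepAdic.Equiv (ofMat r h) (ofMat (conjMat P r) h') where
  toLinearEquiv := unitLinearEquiv P
  map_apply σ x := by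
    have key : ∀ y : Fin 2 → A,
        (P : M2 A).mulVec ((r σ).mulVec y) = (conjMat P r σ).mulVec ((P : M2 A).mulVec y) := by
      intro y
      rw [Matrix.mulVec_mulVec, Matrix.mulVec_mulVec, conjMat_mul_eq]
    exact key x

/-- A3. Equivalence of matrix representations is conjugacy. -/
theorem ofMat_isEquiv_iff {A : Type} [CommRing A] [IsLocalRing A] (r r' : Gal →* M2 A)
    (h : MatCont A r) (h' : MatCont A r') :
    (ofMat r h).IsEquiv (ofMat r' h') ↔ ∃ P : (M2 A)ˣ, r' = conjMat P r := by
  constructor
  · rintro ⟨e⟩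
    let e' : (Fin 2 → A) ≃ₗ[A] (Fin 2 → A) := e.toLinearEquiv
    refine ⟨linearEquivUnit e', ?_⟩
    ext1 σ
    have key : ((linearEquivUnit e' : (M2 A)ˣ) : M2 A) * r σ
        = r' σ * ((linearEquivUnit e' : (M2 A)ˣ) : M2 A) := by
      apply Matrix.toLin'.injective
      apply LinearMap.ext
      intro v
      rw [Matrix.toLin'_apply, Matrix.toLin'_apply, ← Matrix.mulVec_mulVec, ← Matrix.mulVec_mulVec,
        linearEquivUnit_mulVec, linearEquivUnit_mulVec]
      exact e.map_apply σ v
    rw [conjMat_apply, key, mul_assoc, Units.mul_inv, mul_one]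
  · rintro ⟨P, rfl⟩
    exact ⟨conjMatEquiv P r h h'⟩

lemma MatCont.conj {A : Type} [CommRing A] [IsLocalRing A] {r : Gal →* M2 A}
    (h : MatCont A r) (P : (M2 A)ˣ) : MatCont A (conjMat P r) := by
  intro n
  obtain ⟨L, hL, h1⟩ := h n
  refine ⟨L, hL, fun σ hσ i j => ?_⟩
  have e : conjMat P r σ - 1 = (P : M2 A) * (r σ - 1) * ((P⁻¹ : (M2 A)ˣ) : M2 A) := by
    rw [conjMat_apply, mul_sub, sub_mul, mul_one, Units.mul_inv]
  rw [e]
  simp only [Matrix.mul_apply]
  refine Ideal.sum_mem _ fun a _ => Ideal.mul_mem_right _ _ ?_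
  exact Ideal.sum_mem _ fun b _ => Ideal.mul_mem_left _ _ (h1 σ hσ b a)

/-- The equivalence between the base change of `ofMat r` and `ofMat (mapMat φ r)`. -/
def ofMatBaseChangeEquiv {A B : Type} [CommRing A] [IsLocalRing A] [CommRing B] [IsLocalRing B]
    (φ : A →+* B) (hφ : IsLocalHom φ) (r : Gal →* M2 A) (h : MatCont A r)
    (h' : MatCont B (mapMat φ r)) :
    GaloisRepAdic.Equiv ((ofMat r h).baseChangeAlong φ hφ) (ofMat (mapMat φ r) h') :=
  letI : Algebra A B := φ.toAlgebra
  { toLinearEquiv := TensorProduct.piScalarRight A B B (Fin 2)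
    map_apply := fun σ x => by
      have key : ∀ y : B ⊗[A] (Fin 2 → A),
          TensorProduct.piScalarRight A B B (Fin 2)
            ((Matrix.toLin' (r σ)).baseChange B y) =
          (mapMat φ r σ).mulVec (TensorProduct.piScalarRight A B B (Fin 2) y) := by
        intro y
        induction y using TensorProduct.induction_on with
        | zero => simp only [map_zero, Matrix.mulVec_zero]
        | tmul b v =>
          rw [LinearMap.baseChange_tmul, TensorProduct.piScalarRight_apply,
            TensorProduct.piScalarRight_apply, TensorProduct.piScalarRightHom_tmul,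
            TensorProduct.piScalarRightHom_tmul]
          ext i
          simp only [Matrix.toLin'_apply, Matrix.mulVec, dotProduct, mapMat_apply,
            Algebra.smul_def, RingHom.algebraMap_toAlgebra, map_sum, map_mul, Finset.sum_mul]
          refine Finset.sum_congr rfl fun j _ => ?_
          ring
        | add x y hx hy => simp only [map_add, hx, hy, Matrix.mulVec_add]
      exact key x }

/-- A2. Base change of a matrix representation is the matrix representation of the image. -/
theorem ofMat_baseChangeAlong {A B : Type} [CommRing A] [IsLocalRing A] [CommRing B]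
    [IsLocalRing B] (φ : A →+* B) (hφ : IsLocalHom φ) (r : Gal →* M2 A) (h : MatCont A r)
    (h' : MatCont B (mapMat φ r)) :
    ((ofMat r h).baseChangeAlong φ hφ).IsEquiv (ofMat (mapMat φ r) h') :=
  ⟨ofMatBaseChangeEquiv φ hφ r h h'⟩

/-! ### Residual (field) side -/

/-- The `ResidualGaloisRep` attached to a matrix representation over a field factoring through
a finite level. -/
def resOfMat {K : Type} [Field K] (s : Gal →* M2 K) (hs : MatFin K s) : ResidualGaloisRep K where
  V := Fin 2 → K
  finrank_eq := by simp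
  ρ := (Matrix.toLinAlgEquiv' : M2 K ≃ₐ[K] Module.End K (Fin 2 → K)).toAlgHom.toRingHom.toMonoidHom.comp s
  factorsThroughFiniteLevel := by
    obtain ⟨L, hL, h1⟩ := hs
    refine ⟨L, hL, fun σ hσ => ?_⟩
    rw [MonoidHom.comp_apply, h1 σ hσ, map_one]

@[simp] lemma resOfMat_ρ_apply {K : Type} [Field K] (s : Gal →* M2 K) (hs : MatFin K s)
    (σ : Gal) (v : Fin 2 → K) : (resOfMat s hs).ρ σ v = (s σ).mulVec v := rfl

/-- The matrix representation attached to a `ResidualGaloisRep` and a basis. -/
def resMatOfBasis {K : Type} [Field K] (X : ResidualGaloisRep K)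
    (b : Module.Basis (Fin 2) K X.V) : Gal →* M2 K :=
  ((LinearMap.toMatrixAlgEquiv b : Module.End K X.V ≃ₐ[K] M2 K).toAlgHom.toRingHom.toMonoidHom).comp X.ρ

@[simp] lemma resMatOfBasis_apply {K : Type} [Field K] (X : ResidualGaloisRep K)
    (b : Module.Basis (Fin 2) K X.V) (σ : Gal) :
    resMatOfBasis X b σ = LinearMap.toMatrix b b (X.ρ σ) := rfl

lemma resMatOfBasis_matFin {K : Type} [Field K] (X : ResidualGaloisRep K)
    (b : Module.Basis (Fin 2) K X.V) : MatFin K (resMatOfBasis X b) := by
  obtain ⟨L, hL, h1⟩ := X.factorsThroughFiniteLevel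
  refine ⟨L, hL, fun σ hσ => ?_⟩
  rw [resMatOfBasis, MonoidHom.comp_apply, h1 σ hσ, map_one]

/-- the equivalence between `resOfMat (resMatOfBasis X b)` and `X`. -/
def resMatOfBasisEquiv {K : Type} [Field K] (X : ResidualGaloisRep K)
    (b : Module.Basis (Fin 2) K X.V) :
    ResidualGaloisRep.Equiv (resOfMat (resMatOfBasis X b) (resMatOfBasis_matFin X b)) X where
  toLinearEquiv := b.equivFun.symm
  map_apply σ x := by
    have key : ∀ y : Fin 2 → K,
        b.equivFun.symm ((resMatOfBasis X b σ).mulVec y) = X.ρ σ (b.equivFun.symm y) := by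
      intro y
      apply b.equivFun.injective
      rw [LinearEquiv.apply_symm_apply, resMatOfBasis_apply]
      have := LinearMap.toMatrix_mulVec_repr b b (X.ρ σ) (b.equivFun.symm y)
      ext i
      have h2 := congrFun this i
      simp only [Module.Basis.equivFun_apply] at h2 ⊢
      rw [← h2]
      congr 1
      ext j
      have h3 := congrFun (b.equivFun.apply_symm_apply y) j
      rw [Module.Basis.equivFun_apply] at h3
      exact h3.symm
    exact key x

/-- A chosen basis of the residual representation. -/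
def rbarBasis {k : Type} [Field k] (ρbar : ResidualGaloisRep k) : Module.Basis (Fin 2) k ρbar.V :=
  Module.finBasisOfFinrankEq k ρbar.V ρbar.finrank_eq

/-- A4. The matrix of `ρbar` in a chosen basis. -/
def rbarMat {k : Type} [Field k] (ρbar : ResidualGaloisRep k) : Gal →* M2 k :=
  resMatOfBasis ρbar (rbarBasis ρbar)

theorem rbarMat_matFin {k : Type} [Field k] (ρbar : ResidualGaloisRep k) :
    MatFin k (rbarMat ρbar) :=
  resMatOfBasis_matFin ρbar (rbarBasis ρbar)

/-- `resOfMat (rbarMat ρbar) ≃ ρbar`. -/
def rbarMatEquiv {k : Type} [Field k] (ρbar : ResidualGaloisRep k) :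
    ResidualGaloisRep.Equiv (resOfMat (rbarMat ρbar) (rbarMat_matFin ρbar)) ρbar :=
  resMatOfBasisEquiv ρbar (rbarBasis ρbar)

/-- Base change of `resOfMat s` along a field hom is `resOfMat (mapMat ι s)`. -/
def resOfMatBaseChangeEquiv {K K' : Type} [Field K] [Field K'] (ι : K →+* K')
    (s : Gal →* M2 K) (hs : MatFin K s) (hs' : MatFin K' (mapMat ι s)) :
    ResidualGaloisRep.Equiv ((resOfMat s hs).baseChangeAlong ι) (resOfMat (mapMat ι s) hs') :=
  letI : Algebra K K' := ι.toAlgebra
  { toLinearEquiv := TensorProduct.piScalarRight K K' K' (Fin 2)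
    map_apply := fun σ x => by
      have key : ∀ y : K' ⊗[K] (Fin 2 → K),
          TensorProduct.piScalarRight K K' K' (Fin 2)
            ((Matrix.toLin' (s σ)).baseChange K' y) =
          (mapMat ι s σ).mulVec (TensorProduct.piScalarRight K K' K' (Fin 2) y) := by
        intro y
        induction y using TensorProduct.induction_on with
        | zero => simp only [map_zero, Matrix.mulVec_zero]
        | tmul b v =>
          rw [LinearMap.baseChange_tmul, TensorProduct.piScalarRight_apply,
            TensorProduct.piScalarRight_apply, TensorProduct.piScalarRightHom_tmul,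
            TensorProduct.piScalarRightHom_tmul]
          ext i
          simp only [Matrix.toLin'_apply, Matrix.mulVec, dotProduct, mapMat_apply,
            Algebra.smul_def, RingHom.algebraMap_toAlgebra, map_sum, map_mul, Finset.sum_mul]
          refine Finset.sum_congr rfl fun j _ => ?_
          ring
        | add x y hx hy => simp only [map_add, hx, hy, Matrix.mulVec_add]
      exact key x }

/-- The residual representation of `ofMat r` is `resOfMat (mapMat (residue A) r)`. -/
def ofMatResidualEquiv {A : Type} [CommRing A] [IsLocalRing A] (r : Gal →* M2 A)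
    (h : MatCont A r) (hs : MatFin (ResidueField A) (mapMat (residue A) r)) :
    ResidualGaloisRep.Equiv (ofMat r h).residual (resOfMat (mapMat (residue A) r) hs) where
  toLinearEquiv := TensorProduct.piScalarRight A (ResidueField A) (ResidueField A) (Fin 2)
  map_apply := fun σ x => by
    have key : ∀ y : ResidueField A ⊗[A] (Fin 2 → A),
        TensorProduct.piScalarRight A (ResidueField A) (ResidueField A) (Fin 2)
          ((Matrix.toLin' (r σ)).baseChange (ResidueField A) y) =
        (mapMat (residue A) r σ).mulVec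
          (TensorProduct.piScalarRight A (ResidueField A) (ResidueField A) (Fin 2) y) := by
      intro y
      induction y using TensorProduct.induction_on with
      | zero => simp only [map_zero, Matrix.mulVec_zero]
      | tmul b v =>
        rw [LinearMap.baseChange_tmul, TensorProduct.piScalarRight_apply,
          TensorProduct.piScalarRight_apply, TensorProduct.piScalarRightHom_tmul,
          TensorProduct.piScalarRightHom_tmul]
        ext i
        simp only [Matrix.toLin'_apply, Matrix.mulVec, dotProduct, mapMat_apply,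
          Algebra.smul_def, IsLocalRing.ResidueField.algebraMap_eq, map_sum, map_mul,
          Finset.sum_mul]
        refine Finset.sum_congr rfl fun j _ => ?_
        ring
      | add x y hx hy => simp only [map_add, hx, hy, Matrix.mulVec_add]
    exact key x

/-- The residual matrix representation of an adically continuous matrix representation factors
through a finite level. -/
lemma MatCont.residue_matFin {A : Type} [CommRing A] [IsLocalRing A] {r : Gal →* M2 A}
    (h : MatCont A r) : MatFin (ResidueField A) (mapMat (residue A) r) := by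
  obtain ⟨L, hL, h1⟩ := h 1
  refine ⟨L, hL, fun σ hσ => ?_⟩
  ext i j
  have := h1 σ hσ i j
  rw [pow_one, ← IsLocalRing.residue_eq_zero_iff, Matrix.sub_apply, map_sub, sub_eq_zero] at this
  rw [mapMat_apply, this, Matrix.one_apply, Matrix.one_apply]
  split_ifs <;> simp

/-- The equivalence `resOfMat s ≃ resOfMat (conjMat Q s)`. -/
def resConjMatEquiv {K : Type} [Field K] (Q : (M2 K)ˣ) (s : Gal →* M2 K)
    (hs : MatFin K s) (hs' : MatFin K (conjMat Q s)) :
    ResidualGaloisRep.Equiv (resOfMat s hs) (resOfMat (conjMat Q s) hs') where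
  toLinearEquiv := unitLinearEquiv Q
  map_apply σ x := by
    have key : ∀ y : Fin 2 → K,
        (Q : M2 K).mulVec ((s σ).mulVec y) = (conjMat Q s σ).mulVec ((Q : M2 K).mulVec y) := by
      intro y
      rw [Matrix.mulVec_mulVec, Matrix.mulVec_mulVec, conjMat_mul_eq]
    exact key x

lemma MatFin.conj {K : Type} [CommRing K] {s : Gal →* M2 K} (hs : MatFin K s) (Q : (M2 K)ˣ) :
    MatFin K (conjMat Q s) := by
  obtain ⟨L, hL, h1⟩ := hs
  refine ⟨L, hL, fun σ hσ => ?_⟩
  rw [conjMat_apply, h1 σ hσ, mul_one, Units.mul_inv]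

/-- Equivalence of residual matrix representations is conjugacy. -/
theorem resOfMat_isEquiv_iff {K : Type} [Field K] (s s' : Gal →* M2 K)
    (hs : MatFin K s) (hs' : MatFin K s') :
    (resOfMat s hs).IsEquiv (resOfMat s' hs') ↔ ∃ Q : (M2 K)ˣ, s' = conjMat Q s := by
  constructor
  · rintro ⟨e⟩
    let e' : (Fin 2 → K) ≃ₗ[K] (Fin 2 → K) := e.toLinearEquiv
    refine ⟨linearEquivUnit e', ?_⟩
    ext1 σ
    have key : ((linearEquivUnit e' : (M2 K)ˣ) : M2 K) * s σ
        = s' σ * ((linearEquivUnit e' : (M2 K)ˣ) : M2 K) := by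
      apply Matrix.toLin'.injective
      apply LinearMap.ext
      intro v
      rw [Matrix.toLin'_apply, Matrix.toLin'_apply, ← Matrix.mulVec_mulVec, ← Matrix.mulVec_mulVec,
        linearEquivUnit_mulVec, linearEquivUnit_mulVec]
      exact e.map_apply σ v
    rw [conjMat_apply, key, mul_assoc, Units.mul_inv, mul_one]
  · rintro ⟨Q, rfl⟩
    exact ⟨resConjMatEquiv Q s hs hs'⟩

lemma mapMat_conjMat {A B : Type} [CommRing A] [CommRing B] (φ : A →+* B) (P : (M2 A)ˣ)
    (r : Gal →* M2 A) :
    mapMat φ (conjMat P r) = conjMat (Units.map (φ.mapMatrix (m := Fin 2)).toMonoidHom P) (mapMat φ r) := by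
  ext1 σ
  change φ.mapMatrix ((P : M2 A) * r σ * ((P⁻¹ : (M2 A)ˣ) : M2 A)) =
    φ.mapMatrix (P : M2 A) * φ.mapMatrix (r σ) *
      ((Units.map (φ.mapMatrix (m := Fin 2)).toMonoidHom P)⁻¹ : (M2 B)ˣ)
  rw [map_mul, map_mul, ← map_inv]
  rfl

/-- Invertible matrices lift along the residue map of a local ring. -/
lemma exists_unit_lift_residue {A : Type} [CommRing A] [IsLocalRing A] (Q : (M2 (ResidueField A))ˣ) :
    ∃ P : (M2 A)ˣ, Units.map ((residue A).mapMatrix (m := Fin 2)).toMonoidHom P = Q := by
  have hsurj : Function.Surjective (residue A) := IsLocalRing.residue_surjective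
  choose f hf using hsurj
  let P₀ : M2 A := Matrix.of fun i j => f ((Q : M2 (ResidueField A)) i j)
  have hP₀ : (residue A).mapMatrix P₀ = (Q : M2 (ResidueField A)) := by
    ext i j
    simp [P₀, hf]
  have hdet : IsUnit P₀.det := by
    have h1 : residue A P₀.det = (Q : M2 (ResidueField A)).det := by
      rw [← hP₀, RingHom.map_det]
    have h2 : IsUnit (Q : M2 (ResidueField A)).det :=
      (Matrix.isUnit_iff_isUnit_det _).mp Q.isUnit
    by_contra hnu
    have : residue A P₀.det = 0 := (IsLocalRing.residue_eq_zero_iff _).mpr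
      ((IsLocalRing.mem_maximalIdeal _).mpr hnu)
    rw [h1] at this
    exact h2.ne_zero this
  have hU : IsUnit P₀ := (Matrix.isUnit_iff_isUnit_det _).mpr hdet
  refine ⟨hU.unit, ?_⟩
  ext1
  rw [Units.coe_map]
  exact hP₀

/-- A4. Strict lifts of a residual matrix representation. -/
def IsStrictLift {k A : Type} [Field k] [CommRing A] [IsLocalRing A]
    (ι : k →+* ResidueField A) (rb : Gal →* M2 k) (r : Gal →* M2 A) : Prop :=
  mapMat (residue A) r = mapMat ι rb

/-- A4. A strict lift of `rbarMat ρbar` has residual representation equivalent to `ρbar`. -/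
theorem residual_isEquiv_of_strict {k A : Type} [Field k] [CommRing A] [IsLocalRing A]
    (ι : k →+* ResidueField A) (ρbar : ResidualGaloisRep k) (r : Gal →* M2 A) (h : MatCont A r)
    (hstrict : IsStrictLift ι (rbarMat ρbar) r) :
    (ofMat r h).residual.IsEquiv (ρbar.baseChangeAlong ι) := by
  have hs' : MatFin (ResidueField A) (mapMat ι (rbarMat ρbar)) := (rbarMat_matFin ρbar).map ι
  have e1 := ofMatResidualEquiv r h h.residue_matFin
  have e2 := resOfMatBaseChangeEquiv ι (rbarMat ρbar) (rbarMat_matFin ρbar) hs'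
  have e3 := ResidualGaloisRep.Equiv.baseChangeAlong ι (rbarMatEquiv ρbar)
  have e12 : ResidualGaloisRep.Equiv (ofMat r h).residual
      (resOfMat (mapMat ι (rbarMat ρbar)) hs') := by
    have : ∀ (s : Gal →* M2 (ResidueField A)) (hs : MatFin (ResidueField A) s),
        s = mapMat ι (rbarMat ρbar) →
        ResidualGaloisRep.Equiv (resOfMat s hs) (resOfMat (mapMat ι (rbarMat ρbar)) hs') := by
      rintro s hs rfl
      exact ResidualGaloisRep.Equiv.refl _
    exact e1.trans (this _ _ hstrict)
  exact ⟨e12.trans (e2.symm.trans e3)⟩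

/-- A4. A deformation whose residual representation is equivalent to `ρbar` is equivalent to a
strict matrix lift of `rbarMat ρbar`. -/
theorem exists_strict_of_residual_isEquiv {k A : Type} [Field k] [CommRing A] [IsLocalRing A]
    (ι : k →+* ResidueField A) (ρbar : ResidualGaloisRep k) (X : GaloisRepAdic A)
    (hX : X.residual.IsEquiv (ρbar.baseChangeAlong ι)) :
    ∃ (r : Gal →* M2 A) (h : MatCont A r),
      IsStrictLift ι (rbarMat ρbar) r ∧ (ofMat r h).IsEquiv X := by
  obtain ⟨r₀, h₀, ⟨e₀⟩⟩ := exists_ofMat_isEquiv X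
  obtain ⟨eX⟩ := hX
  have hs' : MatFin (ResidueField A) (mapMat ι (rbarMat ρbar)) := (rbarMat_matFin ρbar).map ι
  have e1 := ofMatResidualEquiv r₀ h₀ h₀.residue_matFin
  have e2 := resOfMatBaseChangeEquiv ι (rbarMat ρbar) (rbarMat_matFin ρbar) hs'
  have e3 := ResidualGaloisRep.Equiv.baseChangeAlong ι (rbarMatEquiv ρbar)
  -- resOfMat (residue r₀) ≃ (ofMat r₀).residual ≃ X.residual ≃ ρbar.bc ≃ (resOfMat rb).bc ≃ resOfMat (ι rb)
  have e : ResidualGaloisRep.Equiv (resOfMat (mapMat (residue A) r₀) h₀.residue_matFin)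
      (resOfMat (mapMat ι (rbarMat ρbar)) hs') :=
    e1.symm.trans (e₀.residual.trans (eX.trans (e3.symm.trans e2)))
  obtain ⟨Q, hQ⟩ := (resOfMat_isEquiv_iff _ _ _ _).mp ⟨e⟩
  obtain ⟨P, hP⟩ := exists_unit_lift_residue Q
  refine ⟨conjMat P r₀, h₀.conj P, ?_, ?_⟩
  · unfold IsStrictLift
    rw [mapMat_conjMat, hP, hQ]
  · exact ⟨(conjMatEquiv P r₀ h₀ (h₀.conj P)).symm.trans e₀⟩

/-- Base change (w.r.t. an arbitrary algebra structure) of `resOfMat s`. -/
def resOfMatBaseChangeEquiv' {K K' : Type} [Field K] [Field K'] [Algebra K K']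
    (s : Gal →* M2 K) (hs : MatFin K s) (hs' : MatFin K' (mapMat (algebraMap K K') s)) :
    ResidualGaloisRep.Equiv ((resOfMat s hs).baseChange K')
      (resOfMat (mapMat (algebraMap K K') s) hs') where
  toLinearEquiv := TensorProduct.piScalarRight K K' K' (Fin 2)
  map_apply := fun σ x => by
    have key : ∀ y : K' ⊗[K] (Fin 2 → K),
        TensorProduct.piScalarRight K K' K' (Fin 2)
          ((Matrix.toLin' (s σ)).baseChange K' y) =
        (mapMat (algebraMap K K') s σ).mulVec (TensorProduct.piScalarRight K K' K' (Fin 2) y) := by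
      intro y
      induction y using TensorProduct.induction_on with
      | zero => simp only [map_zero, Matrix.mulVec_zero]
      | tmul b v =>
        rw [LinearMap.baseChange_tmul, TensorProduct.piScalarRight_apply,
          TensorProduct.piScalarRight_apply, TensorProduct.piScalarRightHom_tmul,
          TensorProduct.piScalarRightHom_tmul]
        ext i
        simp only [Matrix.toLin'_apply, Matrix.mulVec, dotProduct, mapMat_apply,
          Algebra.smul_def, map_sum, map_mul, Finset.sum_mul]
        refine Finset.sum_congr rfl fun j _ => ?_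
        ring
      | add x y hx hy => simp only [map_add, hx, hy, Matrix.mulVec_add]
    exact key x

/-- Base change (w.r.t. an arbitrary algebra structure) of an equivalence. -/
def resEquivBaseChange {K : Type} [Field K] (K' : Type) [Field K'] [Algebra K K']
    {ρ₁ ρ₂ : ResidualGaloisRep K} (e : ResidualGaloisRep.Equiv ρ₁ ρ₂) :
    ResidualGaloisRep.Equiv (ρ₁.baseChange K') (ρ₂.baseChange K') where
  toLinearEquiv := e.toLinearEquiv.baseChange K K' ρ₁.V ρ₂.V
  map_apply := fun σ x => by
    have key : ∀ y : K' ⊗[K] ρ₁.V, e.toLinearEquiv.baseChange K K' ρ₁.V ρ₂.V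
          ((ρ₁.ρ σ).baseChange K' y) =
        (ρ₂.ρ σ).baseChange K' (e.toLinearEquiv.baseChange K K' ρ₁.V ρ₂.V y) := by
      intro y
      induction y using TensorProduct.induction_on with
      | zero => simp only [map_zero]
      | tmul b v =>
        rw [LinearMap.baseChange_tmul, LinearEquiv.baseChange_tmul, LinearEquiv.baseChange_tmul,
          LinearMap.baseChange_tmul, e.map_apply]
      | add x y hx hy => simp only [map_add, hx, hy]
    exact key x

/-- A4. Absolute irreducibility in matrix form: no common eigenvector over the algebraic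
closure. -/
theorem absIrr_matrix {k : Type} [Field k] (ρbar : ResidualGaloisRep k)
    (habs : ρbar.IsAbsolutelyIrreducible) :
    ∀ v : Fin 2 → AlgebraicClosure k, v ≠ 0 →
      ¬ ∀ g : Gal, ∃ c : AlgebraicClosure k,
        ((rbarMat ρbar g).map (algebraMap k (AlgebraicClosure k))).mulVec v = c • v := by
  intro v hv hall
  have hs' : MatFin (AlgebraicClosure k) (mapMat (algebraMap k (AlgebraicClosure k)) (rbarMat ρbar)) :=
    (rbarMat_matFin ρbar).map _
  let E : ResidualGaloisRep.Equiv
      (resOfMat (mapMat (algebraMap k (AlgebraicClosure k)) (rbarMat ρbar)) hs')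
      (ρbar.baseChange (AlgebraicClosure k)) :=
    (resOfMatBaseChangeEquiv' (rbarMat ρbar) (rbarMat_matFin ρbar) hs').symm.trans
      (resEquivBaseChange (AlgebraicClosure k) (rbarMatEquiv ρbar))
  let f : (Fin 2 → AlgebraicClosure k) ≃ₗ[AlgebraicClosure k] (ρbar.baseChange (AlgebraicClosure k)).V :=
    E.toLinearEquiv
  have hf : ∀ (σ : Gal) (y : Fin 2 → AlgebraicClosure k),
      f ((mapMat (algebraMap k (AlgebraicClosure k)) (rbarMat ρbar) σ).mulVec y) =
        (ρbar.baseChange (AlgebraicClosure k)).ρ σ (f y) := fun σ y => E.map_apply σ y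
  set w := f v with hw
  have hw0 : w ≠ 0 := fun h0 => hv (f.injective (by rw [← hw, h0, map_zero]))
  have hstab : ∀ σ : Gal, ∀ x ∈ Submodule.span (AlgebraicClosure k) {w},
      (ρbar.baseChange (AlgebraicClosure k)).ρ σ x ∈ Submodule.span (AlgebraicClosure k) {w} := by
    intro σ x hx
    obtain ⟨a, rfl⟩ := Submodule.mem_span_singleton.mp hx
    obtain ⟨c, hc⟩ := hall σ
    rw [map_smul, hw, ← hf σ v]
    have : (mapMat (algebraMap k (AlgebraicClosure k)) (rbarMat ρbar) σ).mulVec v = c • v := hc
    rw [this, map_smul]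
    exact Submodule.smul_mem _ _ (Submodule.smul_mem _ _ (Submodule.mem_span_singleton_self _))
  rcases habs _ hstab with h | h
  · exact hw0 ((Submodule.span_singleton_eq_bot).mp h)
  · have h2 : Module.finrank (AlgebraicClosure k) (ρbar.baseChange (AlgebraicClosure k)).V = 2 :=
      (ρbar.baseChange (AlgebraicClosure k)).finrank_eq
    have h1 : Module.finrank (AlgebraicClosure k)
        (Submodule.span (AlgebraicClosure k) {w}) = 1 := finrank_span_singleton hw0
    rw [h, finrank_top, h2] at h1
    omega

end Fermat.Agent.S53lib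

end
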