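/-
S53 helper library — Schur's lemma over local rings (helper13).

* `centralizer_scalar_of_span` : `A` ANY local ring, `r : G → Matrix n n A`; if the reductions of the `r g`
  span the full matrix algebra over the residue field, then every matrix commuting with all `r g` is scalar.
* `span_eq_top_of_residue_span` : under the same hypothesis the `r g` span `Matrix n n A` over `A` (Nakayama).
* `matrix_scalar_of_commute_of_residue` : `A` local Artinian, abstract centraliser hypothesis on the residue field.
-/
import Mathlib

set_option autoImplicit false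

open IsLocalRing

namespace Fermat.Agent.S53lib

section SchurSpan

variable {A : Type*} [CommRing A] [IsLocalRing A]
variable {n : Type*} [Fintype n] [DecidableEq n]
variable {G : Type*}

omit [IsLocalRing A] in
/-- A matrix all of whose entries lie in `I` lies in `I • ⊤`. -/
theorem matrix_mem_smul_top_of_entries {I : Ideal A} (M : Matrix n n A)
    (hM : ∀ i j, M i j ∈ I) : M ∈ I • (⊤ : Submodule A (Matrix n n A)) := by
  classical
  rw [Matrix.matrix_eq_sum_single M]
  refine Submodule.sum_mem _ fun i _ => Submodule.sum_mem _ fun j _ => ?_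
  have : Matrix.single i j (M i j) = M i j • Matrix.single i j (1 : A) := by
    rw [Matrix.smul_single, smul_eq_mul, mul_one]
  rw [this]
  exact Submodule.smul_mem_smul (hM i j) Submodule.mem_top

/-- Nakayama: if the reductions of the `r g` span the matrix algebra over the residue field,
the `r g` span the matrix algebra over `A`. -/
theorem span_eq_top_of_residue_span (r : G → Matrix n n A)
    (hspan : Submodule.span (ResidueField A)
      (Set.range fun g => (r g).map (residue A)) = ⊤) :
    Submodule.span A (Set.range r) = ⊤ := by
  classical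
  rw [eq_top_iff]
  have hjac : maximalIdeal A ≤ (⊥ : Ideal A).jacobson := by
    rw [IsLocalRing.jacobson_eq_maximalIdeal ⊥ bot_ne_top]
  have hfg : (⊤ : Submodule A (Matrix n n A)).FG := Module.Finite.fg_top
  refine Submodule.le_of_le_smul_of_le_jacobson_bot hfg hjac ?_
  intro M _
  -- the reduction of `M` is a combination of the reductions of the `r g`
  have hM : M.map (residue A) ∈ Submodule.span (ResidueField A)
      (Set.range fun g => (r g).map (residue A)) := by rw [hspan]; trivial
  -- general claim: every element of the residue span lifts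
  have key : ∀ Y ∈ Submodule.span (ResidueField A)
      (Set.range fun g => (r g).map (residue A)),
      ∃ W ∈ Submodule.span A (Set.range r), W.map (residue A) = Y := by
    intro Y hY
    induction hY using Submodule.span_induction with
    | mem Y hY =>
      obtain ⟨g, rfl⟩ := hY
      exact ⟨r g, Submodule.subset_span ⟨g, rfl⟩, rfl⟩
    | zero => exact ⟨0, Submodule.zero_mem _, by ext i j; simp⟩
    | add Y₁ Y₂ _ _ h₁ h₂ =>
      obtain ⟨W₁, hW₁, rfl⟩ := h₁
      obtain ⟨W₂, hW₂, rfl⟩ := h₂
      exact ⟨W₁ + W₂, Submodule.add_mem _ hW₁ hW₂, by ext i j; simp⟩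
    | smul c Y _ h =>
      obtain ⟨W, hW, rfl⟩ := h
      obtain ⟨a, rfl⟩ := IsLocalRing.residue_surjective c
      exact ⟨a • W, Submodule.smul_mem _ _ hW, by ext i j; simp⟩
  obtain ⟨W, hW, hWM⟩ := key _ hM
  have hdiff : M - W ∈ maximalIdeal A • (⊤ : Submodule A (Matrix n n A)) := by
    apply matrix_mem_smul_top_of_entries
    intro i j
    rw [← IsLocalRing.residue_eq_zero_iff, Matrix.sub_apply, map_sub, sub_eq_zero]
    have := congrFun (congrFun hWM i) j
    simpa using this.symm
  have : M = W + (M - W) := by abel
  rw [this]
  exact Submodule.add_mem_sup hW hdiff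

/-- **Schur's lemma over a local ring (span form).** If the reductions of the `r g` span the matrix algebra
over the residue field, every matrix commuting with all the `r g` is scalar. -/
theorem centralizer_scalar_of_span (r : G → Matrix n n A)
    (hspan : Submodule.span (ResidueField A)
      (Set.range fun g => (r g).map (residue A)) = ⊤)
    (X : Matrix n n A) (hX : ∀ g, X * r g = r g * X) :
    ∃ a : A, X = Matrix.scalar n a := by
  classical
  have htop := span_eq_top_of_residue_span r hspan
  have hall : ∀ M : Matrix n n A, X * M = M * X := by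
    intro M
    have hM : M ∈ Submodule.span A (Set.range r) := by rw [htop]; trivial
    induction hM using Submodule.span_induction with
    | mem M hM => obtain ⟨g, rfl⟩ := hM; exact hX g
    | zero => simp
    | add M₁ M₂ _ _ h₁ h₂ => rw [mul_add, add_mul, h₁, h₂]
    | smul c M _ h => rw [Matrix.mul_smul, Matrix.smul_mul, h]
  have : X ∈ Set.range (Matrix.scalar n) :=
    Matrix.mem_range_scalar_of_commute_single fun i j _ => (hall _).symm
  obtain ⟨a, ha⟩ := this
  exact ⟨a, ha.symm⟩

end SchurSpan

section SchurMatrix

variable {A : Type*} [CommRing A] [IsLocalRing A] [IsArtinianRing A]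
variable {n : Type*} [Fintype n] [DecidableEq n]

set_option linter.unusedSectionVars false

/-- **Schur over a local Artinian ring, abstract form.** If every matrix over the residue field commuting
with the reductions of all `s ∈ S` is scalar, then every matrix over `A` commuting with all `s ∈ S` is scalar. -/
theorem matrix_scalar_of_commute_of_residue
    (S : Set (Matrix n n A))
    (hres : ∀ Y : Matrix n n (ResidueField A),
      (∀ s ∈ S, Y * s.map (residue A) = s.map (residue A) * Y) → ∃ c, Y = Matrix.scalar n c)
    (X : Matrix n n A) (hX : ∀ s ∈ S, X * s = s * X) :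
    ∃ a : A, X = Matrix.scalar n a := by
  classical
  let P : Set (Ideal A) := {I | ∃ a : A, ∀ i j, (X - Matrix.scalar n a) i j ∈ I}
  have hPtop : (⊤ : Ideal A) ∈ P := ⟨0, fun _ _ => Submodule.mem_top⟩
  obtain ⟨I₀, hI₀, hmin⟩ := IsArtinian.set_has_minimal P ⟨⊤, hPtop⟩
  by_cases h0 : I₀ = ⊥
  · subst h0
    obtain ⟨a, ha⟩ := hI₀
    refine ⟨a, ?_⟩
    ext i j
    have h := ha i j
    rw [Submodule.mem_bot, Matrix.sub_apply, sub_eq_zero] at h
    exact h
  · exfalso
    -- a maximal proper sub-ideal `I'` of `I₀`
    have hne : ({J : Ideal A | J < I₀} : Set (Ideal A)).Nonempty := ⟨⊥, bot_lt_iff_ne_bot.mpr h0⟩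
    obtain ⟨I', hI'lt, hI'max⟩ :=
      (set_has_maximal_iff_noetherian (R := A) (M := A)).mpr inferInstance _ hne
    have hI'lt' : I' < I₀ := hI'lt
    -- any ideal strictly between does not exist
    have hbetween : ∀ J : Ideal A, I' ≤ J → J ≤ I₀ → J = I' ∨ J = I₀ := by
      intro J h1 h2
      by_cases hJ : J = I₀
      · exact Or.inr hJ
      · left
        have hJlt : J < I₀ := lt_of_le_of_ne h2 hJ
        by_contra hne'
        exact hI'max J hJlt (lt_of_le_of_ne h1 (Ne.symm hne'))
    -- Nakayama: `m * I₀ ≤ I'`
    have hmI : maximalIdeal A * I₀ ≤ I' := by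
      have hJ := hbetween (I' ⊔ maximalIdeal A * I₀) le_sup_left
        (sup_le hI'lt'.le Ideal.mul_le_right)
      rcases hJ with hJ | hJ
      · rw [← hJ]; exact le_sup_right
      · exfalso
        have hjac : maximalIdeal A ≤ (⊥ : Ideal A).jacobson := by
          rw [IsLocalRing.jacobson_eq_maximalIdeal ⊥ bot_ne_top]
        have := Submodule.le_of_le_smul_of_le_jacobson_bot (N := I') (N' := I₀)
          (IsNoetherian.noetherian I₀) hjac (by rw [smul_eq_mul, hJ])
        exact absurd (le_antisymm hI'lt'.le this) hI'lt'.ne
    -- pick `t ∈ I₀ \ I'`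
    obtain ⟨t, htI₀, htI'⟩ := SetLike.exists_of_lt hI'lt'
    have hspan : I' ⊔ Ideal.span {t} = I₀ := by
      rcases hbetween (I' ⊔ Ideal.span {t}) le_sup_left
        (sup_le hI'lt'.le ((Ideal.span_singleton_le_iff_mem _).mpr htI₀)) with h | h
      · exfalso
        apply htI'
        rw [← h]
        exact Ideal.mem_sup_right (Ideal.subset_span rfl)
      · exact h
    have hdecomp : ∀ z ∈ I₀, ∃ y : A, z - y * t ∈ I' := by
      intro z hz
      rw [← hspan] at hz
      obtain ⟨z', hz', w, hw, rfl⟩ := Submodule.mem_sup.mp hz
      obtain ⟨y, rfl⟩ := Ideal.mem_span_singleton'.mp hw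
      exact ⟨y, by simpa using hz'⟩
    have hunit : ∀ c : A, t * c ∈ I' → c ∈ maximalIdeal A := by
      intro c hc
      by_contra hcm
      have hu : IsUnit c := IsLocalRing.notMem_maximalIdeal.mp hcm
      obtain ⟨u, rfl⟩ := hu
      apply htI'
      have := Ideal.mul_mem_right (↑u⁻¹ : A) I' hc
      simpa [mul_assoc] using this
    obtain ⟨a, ha⟩ := hI₀
    set Z : Matrix n n A := X - Matrix.scalar n a with hZ
    choose Y hY using fun i j => hdecomp (Z i j) (ha i j)
    let Ym : Matrix n n A := Matrix.of Y
    let Z' : Matrix n n A := Z - t • Ym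
    have hZ' : ∀ i j, Z' i j ∈ I' := by
      intro i j
      have := hY i j
      simpa [Z', Ym, mul_comm] using this
    have hZdecomp : Z = Z' + t • Ym := by simp [Z']
    -- commutation
    have hZcomm : ∀ s ∈ S, Z * s = s * Z := by
      intro s hs
      rw [hZ, Matrix.sub_mul, Matrix.mul_sub, hX s hs,
        (Matrix.scalar_commute a (fun r' => Commute.all a r') s).eq]
    have hYcomm : ∀ s ∈ S, ∀ i j, (Ym * s - s * Ym) i j ∈ maximalIdeal A := by
      intro s hs i j
      apply hunit
      have h1 : t • (Ym * s - s * Ym) = s * Z' - Z' * s := by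
        have := hZcomm s hs
        rw [hZdecomp, Matrix.add_mul, Matrix.mul_add, Matrix.smul_mul, Matrix.mul_smul] at this
        rw [smul_sub]
        rw [sub_eq_sub_iff_add_eq_add]
        rw [add_comm (t • (Ym * s)), this, add_comm]
      have h2 : (t • (Ym * s - s * Ym)) i j = t * (Ym * s - s * Ym) i j := by
        simp [Matrix.smul_apply]
      rw [← h2, h1, Matrix.sub_apply, Matrix.mul_apply, Matrix.mul_apply]
      refine Ideal.sub_mem I' (Ideal.sum_mem I' fun k _ => Ideal.mul_mem_left I' _ (hZ' k j))
        (Ideal.sum_mem I' fun k _ => Ideal.mul_mem_right _ I' (hZ' i k))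
    have hYbar : ∀ s ∈ S, Ym.map (residue A) * s.map (residue A) =
        s.map (residue A) * Ym.map (residue A) := by
      intro s hs
      ext i j
      have := (IsLocalRing.residue_eq_zero_iff _).mpr (hYcomm s hs i j)
      rw [Matrix.sub_apply, map_sub, sub_eq_zero, RingHom.map_matrix_mul,
        RingHom.map_matrix_mul] at this
      exact this
    obtain ⟨cbar, hc⟩ := hres _ hYbar
    obtain ⟨c, rfl⟩ := IsLocalRing.residue_surjective cbar
    have hYc : ∀ i j, (Ym - Matrix.scalar n c) i j ∈ maximalIdeal A := by
      intro i j
      rw [← IsLocalRing.residue_eq_zero_iff]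
      have := congrFun (congrFun hc i) j
      simp only [Matrix.map_apply] at this
      rw [Matrix.sub_apply, map_sub, this, sub_eq_zero]
      by_cases hij : i = j
      · subst hij; simp
      · simp [hij]
    -- now `P I'`
    have hPI' : I' ∈ P := by
      refine ⟨a + c * t, fun i j => ?_⟩
      have e : (X - Matrix.scalar n (a + c * t)) i j =
          Z' i j + (Ym - Matrix.scalar n c) i j * t := by
        have hZij : Z i j = Z' i j + t * Ym i j := by
          have := congrFun (congrFun hZdecomp i) j
          simpa [Matrix.add_apply, Matrix.smul_apply] using this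
        have hXij : (X - Matrix.scalar n (a + c * t)) i j =
            Z i j - (Matrix.scalar n c) i j * t := by
          rw [hZ]
          by_cases hij : i = j
          · subst hij; simp; ring
          · simp [hij]
        rw [hXij, hZij, Matrix.sub_apply]
        ring
      rw [e]
      exact I'.add_mem (hZ' i j) (hmI (Ideal.mul_mem_mul (hYc i j) htI₀))
    exact hmin I' hPI' hI'lt'

end SchurMatrix

end Fermat.Agent.S53lib
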