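/-
S53 — piece C: Carayol-type descent of a 2-dimensional representation to a subring containing the
traces (via idempotent lifting), for a commutative ring `A` with a nilpotent ideal `J`.
Pure algebra: `G` is any monoid.
-/
import Fermat.Agent.S53lib.Defs

set_option autoImplicit false

noncomputable section

namespace Fermat.Agent.S53lib

open Matrix

section core

variable {G : Type} [Monoid G] {A : Type} [CommRing A]

/-- The matrix units we need. -/
def E11 (A : Type) [CommRing A] : M2 A := !![1, 0; 0, 0]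
def E12 (A : Type) [CommRing A] : M2 A := !![0, 1; 0, 0]
def E21 (A : Type) [CommRing A] : M2 A := !![0, 0; 1, 0]

/-- All entries of `y` lie in the ideal `J`. -/
def EntriesIn (J : Ideal A) (y : M2 A) : Prop := ∀ i j, y i j ∈ J

lemma EntriesIn.add {J : Ideal A} {y z : M2 A} (hy : EntriesIn J y) (hz : EntriesIn J z) :
    EntriesIn J (y + z) := fun i j => J.add_mem (hy i j) (hz i j)

lemma EntriesIn.neg {J : Ideal A} {y : M2 A} (hy : EntriesIn J y) :
    EntriesIn J (-y) := fun i j => J.neg_mem (hy i j)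

lemma EntriesIn.sub {J : Ideal A} {y z : M2 A} (hy : EntriesIn J y) (hz : EntriesIn J z) :
    EntriesIn J (y - z) := fun i j => J.sub_mem (hy i j) (hz i j)

lemma EntriesIn.zero (J : Ideal A) : EntriesIn J (0 : M2 A) := fun _ _ => J.zero_mem

lemma EntriesIn.mul {J K : Ideal A} {y z : M2 A} (hy : EntriesIn J y) (hz : EntriesIn K z) :
    EntriesIn (J * K) (y * z) := fun i j => by
  rw [Matrix.mul_apply]
  exact Ideal.sum_mem _ fun k _ => Ideal.mul_mem_mul (hy i k) (hz k j)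

lemma EntriesIn.mul_left {J : Ideal A} {z : M2 A} (y : M2 A) (hz : EntriesIn J z) :
    EntriesIn J (y * z) := fun i j => by
  rw [Matrix.mul_apply]
  exact Ideal.sum_mem _ fun k _ => J.mul_mem_left _ (hz k j)

lemma EntriesIn.mul_right {J : Ideal A} {y : M2 A} (hy : EntriesIn J y) (z : M2 A) :
    EntriesIn J (y * z) := fun i j => by
  rw [Matrix.mul_apply]
  exact Ideal.sum_mem _ fun k _ => J.mul_mem_right _ (hy i k)

lemma EntriesIn.pow {J : Ideal A} {y : M2 A} (hy : EntriesIn J y) (n : ℕ) :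
    EntriesIn (J ^ n) (y ^ n) := by
  induction n with
  | zero => intro i j; simp
  | succ n ih => rw [pow_succ, pow_succ]; exact ih.mul hy

lemma EntriesIn.eq_zero {y : M2 A} (hy : EntriesIn (⊥ : Ideal A) y) : y = 0 := by
  ext i j; simpa using hy i j

/-- `EntriesIn J y` iff `y` maps to zero in `M2 (A ⧸ J)`. -/
lemma entriesIn_iff_map_eq_zero (J : Ideal A) (y : M2 A) :
    EntriesIn J y ↔ (Ideal.Quotient.mk J).mapMatrix y = 0 := by
  constructor
  · intro h; ext i j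
    simpa [Ideal.Quotient.eq_zero_iff_mem] using h i j
  · intro h i j
    have := congrFun (congrFun h i) j
    simpa [Ideal.Quotient.eq_zero_iff_mem] using this

lemma entriesIn_sub_iff (J : Ideal A) (y z : M2 A) :
    EntriesIn J (y - z) ↔ (Ideal.Quotient.mk J).mapMatrix y = (Ideal.Quotient.mk J).mapMatrix z := by
  rw [entriesIn_iff_map_eq_zero, map_sub, sub_eq_zero]

/-- generators of the `A₀`-span of the image of `r`. -/
def genSet (A₀ : Subring A) (r : G →* M2 A) : Set (M2 A) := {x | ∃ a ∈ A₀, ∃ g, x = a • r g}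

/-- The subring of `M2 A` spanned over `A₀` by the image of `r`. -/
def BB (A₀ : Subring A) (r : G →* M2 A) : Subring (M2 A) := Subring.closure (genSet A₀ r)

lemma genSet_mul (A₀ : Subring A) (r : G →* M2 A) {x y : M2 A}
    (hx : x ∈ genSet A₀ r) (hy : y ∈ genSet A₀ r) : x * y ∈ genSet A₀ r := by
  obtain ⟨a, ha, g, rfl⟩ := hx
  obtain ⟨b, hb, h, rfl⟩ := hy
  refine ⟨a * b, A₀.mul_mem ha hb, g * h, ?_⟩
  rw [map_mul, smul_mul_smul_comm]

lemma genSet_one (A₀ : Subring A) (r : G →* M2 A) : (1 : M2 A) ∈ genSet A₀ r :=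
  ⟨1, A₀.one_mem, 1, by simp⟩

lemma submonoid_closure_genSet (A₀ : Subring A) (r : G →* M2 A) {x : M2 A}
    (hx : x ∈ Submonoid.closure (genSet A₀ r)) : x ∈ genSet A₀ r := by
  induction hx using Submonoid.closure_induction with
  | mem x hx => exact hx
  | one => exact genSet_one A₀ r
  | mul x y _ _ hx hy => exact genSet_mul A₀ r hx hy

lemma r_mem_BB (A₀ : Subring A) (r : G →* M2 A) (g : G) : r g ∈ BB A₀ r :=
  Subring.subset_closure ⟨1, A₀.one_mem, g, by simp⟩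

lemma smul_mem_BB (A₀ : Subring A) (r : G →* M2 A) {a : A} (ha : a ∈ A₀) {x : M2 A}
    (hx : x ∈ BB A₀ r) : a • x ∈ BB A₀ r := by
  have : a • x = (a • (1 : M2 A)) * x := by simp
  rw [this]
  exact (BB A₀ r).mul_mem (Subring.subset_closure ⟨a, ha, 1, by simp⟩) hx

/-- Traces of elements of `BB A₀ r` lie in `A₀` as soon as the traces of `r` do. -/
lemma trace_mem_of_mem_BB (A₀ : Subring A) (r : G →* M2 A) (htr : ∀ g, (r g).trace ∈ A₀)
    {x : M2 A} (hx : x ∈ BB A₀ r) : x.trace ∈ A₀ := by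
  rw [BB, Subring.mem_closure_iff] at hx
  induction hx using AddSubgroup.closure_induction with
  | mem x hx =>
    obtain ⟨a, ha, g, rfl⟩ := submonoid_closure_genSet A₀ r hx
    rw [Matrix.trace_smul]
    exact A₀.mul_mem ha (htr g)
  | zero => simp
  | add x y _ _ hx hy => rw [Matrix.trace_add]; exact A₀.add_mem hx hy
  | neg x _ hx => rw [Matrix.trace_neg]; exact A₀.neg_mem hx


/-! ### 2×2 matrix identities -/

lemma E11_mul_E11 : E11 A * E11 A = E11 A := by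
  ext i j; fin_cases i <;> fin_cases j <;> simp [E11, Matrix.mul_apply, Fin.sum_univ_two]

lemma E11_isIdempotent : IsIdempotentElem (E11 A) := E11_mul_E11

lemma E11_mul_E12 : E11 A * E12 A = E12 A := by
  ext i j; fin_cases i <;> fin_cases j <;> simp [E11, E12, Matrix.mul_apply, Fin.sum_univ_two]

lemma E12_mul_E11 : E12 A * E11 A = 0 := by
  ext i j; fin_cases i <;> fin_cases j <;> simp [E11, E12, Matrix.mul_apply, Fin.sum_univ_two]

lemma E21_mul_E11 : E21 A * E11 A = E21 A := by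
  ext i j; fin_cases i <;> fin_cases j <;> simp [E11, E21, Matrix.mul_apply, Fin.sum_univ_two]

lemma E11_mul_E21 : E11 A * E21 A = 0 := by
  ext i j; fin_cases i <;> fin_cases j <;> simp [E11, E21, Matrix.mul_apply, Fin.sum_univ_two]

lemma E12_mul_E21 : E12 A * E21 A = E11 A := by
  ext i j; fin_cases i <;> fin_cases j <;> simp [E11, E12, E21, Matrix.mul_apply, Fin.sum_univ_two]

lemma trace_E11 : (E11 A).trace = 1 := by
  simp [E11, Matrix.trace, Fin.sum_univ_two]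

lemma E11_mul_mul_one_sub_E11 (M : M2 A) : E11 A * M * (1 - E11 A) = M 0 1 • E12 A := by
  ext i j; fin_cases i <;> fin_cases j <;>
    simp [E11, E12, Matrix.mul_apply, Fin.sum_univ_two, Matrix.sub_apply, Matrix.one_apply,
      Matrix.vecMul, dotProduct]

lemma entry00_eq_trace (Y : M2 A) : Y 0 0 = (Y * E11 A).trace := by
  simp [E11, Matrix.trace, Matrix.mul_apply, Fin.sum_univ_two]

lemma entry11_eq_trace (Y : M2 A) : Y 1 1 = (Y * (1 - E11 A)).trace := by
  simp [E11, Matrix.trace, Matrix.mul_apply, Fin.sum_univ_two, Matrix.sub_apply, Matrix.one_apply]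

lemma entry01_eq_trace (Y : M2 A) : Y 0 1 = (Y * E21 A).trace := by
  simp [E21, Matrix.trace, Matrix.mul_apply, Fin.sum_univ_two]

lemma entry10_eq_trace (Y : M2 A) : Y 1 0 = (Y * E12 A).trace := by
  simp [E12, Matrix.trace, Matrix.mul_apply, Fin.sum_univ_two]

/-- A matrix commuting with `E11` and `E21` is scalar. -/
lemma scalar_of_commute_E11_E21 (Y : M2 A) (h1 : Y * E11 A = E11 A * Y) (h2 : Y * E21 A = E21 A * Y) :
    Y = Y 0 0 • (1 : M2 A) := by
  have a01 : Y 0 1 = 0 := by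
    have := congrFun (congrFun h1 0) 1
    simpa [E11, Matrix.mul_apply, Fin.sum_univ_two] using this.symm
  have a10 : Y 1 0 = 0 := by
    have := congrFun (congrFun h1 1) 0
    simpa [E11, Matrix.mul_apply, Fin.sum_univ_two] using this
  have a11 : Y 1 1 = Y 0 0 := by
    have := congrFun (congrFun h2 1) 0
    simpa [E21, Matrix.mul_apply, Fin.sum_univ_two] using this
  ext i j; fin_cases i <;> fin_cases j <;> simp [a01, a10, a11]

lemma map_E11 {B : Type} [CommRing B] (φ : A →+* B) : φ.mapMatrix (E11 A) = E11 B := by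
  ext i j; fin_cases i <;> fin_cases j <;> simp [E11]

lemma map_E12 {B : Type} [CommRing B] (φ : A →+* B) : φ.mapMatrix (E12 A) = E12 B := by
  ext i j; fin_cases i <;> fin_cases j <;> simp [E12]

lemma map_E21 {B : Type} [CommRing B] (φ : A →+* B) : φ.mapMatrix (E21 A) = E21 B := by
  ext i j; fin_cases i <;> fin_cases j <;> simp [E21]

/-- An element congruent to `1` modulo a nilpotent ideal is a unit whose inverse lies in any
subring containing it. -/
lemma exists_inv_mem_of_sub_one_mem (J : Ideal A) (N : ℕ) (hJ : J ^ N = ⊥) (A₀ : Subring A)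
    {u : A} (hu : u ∈ A₀) (hu1 : u - 1 ∈ J) : ∃ v ∈ A₀, u * v = 1 := by
  set n : A := 1 - u with hn
  have hnJ : n ∈ J := by
    have : n = -(u - 1) := by ring
    rw [this]; exact J.neg_mem hu1
  have hnN : n ^ N = 0 := by
    have : n ^ N ∈ J ^ N := Ideal.pow_mem_pow hnJ N
    rw [hJ] at this
    simpa using this
  have hnA : n ∈ A₀ := A₀.sub_mem A₀.one_mem hu
  refine ⟨∑ i ∈ Finset.range N, n ^ i, A₀.sum_mem fun i _ => A₀.pow_mem hnA i, ?_⟩
  have := mul_neg_geom_sum n N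
  rw [hnN, sub_zero] at this
  rw [← this, hn]; ring

lemma isUnit_of_sub_one_mem (J : Ideal A) (N : ℕ) (hJ : J ^ N = ⊥) {u : A} (hu1 : u - 1 ∈ J) :
    IsUnit u := by
  obtain ⟨v, -, hv⟩ := exists_inv_mem_of_sub_one_mem J N hJ ⊤ (Subring.mem_top u) hu1
  exact IsUnit.of_mul_eq_one v hv

/-- A 2×2 matrix congruent to `1` modulo a nilpotent ideal is invertible. -/
lemma isUnit_of_entriesIn_sub_one (J : Ideal A) (N : ℕ) (hJ : J ^ N = ⊥) {P : M2 A}
    (hP : EntriesIn J (P - 1)) : IsUnit P := by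
  rw [Matrix.isUnit_iff_isUnit_det]
  apply isUnit_of_sub_one_mem J N hJ
  rw [Matrix.det_fin_two]
  have h00 := hP 0 0
  have h01 := hP 0 1
  have h11 := hP 1 1
  simp only [Matrix.sub_apply, Matrix.one_apply_eq, Matrix.one_apply_ne, ne_eq, Fin.isValue,
    zero_ne_one, not_false_eq_true, sub_zero] at h00 h01 h11
  have : P 0 0 * P 1 1 - P 0 1 * P 1 0 - 1
      = (P 0 0 - 1) * P 1 1 + (P 1 1 - 1) - P 0 1 * P 1 0 := by ring
  rw [this]
  exact J.sub_mem (J.add_mem (J.mul_mem_right _ h00) h11) (J.mul_mem_right _ h01)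


lemma E21_mul_E12_add_E11 : E11 A + E21 A * E12 A = 1 := by
  ext i j; fin_cases i <;> fin_cases j <;> simp [E11, E12, E21]

lemma one_sub_E11_mul_E21 : (1 - E11 A) * E21 A = E21 A := by
  rw [sub_mul, one_mul, E11_mul_E21, sub_zero]

lemma E12_mul_one_sub_E11 : E12 A * (1 - E11 A) = E12 A := by
  rw [mul_sub, mul_one, E12_mul_E11, sub_zero]

lemma trace_conj_unit (Q : (M2 A)ˣ) (y : M2 A) :
    ((Q : M2 A) * y * ((Q⁻¹ : (M2 A)ˣ) : M2 A)).trace = y.trace := by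
  rw [Matrix.trace_mul_comm, ← mul_assoc, Units.inv_mul, one_mul]

lemma conj_mul (Q : (M2 A)ˣ) (y z : M2 A) :
    (Q : M2 A) * (y * z) * ((Q⁻¹ : (M2 A)ˣ) : M2 A)
      = ((Q : M2 A) * y * ((Q⁻¹ : (M2 A)ˣ) : M2 A)) * ((Q : M2 A) * z * ((Q⁻¹ : (M2 A)ˣ) : M2 A)) := by
  have : ((Q⁻¹ : (M2 A)ˣ) : M2 A) * (Q : M2 A) = 1 := Units.inv_mul Q
  calc (Q : M2 A) * (y * z) * ((Q⁻¹ : (M2 A)ˣ) : M2 A)
      = (Q : M2 A) * y * 1 * z * ((Q⁻¹ : (M2 A)ˣ) : M2 A) := by simp [mul_assoc]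
    _ = _ := by rw [← this]; simp [mul_assoc]

lemma conj_one_sub (Q : (M2 A)ˣ) (y : M2 A) :
    (Q : M2 A) * (1 - y) * ((Q⁻¹ : (M2 A)ˣ) : M2 A)
      = 1 - ((Q : M2 A) * y * ((Q⁻¹ : (M2 A)ˣ) : M2 A)) := by
  rw [mul_sub, sub_mul, mul_one, Units.mul_inv]

/-- **Core descent lemma** (Carayol, via idempotent lifting).  `J` is a nilpotent ideal of `A`,
`A₀` a subring containing the traces of `r`, and the `A₀`-span `BB A₀ r` of the image of `r`
contains lifts of the matrix units modulo `J`.  Then after conjugating by some `Q ≡ 1 mod J`,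
all of `BB A₀ r` (in particular the image of `r`) has entries in `A₀`. -/
theorem trace_descent_core (J : Ideal A) (N : ℕ) (hJ : J ^ N = ⊥) (A₀ : Subring A)
    (r : G →* M2 A) (htr : ∀ g, (r g).trace ∈ A₀)
    (x b c : M2 A) (hx : x ∈ BB A₀ r) (hb : b ∈ BB A₀ r) (hc : c ∈ BB A₀ r)
    (hx' : EntriesIn J (x - E11 A)) (hb' : EntriesIn J (b - E12 A))
    (hc' : EntriesIn J (c - E21 A)) :
    ∃ (Q : (M2 A)ˣ) (e f : M2 A), EntriesIn J ((Q : M2 A) - 1) ∧
      e ∈ BB A₀ r ∧ f ∈ BB A₀ r ∧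
      (Q : M2 A) * e * ((Q⁻¹ : (M2 A)ˣ) : M2 A) = E11 A ∧
      (Q : M2 A) * f * ((Q⁻¹ : (M2 A)ˣ) : M2 A) = E21 A ∧
      ∀ y ∈ BB A₀ r, ∀ i j, ((Q : M2 A) * y * ((Q⁻¹ : (M2 A)ˣ) : M2 A)) i j ∈ A₀ := by
  classical
  set φ : M2 A →+* M2 (A ⧸ J) := (Ideal.Quotient.mk J).mapMatrix with hφ
  have hφx : φ x = E11 (A ⧸ J) := by
    rw [← map_E11 (Ideal.Quotient.mk J)]; exact (entriesIn_sub_iff J _ _).1 hx'
  have hφb : φ b = E12 (A ⧸ J) := by
    rw [← map_E12 (Ideal.Quotient.mk J)]; exact (entriesIn_sub_iff J _ _).1 hb'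
  have hφc : φ c = E21 (A ⧸ J) := by
    rw [← map_E21 (Ideal.Quotient.mk J)]; exact (entriesIn_sub_iff J _ _).1 hc'
  -- the idempotent
  have hnil : (x - x ^ 2) ^ (N + 1) = 0 := by
    have h1 : EntriesIn J (x - x ^ 2) := by
      rw [entriesIn_iff_map_eq_zero]
      change φ (x - x ^ 2) = 0
      rw [map_sub, map_pow, hφx, pow_two, E11_mul_E11, sub_self]
    have h2 := h1.pow N
    rw [hJ] at h2
    rw [pow_succ, h2.eq_zero, zero_mul]
  obtain ⟨e, he⟩ : ∃ e : M2 A, e = 1 - (1 - x ^ (N + 1)) ^ (N + 1) := ⟨_, rfl⟩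
  have he_idem : e * e = e := by
    rw [he]; exact isIdempotentElem_one_sub_one_sub_pow_pow x (N + 1) hnil
  have he_mem : e ∈ BB A₀ r := by
    rw [he]
    exact sub_mem (one_mem _) (pow_mem (sub_mem (one_mem _) (pow_mem hx _)) _)
  have hφe : φ e = E11 (A ⧸ J) := by
    have h1 : E11 (A ⧸ J) ^ (N + 1) = E11 (A ⧸ J) :=
      (E11_isIdempotent (A := A ⧸ J)).pow_succ_eq N
    have h2 : (1 - E11 (A ⧸ J)) ^ (N + 1) = 1 - E11 (A ⧸ J) :=
      (E11_isIdempotent (A := A ⧸ J)).one_sub.pow_succ_eq N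
    rw [he, map_sub, map_one, map_pow, map_sub, map_one, map_pow, hφx, h1, h2, sub_sub_cancel]
  have he1 : e * (1 - e) = 0 := by rw [mul_sub, mul_one, he_idem, sub_self]
  have h1e : (1 - e) * e = 0 := by rw [sub_mul, one_mul, he_idem, sub_self]
  obtain ⟨f12, hf12⟩ : ∃ f12 : M2 A, f12 = e * b * (1 - e) := ⟨_, rfl⟩
  obtain ⟨f21, hf21⟩ : ∃ f21 : M2 A, f21 = (1 - e) * c * e := ⟨_, rfl⟩
  have hf12_mem : f12 ∈ BB A₀ r := by
    rw [hf12]; exact mul_mem (mul_mem he_mem hb) (sub_mem (one_mem _) he_mem)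
  have hf21_mem : f21 ∈ BB A₀ r := by
    rw [hf21]; exact mul_mem (mul_mem (sub_mem (one_mem _) he_mem) hc) he_mem
  have hφf21 : φ f21 = E21 (A ⧸ J) := by
    rw [hf21, map_mul, map_mul, map_sub, map_one, hφe, hφc, one_sub_E11_mul_E21, E21_mul_E11]
  have hφf12 : φ f12 = E12 (A ⧸ J) := by
    rw [hf12, map_mul, map_mul, map_sub, map_one, hφe, hφb, E11_mul_E12, E12_mul_one_sub_E11]
  have e_f21 : e * f21 = 0 := by
    rw [hf21, ← mul_assoc, ← mul_assoc, he1, zero_mul, zero_mul]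
  have f21_f21 : f21 * f21 = 0 := by
    have : f21 * f21 = (1 - e) * c * (e * (1 - e)) * c * e := by
      rw [hf21]; simp only [mul_assoc]
    rw [this, he1]; simp
  -- the change of basis
  obtain ⟨P, hP⟩ : ∃ P : M2 A, P = e * E11 A + f21 * e * E12 A := ⟨_, rfl⟩
  have hφP : φ P = 1 := by
    rw [hP, map_add, map_mul, map_mul, map_mul, hφe, hφf21, map_E11, map_E12, E11_mul_E11,
      E21_mul_E11, E21_mul_E12_add_E11]
  have hP1 : EntriesIn J (P - 1) := by
    rw [entriesIn_iff_map_eq_zero]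
    change φ (P - 1) = 0
    rw [map_sub, hφP, map_one, sub_self]
  have hPunit : IsUnit P := isUnit_of_entriesIn_sub_one J N hJ hP1
  obtain ⟨Pu, hPu⟩ := hPunit
  have eP : e * P = P * E11 A := by
    rw [hP, mul_add, add_mul, ← mul_assoc, he_idem, ← mul_assoc, ← mul_assoc, e_f21]
    simp only [zero_mul, add_zero, mul_assoc, E11_mul_E11, E12_mul_E11, mul_zero]
  have f21P : f21 * P = P * E21 A := by
    rw [hP, mul_add, add_mul, ← mul_assoc f21 (f21 * e), ← mul_assoc f21 f21, f21_f21]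
    simp only [zero_mul, add_zero, mul_assoc, E11_mul_E21, E12_mul_E21, mul_zero, zero_add]
  -- Q := P⁻¹
  obtain ⟨Q, hQ⟩ : ∃ Q : (M2 A)ˣ, Q = Pu⁻¹ := ⟨_, rfl⟩
  have hQinv : ((Q⁻¹ : (M2 A)ˣ) : M2 A) = P := by rw [hQ, inv_inv, hPu]
  have hQP : (Q : M2 A) * P = 1 := by rw [← hPu, hQ]; exact Units.inv_mul Pu
  have hPQ : P * (Q : M2 A) = 1 := by rw [← hPu, hQ]; exact Units.mul_inv Pu
  have hQe : (Q : M2 A) * e * ((Q⁻¹ : (M2 A)ˣ) : M2 A) = E11 A := by
    rw [hQinv, mul_assoc, eP, ← mul_assoc, hQP, one_mul]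
  have hQf21 : (Q : M2 A) * f21 * ((Q⁻¹ : (M2 A)ˣ) : M2 A) = E21 A := by
    rw [hQinv, mul_assoc, f21P, ← mul_assoc, hQP, one_mul]
  have hQ1 : EntriesIn J ((Q : M2 A) - 1) := by
    have : (Q : M2 A) - 1 = (Q : M2 A) * (-(P - 1)) := by
      rw [mul_neg, mul_sub, hQP, mul_one]; abel
    rw [this]
    exact EntriesIn.mul_left _ hP1.neg
  -- the scalar u
  obtain ⟨Yb, hYb⟩ : ∃ Yb : M2 A, Yb = (Q : M2 A) * b * ((Q⁻¹ : (M2 A)ˣ) : M2 A) := ⟨_, rfl⟩
  obtain ⟨u, hu⟩ : ∃ u : A, u = Yb 0 1 := ⟨_, rfl⟩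
  have hQf12 : (Q : M2 A) * f12 * ((Q⁻¹ : (M2 A)ˣ) : M2 A) = u • E12 A := by
    rw [hf12, conj_mul, conj_mul, conj_one_sub, hQe, ← hYb, E11_mul_mul_one_sub_E11, hu]
  have hu_tr : u = (f12 * f21).trace := by
    rw [← trace_conj_unit Q (f12 * f21), conj_mul, hQf12, hQf21, Matrix.smul_mul, E12_mul_E21,
      Matrix.trace_smul, trace_E11, smul_eq_mul, mul_one]
  have hu_mem : u ∈ A₀ := by
    rw [hu_tr]; exact trace_mem_of_mem_BB A₀ r htr (mul_mem hf12_mem hf21_mem)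
  have hu1 : u - 1 ∈ J := by
    rw [← Ideal.Quotient.eq_zero_iff_mem, map_sub, map_one, hu_tr, sub_eq_zero]
    have : Ideal.Quotient.mk J (f12 * f21).trace = (φ (f12 * f21)).trace := by
      simp [hφ, Matrix.trace, Matrix.mul_apply]
    rw [this, map_mul, hφf12, hφf21, E12_mul_E21, trace_E11]
  obtain ⟨u', hu'_mem, huu'⟩ := exists_inv_mem_of_sub_one_mem J N hJ A₀ hu_mem hu1
  refine ⟨Q, e, f21, hQ1, he_mem, hf21_mem, hQe, hQf21, ?_⟩
  intro y hy
  obtain ⟨Y, hY⟩ : ∃ Y : M2 A, Y = (Q : M2 A) * y * ((Q⁻¹ : (M2 A)ˣ) : M2 A) := ⟨_, rfl⟩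
  rw [← hY]
  have key : ∀ z ∈ BB A₀ r,
      (Y * ((Q : M2 A) * z * ((Q⁻¹ : (M2 A)ˣ) : M2 A))).trace ∈ A₀ := by
    intro z hz
    rw [hY, ← conj_mul, trace_conj_unit]
    exact trace_mem_of_mem_BB A₀ r htr (mul_mem hy hz)
  have h00 : Y 0 0 ∈ A₀ := by
    rw [entry00_eq_trace Y, ← hQe]; exact key e he_mem
  have h01 : Y 0 1 ∈ A₀ := by
    rw [entry01_eq_trace Y, ← hQf21]; exact key f21 hf21_mem
  have h11 : Y 1 1 ∈ A₀ := by
    rw [entry11_eq_trace Y, ← hQe, ← conj_one_sub]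
    exact key (1 - e) (sub_mem (one_mem _) he_mem)
  have h10 : Y 1 0 ∈ A₀ := by
    have h := key f12 hf12_mem
    rw [hQf12, Matrix.mul_smul, Matrix.trace_smul, ← entry10_eq_trace Y, smul_eq_mul] at h
    have : Y 1 0 = u' * (u * Y 1 0) := by
      rw [← mul_assoc, mul_comm u' u, huu', one_mul]
    rw [this]
    exact A₀.mul_mem hu'_mem h
  intro i j
  fin_cases i <;> fin_cases j
  · exact h00
  · exact h01
  · exact h10
  · exact h11


/-- Residual spanning: the `A₀`-span of the image of `r` surjects onto `M2 (A ⧸ J)`. -/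
def ResSpan (J : Ideal A) (A₀ : Subring A) (r : G →* M2 A) : Prop :=
  ∀ y : M2 A, ∃ x ∈ BB A₀ r, EntriesIn J (x - y)

/-- `ResSpan` from a Burnside-type spanning statement over a residue field. -/
lemma resSpan_of_span {k K : Type} [Field k] [Field K] (rb : G →* M2 k)
    (hspan : Submodule.span k (Set.range rb) = ⊤)
    (J : Ideal A) (π : A →+* K) (hπJ : RingHom.ker π = J) (ι : k →+* K)
    (hι : Function.Surjective ι)
    (A₀ : Subring A) (hA₀ : ∀ c : K, ∃ a ∈ A₀, π a = c)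
    (r : G →* M2 A) (hr : ∀ g, π.mapMatrix (r g) = ι.mapMatrix (rb g)) : ResSpan J A₀ r := by
  have key : ∀ y₀ : M2 k, ∃ x ∈ BB A₀ r, π.mapMatrix x = ι.mapMatrix y₀ := by
    intro y₀
    have hy₀ : y₀ ∈ Submodule.span k (Set.range rb) := by rw [hspan]; trivial
    induction hy₀ using Submodule.span_induction with
    | mem y hy =>
      obtain ⟨g, rfl⟩ := hy
      exact ⟨r g, r_mem_BB A₀ r g, hr g⟩
    | zero => exact ⟨0, zero_mem _, by simp⟩
    | add y z _ _ hy hz =>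
      obtain ⟨x, hx, hxy⟩ := hy
      obtain ⟨x', hx', hxz⟩ := hz
      exact ⟨x + x', add_mem hx hx', by rw [map_add, map_add, hxy, hxz]⟩
    | smul c y _ hy =>
      obtain ⟨x, hx, hxy⟩ := hy
      obtain ⟨a, ha, hac⟩ := hA₀ (ι c)
      refine ⟨a • x, smul_mem_BB A₀ r ha hx, ?_⟩
      ext i j
      have := congrFun (congrFun hxy i) j
      simp only [RingHom.mapMatrix_apply, Matrix.map_apply, Matrix.smul_apply, smul_eq_mul,
        map_mul] at this ⊢
      rw [this, hac]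
  intro y
  have : ∃ y₀ : M2 k, ι.mapMatrix y₀ = π.mapMatrix y := by
    choose c hc using fun i j => hι (π (y i j))
    exact ⟨Matrix.of c, by ext i j; simp [hc]⟩
  obtain ⟨y₀, hy₀⟩ := this
  obtain ⟨x, hx, hxy⟩ := key y₀
  refine ⟨x, hx, fun i j => ?_⟩
  rw [← hπJ, RingHom.mem_ker, Matrix.sub_apply, map_sub, sub_eq_zero]
  have := congrFun (congrFun (hxy.trans hy₀) i) j
  simpa using this

/-- **Descent to a subring containing the traces.** -/
theorem trace_descent (J : Ideal A) (N : ℕ) (hJ : J ^ N = ⊥) (A₀ : Subring A)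
    (r : G →* M2 A) (htr : ∀ g, (r g).trace ∈ A₀) (hspan : ResSpan J A₀ r) :
    ∃ Q : (M2 A)ˣ, EntriesIn J ((Q : M2 A) - 1) ∧
      ∀ g i j, ((Q : M2 A) * r g * ((Q⁻¹ : (M2 A)ˣ) : M2 A)) i j ∈ A₀ := by
  obtain ⟨x, hx, hx'⟩ := hspan (E11 A)
  obtain ⟨b, hb, hb'⟩ := hspan (E12 A)
  obtain ⟨c, hc, hc'⟩ := hspan (E21 A)
  obtain ⟨Q, e, f, hQ1, -, -, -, -, hQ⟩ :=
    trace_descent_core J N hJ A₀ r htr x b c hx hb hc hx' hb' hc'
  exact ⟨Q, hQ1, fun g => hQ (r g) (r_mem_BB A₀ r g)⟩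

/-- **Schur's lemma** for residually spanning representations over a ring with nilpotent `J`. -/
theorem schur_scalar (J : Ideal A) (N : ℕ) (hJ : J ^ N = ⊥)
    (r : G →* M2 A) (hspan : ResSpan J ⊤ r) (X : M2 A) (hX : ∀ g, X * r g = r g * X) :
    ∃ c : A, X = c • (1 : M2 A) := by
  obtain ⟨x, hx, hx'⟩ := hspan (E11 A)
  obtain ⟨b, hb, hb'⟩ := hspan (E12 A)
  obtain ⟨c, hc, hc'⟩ := hspan (E21 A)
  obtain ⟨Q, e, f, -, he, hf, hQe, hQf, -⟩ :=
    trace_descent_core J N hJ ⊤ r (fun _ => Subring.mem_top _) x b c hx hb hc hx' hb' hc'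
  have hcomm : ∀ y ∈ BB ⊤ r, X * y = y * X := by
    intro y hy
    induction hy using Subring.closure_induction with
    | mem y hy =>
      obtain ⟨a, -, g, rfl⟩ := hy
      rw [Matrix.mul_smul, Matrix.smul_mul, hX g]
    | zero => simp
    | one => simp
    | add y z _ _ hy hz => rw [mul_add, add_mul, hy, hz]
    | neg y _ hy => rw [mul_neg, neg_mul, hy]
    | mul y z _ _ hy hz => rw [← mul_assoc, hy, mul_assoc, hz, mul_assoc]
  set Y : M2 A := (Q : M2 A) * X * ((Q⁻¹ : (M2 A)ˣ) : M2 A) with hY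
  have h1 : Y * E11 A = E11 A * Y := by
    rw [← hQe, hY, ← conj_mul, ← conj_mul, hcomm e he]
  have h2 : Y * E21 A = E21 A * Y := by
    rw [← hQf, hY, ← conj_mul, ← conj_mul, hcomm f hf]
  have hYs := scalar_of_commute_E11_E21 Y h1 h2
  refine ⟨Y 0 0, ?_⟩
  have hXY : X = ((Q⁻¹ : (M2 A)ˣ) : M2 A) * Y * (Q : M2 A) := by
    rw [hY]; simp [mul_assoc]
  rw [hXY, hYs]
  simp


/-! ### Uniqueness: equal traces ⇒ conjugate (fibre-product trick on `A × A`) -/

/-- The pair representation `g ↦ (r₁ g, r₂ g)` with values in `M2 (A × A)`. -/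
def pairRep (r₁ r₂ : G →* M2 A) : G →* M2 (A × A) where
  toFun g := Matrix.of fun i j => (r₁ g i j, r₂ g i j)
  map_one' := by
    ext i j <;> simp [Matrix.one_apply] <;> split_ifs <;> simp
  map_mul' g h := by
    ext i j <;> simp [Matrix.mul_apply]

lemma fst_pairRep (r₁ r₂ : G →* M2 A) (g : G) :
    (RingHom.fst A A).mapMatrix (pairRep r₁ r₂ g) = r₁ g := by
  ext i j; simp [pairRep]

lemma snd_pairRep (r₁ r₂ : G →* M2 A) (g : G) :
    (RingHom.snd A A).mapMatrix (pairRep r₁ r₂ g) = r₂ g := by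
  ext i j; simp [pairRep]

/-- The diagonal subring of `A × A`. -/
def diagSubring (A : Type) [CommRing A] : Subring (A × A) :=
  (RingHom.prod (RingHom.id A) (RingHom.id A)).range

lemma mem_diagSubring {p : A × A} : p ∈ diagSubring A ↔ p.1 = p.2 := by
  constructor
  · rintro ⟨a, rfl⟩; rfl
  · intro h; exact ⟨p.1, by ext <;> simp [h]⟩

lemma prod_pow_eq_bot (J : Ideal A) (N : ℕ) (hJ : J ^ N = ⊥) : (Ideal.prod J J) ^ N = ⊥ := by
  rw [eq_bot_iff]
  intro p hp
  have h1 : Ideal.prod J J ≤ J.comap (RingHom.fst A A) := fun x hx => ((Ideal.mem_prod _ _).1 hx).1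
  have h2 : Ideal.prod J J ≤ J.comap (RingHom.snd A A) := fun x hx => ((Ideal.mem_prod _ _).1 hx).2
  have hp1 : p ∈ (J ^ N).comap (RingHom.fst A A) :=
    Ideal.le_comap_pow _ N (Ideal.pow_right_mono h1 N hp)
  have hp2 : p ∈ (J ^ N).comap (RingHom.snd A A) :=
    Ideal.le_comap_pow _ N (Ideal.pow_right_mono h2 N hp)
  rw [hJ] at hp1 hp2
  simp only [Ideal.mem_comap, RingHom.coe_fst, RingHom.coe_snd, Ideal.mem_bot] at hp1 hp2
  simp only [Ideal.mem_bot]
  exact Prod.ext hp1 hp2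

lemma entriesIn_prod_iff (J : Ideal A) (y : M2 (A × A)) :
    EntriesIn (Ideal.prod J J) y ↔
      EntriesIn J ((RingHom.fst A A).mapMatrix y) ∧ EntriesIn J ((RingHom.snd A A).mapMatrix y) := by
  constructor
  · intro h
    exact ⟨fun i j => ((Ideal.mem_prod _ _).1 (h i j)).1, fun i j => ((Ideal.mem_prod _ _).1 (h i j)).2⟩
  · rintro ⟨h1, h2⟩ i j
    exact (Ideal.mem_prod _ _).2 ⟨h1 i j, h2 i j⟩

/-- Lifting elements of the `A`-span of `r₁` to the diagonal span of the pair representation. -/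
lemma exists_pair_lift (J : Ideal A) (r₁ r₂ : G →* M2 A)
    (hcong : ∀ g, EntriesIn J (r₁ g - r₂ g)) {x : M2 A} (hx : x ∈ BB ⊤ r₁) :
    ∃ x' ∈ BB (diagSubring A) (pairRep r₁ r₂), (RingHom.fst A A).mapMatrix x' = x ∧
      EntriesIn J ((RingHom.snd A A).mapMatrix x' - x) := by
  induction hx using Subring.closure_induction with
  | mem y hy =>
    obtain ⟨a, -, g, rfl⟩ := hy
    refine ⟨(a, a) • pairRep r₁ r₂ g,
      smul_mem_BB _ _ (mem_diagSubring.2 rfl) (r_mem_BB _ _ g), ?_, ?_⟩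
    · ext i j; simp [pairRep]
    · have : (RingHom.snd A A).mapMatrix ((a, a) • pairRep r₁ r₂ g) - a • r₁ g
          = a • (-(r₁ g - r₂ g)) := by
        ext i j; simp [pairRep]; ring
      rw [this]
      intro i j
      simp only [Matrix.smul_apply, smul_eq_mul]
      exact J.mul_mem_left _ ((hcong g).neg i j)
  | zero => exact ⟨0, zero_mem _, by simp, by simpa using EntriesIn.zero J⟩
  | one => exact ⟨1, one_mem _, by simp, by simpa using EntriesIn.zero J⟩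
  | add y z _ _ hy hz =>
    obtain ⟨y', hy', hy1, hy2⟩ := hy
    obtain ⟨z', hz', hz1, hz2⟩ := hz
    refine ⟨y' + z', add_mem hy' hz', by rw [map_add, hy1, hz1], ?_⟩
    have : (RingHom.snd A A).mapMatrix (y' + z') - (y + z)
        = ((RingHom.snd A A).mapMatrix y' - y) + ((RingHom.snd A A).mapMatrix z' - z) := by
      rw [map_add]; abel
    rw [this]; exact hy2.add hz2
  | neg y _ hy =>
    obtain ⟨y', hy', hy1, hy2⟩ := hy
    refine ⟨-y', neg_mem hy', by rw [map_neg, hy1], ?_⟩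
    have : (RingHom.snd A A).mapMatrix (-y') - -y = -((RingHom.snd A A).mapMatrix y' - y) := by
      rw [map_neg]; abel
    rw [this]; exact hy2.neg
  | mul y z _ _ hy hz =>
    obtain ⟨y', hy', hy1, hy2⟩ := hy
    obtain ⟨z', hz', hz1, hz2⟩ := hz
    refine ⟨y' * z', mul_mem hy' hz', by rw [map_mul, hy1, hz1], ?_⟩
    have : (RingHom.snd A A).mapMatrix (y' * z') - y * z
        = ((RingHom.snd A A).mapMatrix y' - y) * (RingHom.snd A A).mapMatrix z'
          + y * ((RingHom.snd A A).mapMatrix z' - z) := by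
      rw [map_mul, sub_mul, mul_sub]; abel
    rw [this]; exact (hy2.mul_right _).add (EntriesIn.mul_left _ hz2)

lemma resSpan_pairRep (J : Ideal A) (r₁ r₂ : G →* M2 A)
    (hcong : ∀ g, EntriesIn J (r₁ g - r₂ g)) (hspan : ResSpan J ⊤ r₁)
    (E : M2 (A × A)) (hE : (RingHom.fst A A).mapMatrix E = (RingHom.snd A A).mapMatrix E) :
    ∃ x' ∈ BB (diagSubring A) (pairRep r₁ r₂), EntriesIn (Ideal.prod J J) (x' - E) := by
  obtain ⟨x, hx, hxE⟩ := hspan ((RingHom.fst A A).mapMatrix E)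
  obtain ⟨x', hx', h1, h2⟩ := exists_pair_lift J r₁ r₂ hcong hx
  refine ⟨x', hx', (entriesIn_prod_iff J _).2 ⟨?_, ?_⟩⟩
  · rw [map_sub, h1]; exact hxE
  · rw [map_sub, ← hE]
    have : (RingHom.snd A A).mapMatrix x' - (RingHom.fst A A).mapMatrix E
        = ((RingHom.snd A A).mapMatrix x' - x) + (x - (RingHom.fst A A).mapMatrix E) := by abel
    rw [this]; exact h2.add hxE

/-- **Uniqueness (Carayol).**  Two representations over a ring with a nilpotent ideal `J` which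
agree modulo `J`, are residually spanning, and have the same traces are conjugate by a matrix
congruent to `1` modulo `J`. -/
theorem conj_of_trace_eq (J : Ideal A) (N : ℕ) (hJ : J ^ N = ⊥) (r₁ r₂ : G →* M2 A)
    (hcong : ∀ g, EntriesIn J (r₁ g - r₂ g)) (htr : ∀ g, (r₁ g).trace = (r₂ g).trace)
    (hspan : ResSpan J ⊤ r₁) :
    ∃ Q : (M2 A)ˣ, EntriesIn J ((Q : M2 A) - 1) ∧
      ∀ g, r₂ g = (Q : M2 A) * r₁ g * ((Q⁻¹ : (M2 A)ˣ) : M2 A) := by
  have htr' : ∀ g, (pairRep r₁ r₂ g).trace ∈ diagSubring A := by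
    intro g
    rw [mem_diagSubring]
    have := htr g
    simpa [Matrix.trace, pairRep] using this
  obtain ⟨x, hx, hx'⟩ := resSpan_pairRep J r₁ r₂ hcong hspan (E11 (A × A))
    (by rw [map_E11, map_E11])
  obtain ⟨b, hb, hb'⟩ := resSpan_pairRep J r₁ r₂ hcong hspan (E12 (A × A))
    (by rw [map_E12, map_E12])
  obtain ⟨c, hc, hc'⟩ := resSpan_pairRep J r₁ r₂ hcong hspan (E21 (A × A))
    (by rw [map_E21, map_E21])
  obtain ⟨Q', e, f, hQ1, -, -, -, -, hQ⟩ :=
    trace_descent_core (Ideal.prod J J) N (prod_pow_eq_bot J N hJ) (diagSubring A)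
      (pairRep r₁ r₂) htr' x b c hx hb hc hx' hb' hc'
  -- components
  set Q₁ : (M2 A)ˣ := Units.map ((RingHom.fst A A).mapMatrix (m := Fin 2)).toMonoidHom Q' with hQ₁
  set Q₂ : (M2 A)ˣ := Units.map ((RingHom.snd A A).mapMatrix (m := Fin 2)).toMonoidHom Q' with hQ₂
  have key : ∀ g, (Q₁ : M2 A) * r₁ g * ((Q₁⁻¹ : (M2 A)ˣ) : M2 A)
      = (Q₂ : M2 A) * r₂ g * ((Q₂⁻¹ : (M2 A)ˣ) : M2 A) := by
    intro g
    have h := hQ (pairRep r₁ r₂ g) (r_mem_BB _ _ g)
    have e1 : (Q₁ : M2 A) * r₁ g * ((Q₁⁻¹ : (M2 A)ˣ) : M2 A)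
        = (RingHom.fst A A).mapMatrix ((Q' : M2 (A × A)) * pairRep r₁ r₂ g *
            ((Q'⁻¹ : (M2 (A × A))ˣ) : M2 (A × A))) := by
      rw [map_mul, map_mul, fst_pairRep]; rfl
    have e2 : (Q₂ : M2 A) * r₂ g * ((Q₂⁻¹ : (M2 A)ˣ) : M2 A)
        = (RingHom.snd A A).mapMatrix ((Q' : M2 (A × A)) * pairRep r₁ r₂ g *
            ((Q'⁻¹ : (M2 (A × A))ˣ) : M2 (A × A))) := by
      rw [map_mul, map_mul, snd_pairRep]; rfl
    rw [e1, e2]
    ext i j
    exact mem_diagSubring.1 (h i j)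
  have hQ₁1 : EntriesIn J ((Q₁ : M2 A) - 1) := by
    have := ((entriesIn_prod_iff J _).1 hQ1).1
    rwa [map_sub, map_one] at this
  have hQ₂1 : EntriesIn J ((Q₂ : M2 A) - 1) := by
    have := ((entriesIn_prod_iff J _).1 hQ1).2
    rwa [map_sub, map_one] at this
  refine ⟨Q₂⁻¹ * Q₁, ?_, fun g => ?_⟩
  · have h2 : EntriesIn J (((Q₂⁻¹ : (M2 A)ˣ) : M2 A) - 1) := by
      have : ((Q₂⁻¹ : (M2 A)ˣ) : M2 A) - 1 = ((Q₂⁻¹ : (M2 A)ˣ) : M2 A) * (-((Q₂ : M2 A) - 1)) := by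
        rw [mul_neg, mul_sub, Units.inv_mul, mul_one]; abel
      rw [this]; exact EntriesIn.mul_left _ hQ₂1.neg
    have : ((Q₂⁻¹ * Q₁ : (M2 A)ˣ) : M2 A) - 1
        = (((Q₂⁻¹ : (M2 A)ˣ) : M2 A) - 1) * (Q₁ : M2 A) + ((Q₁ : M2 A) - 1) := by
      rw [Units.val_mul, sub_mul, one_mul]; abel
    rw [this]; exact (h2.mul_right _).add hQ₁1
  · have h := key g
    have : r₂ g = ((Q₂⁻¹ : (M2 A)ˣ) : M2 A) *
        ((Q₂ : M2 A) * r₂ g * ((Q₂⁻¹ : (M2 A)ˣ) : M2 A)) * (Q₂ : M2 A) := by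
      simp [mul_assoc]
    rw [this, ← h]
    simp [mul_assoc]

end core

end Fermat.Agent.S53lib

end
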