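/-
S53 — piece G (assembly), part 1: deformation data in matrix form and admissible ideals of
`Pol := MvPolynomial Gal 𝒪`.
-/
import Fermat.Agent.S53lib.Defs
import Fermat.Agent.S53lib.Dict
import Fermat.Agent.S53lib.TraceDescent

set_option autoImplicit false

noncomputable section

namespace Fermat.Agent.S53lib

open IsLocalRing

section defs

variable (𝒪 : Type) [CommRing 𝒪] [IsLocalRing 𝒪]

/-- The polynomial ring on symbols `X σ`, `σ : Gal` ("universal traces"). -/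
abbrev Pol : Type := MvPolynomial Gal 𝒪

/-- `r` agrees with `rb` modulo `J`: every entry of `r σ` is congruent modulo `J` to the image of
any lift to `𝒪` of the corresponding entry of `rb σ`. -/
def StrictMod {T : Type} [CommRing T] [Algebra 𝒪 T] (rb : Gal →* M2 (ResidueField 𝒪))
    (J : Ideal T) (r : Gal →* M2 T) : Prop :=
  ∀ σ i j, ∀ c : 𝒪, residue 𝒪 c = rb σ i j → r σ i j - algebraMap 𝒪 T c ∈ J

/-- A deformation datum in matrix form over an Artinian test algebra `A`. -/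
structure IsDefo
    (𝒟 : ∀ ⦃A : Type⦄ [CommRing A] [IsLocalRing A] [Algebra 𝒪 A], GaloisRepAdic A → Prop)
    (rb : Gal →* M2 (ResidueField 𝒪)) {A : Type} [CommRing A] [IsLocalRing A] [Algebra 𝒪 A]
    (r : Gal →* M2 A) : Prop where
  test : GaloisRep.IsArtinianTestAlgebra 𝒪 A
  fin : MatFin A r
  strict : StrictMod 𝒪 rb (maximalIdeal A) r
  ofType : 𝒟 (ofMat r fin.matCont)

/-- An ideal `I` of `Pol` is admissible if `Pol ⧸ I` is local and carries a deformation datum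
whose trace function is `σ ↦ X σ mod I`. -/
def Adm
    (𝒟 : ∀ ⦃A : Type⦄ [CommRing A] [IsLocalRing A] [Algebra 𝒪 A], GaloisRepAdic A → Prop)
    (rb : Gal →* M2 (ResidueField 𝒪)) (I : Ideal (Pol 𝒪)) : Prop :=
  ∃ (_ : IsLocalRing (Pol 𝒪 ⧸ I)) (r : Gal →* M2 (Pol 𝒪 ⧸ I)),
    IsDefo 𝒪 𝒟 rb r ∧ ∀ σ, (r σ).trace = Ideal.Quotient.mk I (MvPolynomial.X σ)

/-- Admissible of level `n`: moreover `m^(n+1) = 0`. -/
def AdmN
    (𝒟 : ∀ ⦃A : Type⦄ [CommRing A] [IsLocalRing A] [Algebra 𝒪 A], GaloisRepAdic A → Prop)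
    (rb : Gal →* M2 (ResidueField 𝒪)) (n : ℕ) (I : Ideal (Pol 𝒪)) : Prop :=
  ∃ (_ : IsLocalRing (Pol 𝒪 ⧸ I)) (r : Gal →* M2 (Pol 𝒪 ⧸ I)),
    IsDefo 𝒪 𝒟 rb r ∧ (∀ σ, (r σ).trace = Ideal.Quotient.mk I (MvPolynomial.X σ)) ∧
      maximalIdeal (Pol 𝒪 ⧸ I) ^ (n + 1) = ⊥

/-- A chain of minimal admissible ideals, one for each level. -/
structure Chain
    (𝒟 : ∀ ⦃A : Type⦄ [CommRing A] [IsLocalRing A] [Algebra 𝒪 A], GaloisRepAdic A → Prop)
    (rb : Gal →* M2 (ResidueField 𝒪)) where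
  I : ℕ → Ideal (Pol 𝒪)
  adm : ∀ n, AdmN 𝒪 𝒟 rb n (I n)
  min : ∀ n I', AdmN 𝒪 𝒟 rb n I' → I n ≤ I'

end defs

instance Chain.instIsLocalRing {𝒪 : Type} [CommRing 𝒪] [IsLocalRing 𝒪]
    {𝒟 : ∀ ⦃A : Type⦄ [CommRing A] [IsLocalRing A] [Algebra 𝒪 A], GaloisRepAdic A → Prop}
    {rb : Gal →* M2 (ResidueField 𝒪)} (c : Chain 𝒪 𝒟 rb) (n : ℕ) :
    IsLocalRing (Pol 𝒪 ⧸ c.I n) := (c.adm n).choose

end Fermat.Agent.S53lib

end
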