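/-
S53 helper library — piece D: Artinian test algebras (helper13).

D1 `finite_of_isArtinianTestAlgebra`, `exists_pow_eq_bot_of_isArtinianTestAlgebra`, `isArtinianTestAlgebra_of_finite`
D2 `isLocalHom_of_residue_surjective`
D3 `fibK`, `FibK`, `resK`, projections `FibK.prA`, `FibK.prB`, fibre-product property, test algebra
D4 `isLocalRing_of_injective_algHom`, `isArtinianTestAlgebra_of_injective_algHom`, specialisation to `P ⧸ ker f`
-/
import Mathlib
import Fermat.Prelude.Def_GaloisRep_DeformationCondition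

set_option autoImplicit false
set_option linter.unusedSectionVars false
set_option linter.style.haveILetI false

open IsLocalRing GaloisRep

namespace Fermat.Agent.S53lib

/-! ### D1 : test algebras are finite rings -/

section D1

theorem finite_of_isFiniteLength {A : Type*} [CommRing A] [IsLocalRing A]
    [Finite (ResidueField A)] {M : Type*} [AddCommGroup M] [Module A M]
    (h : IsFiniteLength A M) : Finite M := by
  induction h with
  | of_subsingleton => infer_instance
  | @of_simple_quotient M _ _ N hs _ ih =>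
    obtain ⟨I, hI, ⟨e⟩⟩ := isSimpleModule_iff_quot_maximal.mp hs
    have hIm : I = maximalIdeal A := IsLocalRing.eq_maximalIdeal hI
    subst hIm
    have h1 : Finite (A ⧸ maximalIdeal A) := ‹Finite (ResidueField A)›
    have h2 : Finite (M ⧸ N) := Finite.of_equiv _ e.symm.toEquiv
    have h3 : Finite N := ih
    apply Nat.finite_of_card_ne_zero
    rw [Submodule.card_eq_card_quotient_mul_card N]
    exact Nat.mul_ne_zero Nat.card_pos.ne' Nat.card_pos.ne'

theorem finite_of_isArtinianRing (A : Type*) [CommRing A] [IsLocalRing A] [IsArtinianRing A]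
    [Finite (ResidueField A)] : Finite A :=
  finite_of_isFiniteLength (A := A)
    (isFiniteLength_iff_isNoetherian_isArtinian.mpr ⟨inferInstance, inferInstance⟩)

variable {𝒪 : Type} [CommRing 𝒪] [IsLocalRing 𝒪]
variable {A : Type} [CommRing A] [IsLocalRing A] [Algebra 𝒪 A]

theorem residueField_map_surjective (hloc : IsLocalHom (algebraMap 𝒪 A))
    (hsurj : Function.Surjective (IsLocalRing.residue A ∘ algebraMap 𝒪 A)) :
    Function.Surjective (ResidueField.map (algebraMap 𝒪 A)) := by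
  intro y
  obtain ⟨x, hx⟩ := hsurj y
  exact ⟨IsLocalRing.residue 𝒪 x, by rw [ResidueField.map_residue]; exact hx⟩

theorem residueField_map_bijective (hloc : IsLocalHom (algebraMap 𝒪 A))
    (hsurj : Function.Surjective (IsLocalRing.residue A ∘ algebraMap 𝒪 A)) :
    Function.Bijective (ResidueField.map (algebraMap 𝒪 A)) :=
  ⟨(ResidueField.map (algebraMap 𝒪 A)).injective, residueField_map_surjective hloc hsurj⟩

theorem finite_residueField_of_surjective [Finite (ResidueField 𝒪)]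
    (hloc : IsLocalHom (algebraMap 𝒪 A))
    (hsurj : Function.Surjective (IsLocalRing.residue A ∘ algebraMap 𝒪 A)) :
    Finite (ResidueField A) :=
  Finite.of_surjective _ (residueField_map_surjective hloc hsurj)

/-- D1a: an Artinian test algebra over `𝒪` (finite residue field) is a finite ring. -/
theorem finite_of_isArtinianTestAlgebra [Finite (ResidueField 𝒪)]
    (h : IsArtinianTestAlgebra 𝒪 A) : Finite A := by
  have := h.isArtinian
  have := finite_residueField_of_surjective h.isLocalHom h.residue_surjective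
  exact finite_of_isArtinianRing A

/-- D1b: the maximal ideal of an Artinian local ring is nilpotent. -/
theorem exists_maximalIdeal_pow_eq_bot (A : Type*) [CommRing A] [IsLocalRing A]
    [IsArtinianRing A] : ∃ n : ℕ, maximalIdeal A ^ n = ⊥ := by
  have h := IsArtinianRing.isNilpotent_jacobson_bot (R := A)
  rw [IsLocalRing.jacobson_eq_maximalIdeal ⊥ bot_ne_top] at h
  obtain ⟨n, hn⟩ := h
  exact ⟨n, hn⟩

theorem exists_pow_eq_bot_of_isArtinianTestAlgebra (h : IsArtinianTestAlgebra 𝒪 A) :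
    ∃ n : ℕ, maximalIdeal A ^ n = ⊥ := by
  have := h.isArtinian
  exact exists_maximalIdeal_pow_eq_bot A

/-- D1c: a finite local `𝒪`-algebra with local, residue-surjective structure map is a test algebra. -/
theorem isArtinianTestAlgebra_of_finite [Finite A] (hloc : IsLocalHom (algebraMap 𝒪 A))
    (hsurj : Function.Surjective (IsLocalRing.residue A ∘ algebraMap 𝒪 A)) :
    IsArtinianTestAlgebra 𝒪 A :=
  ⟨hloc, hsurj, inferInstance⟩

/-- Every element of a residue-surjective local `𝒪`-algebra is congruent to a constant modulo the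
maximal ideal. -/
theorem exists_sub_algebraMap_mem_maximalIdeal
    (hsurj : Function.Surjective (IsLocalRing.residue A ∘ algebraMap 𝒪 A)) (a : A) :
    ∃ o : 𝒪, a - algebraMap 𝒪 A o ∈ maximalIdeal A := by
  obtain ⟨o, ho⟩ := hsurj (IsLocalRing.residue A a)
  refine ⟨o, ?_⟩
  rw [← IsLocalRing.residue_eq_zero_iff, map_sub, sub_eq_zero]
  exact ho.symm

end D1

/-! ### D2 : algebra homs into residue-surjective local algebras are local -/

section D2

variable {𝒪 : Type} [CommRing 𝒪]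
variable {A : Type} [CommRing A] [IsLocalRing A] [Algebra 𝒪 A]
variable {B : Type} [CommRing B] [IsLocalRing B] [Algebra 𝒪 B]

/-- D2: an `𝒪`-algebra hom `A → B` of local rings, `B` residue-surjective over `𝒪`, is a local hom. -/
theorem isLocalHom_of_residue_surjective
    (hB : Function.Surjective (IsLocalRing.residue B ∘ algebraMap 𝒪 B)) (f : A →ₐ[𝒪] B) :
    IsLocalHom (f : A →+* B) := by
  refine ⟨fun a ha => ?_⟩
  by_contra hna
  have ham : a ∈ maximalIdeal A := (IsLocalRing.mem_maximalIdeal a).mpr hna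
  obtain ⟨u, hu⟩ := ha
  -- choose `o` with `o ≡ -u⁻¹` in the residue field of `B`
  obtain ⟨o, ho⟩ := hB (IsLocalRing.residue B (-(↑u⁻¹ : B)))
  have h1 : IsUnit (1 + algebraMap 𝒪 A o * a) := by
    have hmem : -(algebraMap 𝒪 A o * a) ∈ nonunits A := by
      rw [← IsLocalRing.mem_maximalIdeal]
      exact (maximalIdeal A).neg_mem (Ideal.mul_mem_left _ _ ham)
    have := IsLocalRing.isUnit_one_sub_self_of_mem_nonunits _ hmem
    simpa using this
  have h2 : IsUnit ((f : A →+* B) (1 + algebraMap 𝒪 A o * a)) := h1.map _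
  have h3 : IsLocalRing.residue B ((f : A →+* B) (1 + algebraMap 𝒪 A o * a)) = 0 := by
    have hfa : (f : A →+* B) a = (u : B) := hu.symm
    have hfo : (f : A →+* B) (algebraMap 𝒪 A o) = algebraMap 𝒪 B o := f.commutes o
    rw [map_add, map_one, map_mul, hfa, hfo, map_add, map_one, map_mul]
    have ho' : IsLocalRing.residue B (algebraMap 𝒪 B o) = IsLocalRing.residue B (-(↑u⁻¹ : B)) := ho
    rw [ho', ← map_mul, ← map_one (IsLocalRing.residue B), ← map_add]
    simp
  exact ((IsLocalRing.residue_ne_zero_iff_isUnit _).mpr h2) h3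

end D2

/-! ### The residue map to `k = ResidueField 𝒪` -/

section ResK

variable {𝒪 : Type} [CommRing 𝒪] [IsLocalRing 𝒪]
variable {A : Type} [CommRing A] [IsLocalRing A] [Algebra 𝒪 A]

/-- The ring isomorphism `k ≃ k_A` for a residue-surjective local `𝒪`-algebra. -/
noncomputable def residueEquiv (hloc : IsLocalHom (algebraMap 𝒪 A))
    (hsurj : Function.Surjective (IsLocalRing.residue A ∘ algebraMap 𝒪 A)) :
    ResidueField 𝒪 ≃+* ResidueField A :=
  haveI := hloc
  RingEquiv.ofBijective (ResidueField.map (algebraMap 𝒪 A)) (residueField_map_bijective hloc hsurj)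

@[simp] theorem residueEquiv_apply (hloc : IsLocalHom (algebraMap 𝒪 A))
    (hsurj : Function.Surjective (IsLocalRing.residue A ∘ algebraMap 𝒪 A)) (x : ResidueField 𝒪) :
    residueEquiv hloc hsurj x = (haveI := hloc; ResidueField.map (algebraMap 𝒪 A) x) := rfl

/-- The `𝒪`-algebra map `A → k` (reduction modulo the maximal ideal, identified with `k`). -/
noncomputable def resK (hloc : IsLocalHom (algebraMap 𝒪 A))
    (hsurj : Function.Surjective (IsLocalRing.residue A ∘ algebraMap 𝒪 A)) :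
    A →ₐ[𝒪] ResidueField 𝒪 where
  toRingHom := ((residueEquiv hloc hsurj).symm : ResidueField A →+* ResidueField 𝒪).comp
    (IsLocalRing.residue A)
  commutes' o := by
    haveI := hloc
    change (residueEquiv hloc hsurj).symm (IsLocalRing.residue A (algebraMap 𝒪 A o)) = _
    rw [RingEquiv.symm_apply_eq]
    simp only [residueEquiv_apply]
    rw [IsLocalRing.ResidueField.algebraMap_eq, ResidueField.map_residue]

theorem resK_apply (hloc : IsLocalHom (algebraMap 𝒪 A))
    (hsurj : Function.Surjective (IsLocalRing.residue A ∘ algebraMap 𝒪 A)) (a : A) :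
    resK hloc hsurj a = (residueEquiv hloc hsurj).symm (IsLocalRing.residue A a) := rfl

theorem resK_eq_zero_iff (hloc : IsLocalHom (algebraMap 𝒪 A))
    (hsurj : Function.Surjective (IsLocalRing.residue A ∘ algebraMap 𝒪 A)) (a : A) :
    resK hloc hsurj a = 0 ↔ a ∈ maximalIdeal A := by
  rw [resK_apply, map_eq_zero_iff _ (residueEquiv hloc hsurj).symm.injective,
    IsLocalRing.residue_eq_zero_iff]

theorem resK_surjective (hloc : IsLocalHom (algebraMap 𝒪 A))
    (hsurj : Function.Surjective (IsLocalRing.residue A ∘ algebraMap 𝒪 A)) :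
    Function.Surjective (resK hloc hsurj) := by
  intro x
  obtain ⟨a, ha⟩ := IsLocalRing.residue_surjective (residueEquiv hloc hsurj x)
  exact ⟨a, by rw [resK_apply, ha, RingEquiv.symm_apply_apply]⟩

theorem resK_eq_iff (hloc : IsLocalHom (algebraMap 𝒪 A))
    (hsurj : Function.Surjective (IsLocalRing.residue A ∘ algebraMap 𝒪 A)) (a : A) (o : 𝒪) :
    resK hloc hsurj a = IsLocalRing.residue 𝒪 o ↔ a - algebraMap 𝒪 A o ∈ maximalIdeal A := by
  rw [← resK_eq_zero_iff hloc hsurj, map_sub, sub_eq_zero, AlgHom.commutes,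
    IsLocalRing.ResidueField.algebraMap_eq]

end ResK

/-! ### D3 : the fibre product over the residue field -/

section D3

variable (𝒪 : Type) [CommRing 𝒪] [IsLocalRing 𝒪]
variable (A : Type) [CommRing A] [IsLocalRing A] [Algebra 𝒪 A]
variable (B : Type) [CommRing B] [IsLocalRing B] [Algebra 𝒪 B]

/-- The fibre product `A ×_k B` as a subalgebra of `A × B`: pairs congruent to a common constant. -/
def fibK : Subalgebra 𝒪 (A × B) where
  carrier := {p | ∃ o : 𝒪, p.1 - algebraMap 𝒪 A o ∈ maximalIdeal A ∧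
    p.2 - algebraMap 𝒪 B o ∈ maximalIdeal B}
  mul_mem' := by
    rintro ⟨a, b⟩ ⟨a', b'⟩ ⟨o, h1, h2⟩ ⟨o', h1', h2'⟩
    refine ⟨o * o', ?_, ?_⟩
    · have : a * a' - algebraMap 𝒪 A (o * o') =
          a * (a' - algebraMap 𝒪 A o') + (a - algebraMap 𝒪 A o) * algebraMap 𝒪 A o' := by
        rw [map_mul]; ring
      change a * a' - algebraMap 𝒪 A (o * o') ∈ _
      rw [this]
      exact Ideal.add_mem _ (Ideal.mul_mem_left _ _ h1') (Ideal.mul_mem_right _ _ h1)
    · have : b * b' - algebraMap 𝒪 B (o * o') =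
          b * (b' - algebraMap 𝒪 B o') + (b - algebraMap 𝒪 B o) * algebraMap 𝒪 B o' := by
        rw [map_mul]; ring
      change b * b' - algebraMap 𝒪 B (o * o') ∈ _
      rw [this]
      exact Ideal.add_mem _ (Ideal.mul_mem_left _ _ h2') (Ideal.mul_mem_right _ _ h2)
  add_mem' := by
    rintro ⟨a, b⟩ ⟨a', b'⟩ ⟨o, h1, h2⟩ ⟨o', h1', h2'⟩
    refine ⟨o + o', ?_, ?_⟩
    · have : a + a' - algebraMap 𝒪 A (o + o') =
          (a - algebraMap 𝒪 A o) + (a' - algebraMap 𝒪 A o') := by rw [map_add]; ring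
      change a + a' - algebraMap 𝒪 A (o + o') ∈ _
      rw [this]
      exact Ideal.add_mem _ h1 h1'
    · have : b + b' - algebraMap 𝒪 B (o + o') =
          (b - algebraMap 𝒪 B o) + (b' - algebraMap 𝒪 B o') := by rw [map_add]; ring
      change b + b' - algebraMap 𝒪 B (o + o') ∈ _
      rw [this]
      exact Ideal.add_mem _ h2 h2'
  algebraMap_mem' o := ⟨o, by simp, by simp⟩

/-- The fibre product `A ×_k B` as a type. -/
abbrev FibK : Type := ↥(fibK 𝒪 A B)

variable {𝒪 A B}

theorem mem_fibK_iff {p : A × B} : p ∈ fibK 𝒪 A B ↔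
    ∃ o : 𝒪, p.1 - algebraMap 𝒪 A o ∈ maximalIdeal A ∧ p.2 - algebraMap 𝒪 B o ∈ maximalIdeal B :=
  Iff.rfl

/-- First projection `A ×_k B → A`. -/
def FibK.prA : FibK 𝒪 A B →ₐ[𝒪] A := (AlgHom.fst 𝒪 A B).comp (fibK 𝒪 A B).val

/-- Second projection `A ×_k B → B`. -/
def FibK.prB : FibK 𝒪 A B →ₐ[𝒪] B := (AlgHom.snd 𝒪 A B).comp (fibK 𝒪 A B).val

@[simp] theorem FibK.prA_apply (x : FibK 𝒪 A B) : FibK.prA x = x.1.1 := rfl
@[simp] theorem FibK.prB_apply (x : FibK 𝒪 A B) : FibK.prB x = x.1.2 := rfl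

theorem FibK.ext_pr {x y : FibK 𝒪 A B} (hA : FibK.prA x = FibK.prA y)
    (hB : FibK.prB x = FibK.prB y) : x = y :=
  Subtype.ext (Prod.ext hA hB)

theorem FibK.pr_injective :
    Function.Injective (fun x : FibK 𝒪 A B => (FibK.prA x, FibK.prB x)) := by
  intro x y h
  exact FibK.ext_pr (congrArg Prod.fst h) (congrArg Prod.snd h)

theorem FibK.fst_mem_iff_snd_mem [IsLocalHom (algebraMap 𝒪 A)] [IsLocalHom (algebraMap 𝒪 B)]
    (x : FibK 𝒪 A B) : x.1.1 ∈ maximalIdeal A ↔ x.1.2 ∈ maximalIdeal B := by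
  obtain ⟨o, h1, h2⟩ := x.2
  have key : ∀ (C : Type) [CommRing C] [IsLocalRing C] [Algebra 𝒪 C] [IsLocalHom (algebraMap 𝒪 C)]
      (c : C), c - algebraMap 𝒪 C o ∈ maximalIdeal C → (c ∈ maximalIdeal C ↔ ¬ IsUnit o) := by
    intro C _ _ _ _ c hc
    constructor
    · intro hcm ho
      have : algebraMap 𝒪 C o ∈ maximalIdeal C := by
        have := (maximalIdeal C).sub_mem hcm hc
        simpa using this
      exact (IsLocalRing.mem_maximalIdeal _).mp this (ho.map _)
    · intro ho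
      have : algebraMap 𝒪 C o ∈ maximalIdeal C := by
        rw [IsLocalRing.mem_maximalIdeal]
        intro hu
        exact ho (IsUnit.of_map (algebraMap 𝒪 C) o hu)
      have := (maximalIdeal C).add_mem hc this
      simpa using this
  rw [key A x.1.1 h1, key B x.1.2 h2]

theorem FibK.isUnit_iff [IsLocalHom (algebraMap 𝒪 A)] [IsLocalHom (algebraMap 𝒪 B)]
    (x : FibK 𝒪 A B) : IsUnit x ↔ IsUnit x.1.1 := by
  constructor
  · intro h
    exact h.map (FibK.prA : FibK 𝒪 A B →ₐ[𝒪] A)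
  · intro h
    have hB : IsUnit x.1.2 := by
      rw [← IsLocalRing.notMem_maximalIdeal, ← FibK.fst_mem_iff_snd_mem,
        IsLocalRing.notMem_maximalIdeal]
      exact h
    obtain ⟨u, hu⟩ := h
    obtain ⟨v, hv⟩ := hB
    obtain ⟨o, h1, h2⟩ := x.2
    -- `o` is a unit
    have ho : IsUnit o := by
      by_contra hno
      have : algebraMap 𝒪 A o ∈ maximalIdeal A := by
        rw [IsLocalRing.mem_maximalIdeal]
        intro hu'
        exact hno (IsUnit.of_map (algebraMap 𝒪 A) o hu')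
      have hx : x.1.1 ∈ maximalIdeal A := by
        have := (maximalIdeal A).add_mem h1 this
        simpa using this
      rw [IsLocalRing.mem_maximalIdeal] at hx
      exact hx ⟨u, hu⟩
    obtain ⟨w, hw⟩ := ho
    have hmem : ((↑u⁻¹ : A), (↑v⁻¹ : B)) ∈ fibK 𝒪 A B := by
      refine ⟨(↑w⁻¹ : 𝒪), ?_, ?_⟩
      · have : (↑u⁻¹ : A) - algebraMap 𝒪 A (↑w⁻¹ : 𝒪) =
            -((↑u⁻¹ : A) * algebraMap 𝒪 A (↑w⁻¹ : 𝒪)) * (x.1.1 - algebraMap 𝒪 A o) := by
          have e1 : (↑u⁻¹ : A) * x.1.1 = 1 := by rw [← hu]; exact u.inv_mul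
          have e2 : algebraMap 𝒪 A (↑w⁻¹ : 𝒪) * algebraMap 𝒪 A o = 1 := by
            rw [← map_mul, ← hw, Units.inv_mul, map_one]
          linear_combination (algebraMap 𝒪 A (↑w⁻¹ : 𝒪)) * e1 - (↑u⁻¹ : A) * e2
        change (↑u⁻¹ : A) - algebraMap 𝒪 A (↑w⁻¹ : 𝒪) ∈ _
        rw [this]
        exact Ideal.mul_mem_left _ _ h1
      · have : (↑v⁻¹ : B) - algebraMap 𝒪 B (↑w⁻¹ : 𝒪) =
            -((↑v⁻¹ : B) * algebraMap 𝒪 B (↑w⁻¹ : 𝒪)) * (x.1.2 - algebraMap 𝒪 B o) := by
          have e1 : (↑v⁻¹ : B) * x.1.2 = 1 := by rw [← hv]; exact v.inv_mul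
          have e2 : algebraMap 𝒪 B (↑w⁻¹ : 𝒪) * algebraMap 𝒪 B o = 1 := by
            rw [← map_mul, ← hw, Units.inv_mul, map_one]
          linear_combination (algebraMap 𝒪 B (↑w⁻¹ : 𝒪)) * e1 - (↑v⁻¹ : B) * e2
        change (↑v⁻¹ : B) - algebraMap 𝒪 B (↑w⁻¹ : 𝒪) ∈ _
        rw [this]
        exact Ideal.mul_mem_left _ _ h2
    refine ⟨⟨x, ⟨_, hmem⟩, ?_, ?_⟩, rfl⟩
    · apply FibK.ext_pr
      · change x.1.1 * (↑u⁻¹ : A) = 1
        rw [← hu]; exact u.mul_inv
      · change x.1.2 * (↑v⁻¹ : B) = 1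
        rw [← hv]; exact v.mul_inv
    · apply FibK.ext_pr
      · change (↑u⁻¹ : A) * x.1.1 = 1
        rw [← hu]; exact u.inv_mul
      · change (↑v⁻¹ : B) * x.1.2 = 1
        rw [← hv]; exact v.inv_mul

instance FibK.instNontrivial : Nontrivial (FibK 𝒪 A B) :=
  ⟨⟨0, 1, fun h => zero_ne_one (α := A) (congrArg (fun x : FibK 𝒪 A B => x.1.1) h)⟩⟩

instance FibK.instIsLocalRing [IsLocalHom (algebraMap 𝒪 A)] [IsLocalHom (algebraMap 𝒪 B)] :
    IsLocalRing (FibK 𝒪 A B) := by
  refine IsLocalRing.of_nonunits_add fun x y hx hy => ?_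
  rw [mem_nonunits_iff, FibK.isUnit_iff] at hx hy ⊢
  have hx' : x.1.1 ∈ maximalIdeal A := (IsLocalRing.mem_maximalIdeal _).mpr hx
  have hy' : y.1.1 ∈ maximalIdeal A := (IsLocalRing.mem_maximalIdeal _).mpr hy
  exact (IsLocalRing.mem_maximalIdeal _).mp ((maximalIdeal A).add_mem hx' hy')

theorem FibK.mem_maximalIdeal_iff [IsLocalHom (algebraMap 𝒪 A)] [IsLocalHom (algebraMap 𝒪 B)]
    (x : FibK 𝒪 A B) : x ∈ maximalIdeal (FibK 𝒪 A B) ↔ x.1.1 ∈ maximalIdeal A := by
  rw [IsLocalRing.mem_maximalIdeal, IsLocalRing.mem_maximalIdeal, mem_nonunits_iff,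
    mem_nonunits_iff, FibK.isUnit_iff]

theorem FibK.mem_maximalIdeal_iff' [IsLocalHom (algebraMap 𝒪 A)] [IsLocalHom (algebraMap 𝒪 B)]
    (x : FibK 𝒪 A B) : x ∈ maximalIdeal (FibK 𝒪 A B) ↔
      x.1.1 ∈ maximalIdeal A ∧ x.1.2 ∈ maximalIdeal B := by
  rw [FibK.mem_maximalIdeal_iff, ← FibK.fst_mem_iff_snd_mem, and_self]

instance FibK.instIsLocalHom_algebraMap [IsLocalHom (algebraMap 𝒪 A)]
    [IsLocalHom (algebraMap 𝒪 B)] : IsLocalHom (algebraMap 𝒪 (FibK 𝒪 A B)) := by
  refine ⟨fun o ho => ?_⟩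
  have h1 : IsUnit ((algebraMap 𝒪 (FibK 𝒪 A B) o).1.1) := (FibK.isUnit_iff _).mp ho
  exact IsUnit.of_map (algebraMap 𝒪 A) o h1

instance FibK.instIsLocalHom_prA [IsLocalHom (algebraMap 𝒪 A)] [IsLocalHom (algebraMap 𝒪 B)] :
    IsLocalHom ((FibK.prA : FibK 𝒪 A B →ₐ[𝒪] A) : FibK 𝒪 A B →+* A) :=
  ⟨fun x hx => (FibK.isUnit_iff x).mpr hx⟩

instance FibK.instIsLocalHom_prB [IsLocalHom (algebraMap 𝒪 A)] [IsLocalHom (algebraMap 𝒪 B)] :
    IsLocalHom ((FibK.prB : FibK 𝒪 A B →ₐ[𝒪] B) : FibK 𝒪 A B →+* B) := by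
  refine ⟨fun x hx => ?_⟩
  have hx' : IsUnit x.1.2 := hx
  rw [FibK.isUnit_iff, ← IsLocalRing.notMem_maximalIdeal, FibK.fst_mem_iff_snd_mem,
    IsLocalRing.notMem_maximalIdeal]
  exact hx'

theorem FibK.residue_surjective [IsLocalHom (algebraMap 𝒪 A)] [IsLocalHom (algebraMap 𝒪 B)] :
    Function.Surjective (IsLocalRing.residue (FibK 𝒪 A B) ∘ algebraMap 𝒪 (FibK 𝒪 A B)) := by
  intro y
  obtain ⟨x, rfl⟩ := IsLocalRing.residue_surjective y
  obtain ⟨o, h1, h2⟩ := x.2
  refine ⟨o, ?_⟩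
  change IsLocalRing.residue _ (algebraMap 𝒪 (FibK 𝒪 A B) o) = IsLocalRing.residue _ x
  rw [eq_comm, ← sub_eq_zero, ← map_sub, IsLocalRing.residue_eq_zero_iff,
    FibK.mem_maximalIdeal_iff]
  exact h1

theorem FibK.prA_surjective
    (hB : Function.Surjective (IsLocalRing.residue A ∘ algebraMap 𝒪 A)) :
    Function.Surjective (FibK.prA : FibK 𝒪 A B →ₐ[𝒪] A) := by
  intro a
  obtain ⟨o, ho⟩ := exists_sub_algebraMap_mem_maximalIdeal hB a
  exact ⟨⟨(a, algebraMap 𝒪 B o), o, ho, by simp⟩, rfl⟩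

theorem FibK.prB_surjective
    (hB : Function.Surjective (IsLocalRing.residue B ∘ algebraMap 𝒪 B)) :
    Function.Surjective (FibK.prB : FibK 𝒪 A B →ₐ[𝒪] B) := by
  intro b
  obtain ⟨o, ho⟩ := exists_sub_algebraMap_mem_maximalIdeal hB b
  exact ⟨⟨(algebraMap 𝒪 A o, b), o, by simp, ho⟩, rfl⟩

/-- Membership in the fibre product in terms of the residue maps to `k`. -/
theorem mem_fibK_iff_resK (hlA : IsLocalHom (algebraMap 𝒪 A))
    (hsA : Function.Surjective (IsLocalRing.residue A ∘ algebraMap 𝒪 A))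
    (hlB : IsLocalHom (algebraMap 𝒪 B))
    (hsB : Function.Surjective (IsLocalRing.residue B ∘ algebraMap 𝒪 B)) (p : A × B) :
    p ∈ fibK 𝒪 A B ↔ resK hlA hsA p.1 = resK hlB hsB p.2 := by
  constructor
  · rintro ⟨o, h1, h2⟩
    rw [(resK_eq_iff hlA hsA p.1 o).mpr h1, (resK_eq_iff hlB hsB p.2 o).mpr h2]
  · intro h
    obtain ⟨o, ho⟩ := IsLocalRing.residue_surjective (resK hlA hsA p.1)
    exact ⟨o, (resK_eq_iff hlA hsA p.1 o).mp ho.symm,
      (resK_eq_iff hlB hsB p.2 o).mp (h ▸ ho.symm)⟩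

theorem FibK.resK_comp_prA_eq (hlA : IsLocalHom (algebraMap 𝒪 A))
    (hsA : Function.Surjective (IsLocalRing.residue A ∘ algebraMap 𝒪 A))
    (hlB : IsLocalHom (algebraMap 𝒪 B))
    (hsB : Function.Surjective (IsLocalRing.residue B ∘ algebraMap 𝒪 B)) :
    (resK hlA hsA).comp (FibK.prA : FibK 𝒪 A B →ₐ[𝒪] A) =
      (resK hlB hsB).comp (FibK.prB : FibK 𝒪 A B →ₐ[𝒪] B) := by
  ext x
  exact (mem_fibK_iff_resK hlA hsA hlB hsB x.1).mp x.2

/-- The fibre-product property of `A ×_k B`. -/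
theorem FibK.exists_of_resK_eq (hlA : IsLocalHom (algebraMap 𝒪 A))
    (hsA : Function.Surjective (IsLocalRing.residue A ∘ algebraMap 𝒪 A))
    (hlB : IsLocalHom (algebraMap 𝒪 B))
    (hsB : Function.Surjective (IsLocalRing.residue B ∘ algebraMap 𝒪 B))
    (a : A) (b : B) (h : resK hlA hsA a = resK hlB hsB b) :
    ∃ x : FibK 𝒪 A B, FibK.prA x = a ∧ FibK.prB x = b :=
  ⟨⟨(a, b), (mem_fibK_iff_resK hlA hsA hlB hsB (a, b)).mpr h⟩, rfl, rfl⟩

/-- D3: the fibre product over `k` of two Artinian test algebras is an Artinian test algebra. -/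
theorem FibK.isArtinianTestAlgebra [Finite (ResidueField 𝒪)]
    (hA : IsArtinianTestAlgebra 𝒪 A) (hB : IsArtinianTestAlgebra 𝒪 B) :
    haveI := hA.isLocalHom
    haveI := hB.isLocalHom
    IsArtinianTestAlgebra 𝒪 (FibK 𝒪 A B) := by
  haveI := hA.isLocalHom
  haveI := hB.isLocalHom
  haveI := finite_of_isArtinianTestAlgebra hA
  haveI := finite_of_isArtinianTestAlgebra hB
  haveI : Finite (FibK 𝒪 A B) := Subtype.finite
  exact ⟨inferInstance, FibK.residue_surjective, inferInstance⟩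

end D3

/-! ### D4 : algebras embedding into a test algebra -/

section D4

variable {𝒪 : Type} [CommRing 𝒪] [IsLocalRing 𝒪] [Finite (ResidueField 𝒪)]
variable {A : Type} [CommRing A] [IsLocalRing A] [Algebra 𝒪 A]
variable {B : Type} [CommRing B] [Algebra 𝒪 B]

/-- In a ring embedding into a finite ring, an element is a unit as soon as its image is. -/
theorem isUnit_of_isUnit_map_of_injective [Finite A] (g : B →+* A) (hg : Function.Injective g)
    (b : B) (hb : IsUnit (g b)) : IsUnit b := by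
  obtain ⟨u, hu⟩ := hb
  have hfin : Finite Aˣ := inferInstance
  have hn : u ^ Nat.card Aˣ = 1 := pow_card_eq_one'
  have hpos : 0 < Nat.card Aˣ := Nat.card_pos
  have h1 : g (b ^ Nat.card Aˣ) = g 1 := by
    rw [map_pow, ← hu, ← Units.val_pow_eq_pow_val, hn, Units.val_one, map_one]
  have h2 : b ^ Nat.card Aˣ = 1 := hg h1
  exact IsUnit.of_pow_eq_one h2 hpos.ne'

/-- D4a: an `𝒪`-algebra embedding into an Artinian test algebra is a local ring. -/
theorem isLocalRing_of_injective_algHom (hA : IsArtinianTestAlgebra 𝒪 A) (g : B →ₐ[𝒪] A)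
    (hg : Function.Injective g) : IsLocalRing B := by
  haveI := finite_of_isArtinianTestAlgebra hA
  haveI : Nontrivial B := by
    refine ⟨⟨0, 1, fun h => ?_⟩⟩
    have := congrArg g h
    rw [map_zero, map_one] at this
    exact zero_ne_one this
  refine IsLocalRing.of_nonunits_add fun x y hx hy => ?_
  rw [mem_nonunits_iff] at hx hy ⊢
  have hx' : ¬ IsUnit (g x) := fun h => hx (isUnit_of_isUnit_map_of_injective (g : B →+* A) hg x h)
  have hy' : ¬ IsUnit (g y) := fun h => hy (isUnit_of_isUnit_map_of_injective (g : B →+* A) hg y h)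
  intro hxy
  have : IsUnit (g (x + y)) := hxy.map g
  rw [map_add] at this
  exact (IsLocalRing.mem_maximalIdeal _).mp
    ((maximalIdeal A).add_mem ((IsLocalRing.mem_maximalIdeal _).mpr hx')
      ((IsLocalRing.mem_maximalIdeal _).mpr hy')) this

/-- D4b: an injective `𝒪`-algebra hom from a local ring into an Artinian test algebra is local. -/
theorem isLocalHom_of_injective_algHom [IsLocalRing B] (hA : IsArtinianTestAlgebra 𝒪 A)
    (g : B →ₐ[𝒪] A) (hg : Function.Injective g) : IsLocalHom (g : B →+* A) := by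
  haveI := finite_of_isArtinianTestAlgebra hA
  exact ⟨fun b hb => isUnit_of_isUnit_map_of_injective (g : B →+* A) hg b hb⟩

/-- D4c: a local `𝒪`-algebra embedding into an Artinian test algebra is an Artinian test algebra. -/
theorem isArtinianTestAlgebra_of_injective_algHom [IsLocalRing B]
    (hA : IsArtinianTestAlgebra 𝒪 A) (g : B →ₐ[𝒪] A) (hg : Function.Injective g) :
    IsArtinianTestAlgebra 𝒪 B := by
  haveI := finite_of_isArtinianTestAlgebra hA
  haveI : Finite B := Finite.of_injective g hg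
  haveI hgl : IsLocalHom (g : B →+* A) := isLocalHom_of_injective_algHom hA g hg
  haveI := hA.isLocalHom
  refine ⟨⟨fun o ho => ?_⟩, ?_, inferInstance⟩
  · have : IsUnit ((g : B →+* A) (algebraMap 𝒪 B o)) := ho.map _
    have h2 : (g : B →+* A) (algebraMap 𝒪 B o) = algebraMap 𝒪 A o := g.commutes o
    rw [h2] at this
    exact IsUnit.of_map (algebraMap 𝒪 A) o this
  · intro y
    obtain ⟨b, rfl⟩ := IsLocalRing.residue_surjective y
    obtain ⟨o, ho⟩ := exists_sub_algebraMap_mem_maximalIdeal hA.residue_surjective (g b)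
    refine ⟨o, ?_⟩
    change IsLocalRing.residue B (algebraMap 𝒪 B o) = IsLocalRing.residue B b
    rw [eq_comm, ← sub_eq_zero, ← map_sub, IsLocalRing.residue_eq_zero_iff,
      IsLocalRing.mem_maximalIdeal, mem_nonunits_iff]
    intro hu
    have : IsUnit ((g : B →+* A) (b - algebraMap 𝒪 B o)) := hu.map _
    have h2 : (g : B →+* A) (b - algebraMap 𝒪 B o) = g b - algebraMap 𝒪 A o := by
      rw [map_sub]; congr 1; exact g.commutes o
    rw [h2] at this
    exact (IsLocalRing.mem_maximalIdeal _).mp ho this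

/-- D4 for subalgebras. -/
theorem isLocalRing_subalgebra (hA : IsArtinianTestAlgebra 𝒪 A) (S : Subalgebra 𝒪 A) :
    IsLocalRing S :=
  isLocalRing_of_injective_algHom hA S.val Subtype.val_injective

theorem isArtinianTestAlgebra_subalgebra (hA : IsArtinianTestAlgebra 𝒪 A) (S : Subalgebra 𝒪 A)
    [IsLocalRing S] : IsArtinianTestAlgebra 𝒪 S :=
  isArtinianTestAlgebra_of_injective_algHom hA S.val Subtype.val_injective

variable {P : Type} [CommRing P] [Algebra 𝒪 P]

/-- D4 for `P ⧸ ker f`, `f : P →ₐ[𝒪] A` an algebra hom into a test algebra. -/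
theorem isLocalRing_quotient_ker (hA : IsArtinianTestAlgebra 𝒪 A) (f : P →ₐ[𝒪] A) :
    IsLocalRing (P ⧸ RingHom.ker f) :=
  isLocalRing_of_injective_algHom hA (Ideal.kerLiftAlg f) (Ideal.kerLiftAlg_injective f)

theorem isArtinianTestAlgebra_quotient_ker (hA : IsArtinianTestAlgebra 𝒪 A) (f : P →ₐ[𝒪] A)
    [IsLocalRing (P ⧸ RingHom.ker f)] : IsArtinianTestAlgebra 𝒪 (P ⧸ RingHom.ker f) :=
  isArtinianTestAlgebra_of_injective_algHom hA (Ideal.kerLiftAlg f) (Ideal.kerLiftAlg_injective f)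

theorem isLocalHom_kerLiftAlg (hA : IsArtinianTestAlgebra 𝒪 A) (f : P →ₐ[𝒪] A)
    [IsLocalRing (P ⧸ RingHom.ker f)] :
    IsLocalHom ((Ideal.kerLiftAlg f : (P ⧸ RingHom.ker f) →ₐ[𝒪] A) : (P ⧸ RingHom.ker f) →+* A) :=
  isLocalHom_of_injective_algHom hA (Ideal.kerLiftAlg f) (Ideal.kerLiftAlg_injective f)

end D4

end Fermat.Agent.S53lib
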