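/-
S53 — piece G (assembly), part 2: general lemmas on deformation data in matrix form.
-/
import Fermat.Agent.S53lib.Adm
import Fermat.Agent.S53lib.TestAlg

set_option autoImplicit false
set_option linter.unusedSectionVars false

noncomputable section

namespace Fermat.Agent.S53lib

open IsLocalRing GaloisRep

/-! ### Pulling a matrix representation back along an injective ring hom -/

lemma mapMatrix_injective {B T : Type} [CommRing B] [CommRing T] (φ : B →+* T)
    (hφ : Function.Injective φ) : Function.Injective (φ.mapMatrix (m := Fin 2)) := by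
  intro x y h
  ext i j
  exact hφ (congrFun (congrFun h i) j)

lemma exists_pullback {B T : Type} [CommRing B] [CommRing T] (φ : B →+* T)
    (hφ : Function.Injective φ) (r : Gal →* M2 T) (hr : ∀ σ i j, r σ i j ∈ φ.range) :
    ∃ r' : Gal →* M2 B, mapMat φ r' = r := by
  choose g hg using hr
  have hmap : ∀ σ, φ.mapMatrix (Matrix.of (g σ) : M2 B) = r σ := by
    intro σ; ext i j; simp [hg]
  refine ⟨{ toFun := fun σ => Matrix.of (g σ)
            map_one' := mapMatrix_injective φ hφ (by rw [hmap, map_one, map_one])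
            map_mul' := fun σ τ => mapMatrix_injective φ hφ (by
              rw [hmap, map_mul, map_mul, hmap, hmap]) }, ?_⟩
  ext1 σ
  exact hmap σ

lemma mapMat_injective {B T : Type} [CommRing B] [CommRing T] (φ : B →+* T)
    (hφ : Function.Injective φ) {r r' : Gal →* M2 B} (h : mapMat φ r = mapMat φ r') : r = r' := by
  ext1 σ
  exact mapMatrix_injective φ hφ (congrArg (fun f => f σ) h)

lemma MatFin.of_mapMat_injective {B T : Type} [CommRing B] [CommRing T] (φ : B →+* T)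
    (hφ : Function.Injective φ) {r : Gal →* M2 B} (h : MatFin T (mapMat φ r)) : MatFin B r := by
  obtain ⟨L, hL, h1⟩ := h
  refine ⟨L, hL, fun σ hσ => mapMatrix_injective φ hφ ?_⟩
  rw [map_one]
  exact h1 σ hσ

lemma MatCont.matFin_of_pow_eq_bot {A : Type} [CommRing A] [IsLocalRing A] {r : Gal →* M2 A}
    (h : MatCont A r) {N : ℕ} (hN : maximalIdeal A ^ N = ⊥) : MatFin A r := by
  obtain ⟨L, hL, h1⟩ := h N
  refine ⟨L, hL, fun σ hσ => ?_⟩
  ext i j
  have := h1 σ hσ i j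
  rw [hN, Ideal.mem_bot, Matrix.sub_apply, sub_eq_zero] at this
  exact this

lemma mapMat_comp {A B C : Type} [CommRing A] [CommRing B] [CommRing C] (φ : A →+* B)
    (ψ : B →+* C) (r : Gal →* M2 A) : mapMat ψ (mapMat φ r) = mapMat (ψ.comp φ) r := by
  ext σ i j; simp

/-! ### `StrictMod` -/

section strict

variable {𝒪 : Type} [CommRing 𝒪] [IsLocalRing 𝒪]

lemma StrictMod.entriesIn_sub {T : Type} [CommRing T] [Algebra 𝒪 T]
    {rb : Gal →* M2 (ResidueField 𝒪)} {J : Ideal T} {r r' : Gal →* M2 T}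
    (h : StrictMod 𝒪 rb J r) (h' : StrictMod 𝒪 rb J r') (σ : Gal) :
    EntriesIn J (r σ - r' σ) := by
  intro i j
  obtain ⟨c, hc⟩ := IsLocalRing.residue_surjective (rb σ i j)
  have := J.sub_mem (h σ i j c hc) (h' σ i j c hc)
  simpa using this

lemma StrictMod.of_entriesIn_sub {T : Type} [CommRing T] [Algebra 𝒪 T]
    {rb : Gal →* M2 (ResidueField 𝒪)} {J : Ideal T} {r r' : Gal →* M2 T}
    (h : StrictMod 𝒪 rb J r) (h' : ∀ σ, EntriesIn J (r' σ - r σ)) : StrictMod 𝒪 rb J r' := by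
  intro σ i j c hc
  have := J.add_mem (h' σ i j) (h σ i j c hc)
  simpa using this

lemma conj_sub_entriesIn {T : Type} [CommRing T] {J : Ideal T} (Q : (M2 T)ˣ)
    (hQ : EntriesIn J ((Q : M2 T) - 1)) (x : M2 T) :
    EntriesIn J ((Q : M2 T) * x * ((Q⁻¹ : (M2 T)ˣ) : M2 T) - x) := by
  have : (Q : M2 T) * x * ((Q⁻¹ : (M2 T)ˣ) : M2 T) - x
      = (((Q : M2 T) - 1) * x - x * ((Q : M2 T) - 1)) * ((Q⁻¹ : (M2 T)ˣ) : M2 T) := by
    rw [sub_mul, sub_mul, mul_sub, one_mul, mul_one, sub_mul, sub_mul,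
      mul_assoc x, Units.mul_inv, mul_one]
    abel
  rw [this]
  exact ((hQ.mul_right x).sub (EntriesIn.mul_left x hQ)).mul_right _

lemma StrictMod.conj {T : Type} [CommRing T] [Algebra 𝒪 T]
    {rb : Gal →* M2 (ResidueField 𝒪)} {J : Ideal T} {r : Gal →* M2 T}
    (h : StrictMod 𝒪 rb J r) (Q : (M2 T)ˣ) (hQ : EntriesIn J ((Q : M2 T) - 1)) :
    StrictMod 𝒪 rb J (conjMat Q r) :=
  h.of_entriesIn_sub fun σ => conj_sub_entriesIn Q hQ (r σ)

lemma StrictMod.map {A B : Type} [CommRing A] [Algebra 𝒪 A] [CommRing B] [Algebra 𝒪 B]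
    {rb : Gal →* M2 (ResidueField 𝒪)} {J : Ideal A} {J' : Ideal B} {r : Gal →* M2 A}
    (h : StrictMod 𝒪 rb J r) (φ : A →ₐ[𝒪] B) (hJ : J ≤ J'.comap (φ : A →+* B)) :
    StrictMod 𝒪 rb J' (mapMat (φ : A →+* B) r) := by
  intro σ i j c hc
  have := hJ (h σ i j c hc)
  rw [Ideal.mem_comap, map_sub] at this
  simpa using this

lemma StrictMod.comap {A B : Type} [CommRing A] [Algebra 𝒪 A] [CommRing B] [Algebra 𝒪 B]
    {rb : Gal →* M2 (ResidueField 𝒪)} {J' : Ideal B} {r : Gal →* M2 A}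
    (φ : A →ₐ[𝒪] B) (h : StrictMod 𝒪 rb J' (mapMat (φ : A →+* B) r)) :
    StrictMod 𝒪 rb (J'.comap (φ : A →+* B)) r := by
  intro σ i j c hc
  have := h σ i j c hc
  rw [Ideal.mem_comap, map_sub]
  simpa using this

/-- Bridge to helper20's `IsStrictLift`. -/
lemma strictMod_iff_strictLift {A : Type} [CommRing A] [IsLocalRing A] [Algebra 𝒪 A]
    [IsLocalHom (algebraMap 𝒪 A)] (rb : Gal →* M2 (ResidueField 𝒪)) (r : Gal →* M2 A) :
    StrictMod 𝒪 rb (maximalIdeal A) r ↔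
      IsStrictLift (ResidueField.map (algebraMap 𝒪 A)) rb r := by
  have key : ∀ σ i j (c : 𝒪), residue 𝒪 c = rb σ i j →
      (r σ i j - algebraMap 𝒪 A c ∈ maximalIdeal A ↔
        residue A (r σ i j) = ResidueField.map (algebraMap 𝒪 A) (rb σ i j)) := by
    intro σ i j c hc
    rw [← hc, ResidueField.map_residue, ← IsLocalRing.residue_eq_zero_iff, map_sub, sub_eq_zero]
  constructor
  · intro h
    ext σ i j
    obtain ⟨c, hc⟩ := IsLocalRing.residue_surjective (rb σ i j)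
    simpa using (key σ i j c hc).1 (h σ i j c hc)
  · intro h σ i j c hc
    rw [key σ i j c hc]
    have := congrFun (congrFun (congrArg (fun f => f σ) h) i) j
    simpa using this

end strict


/-! ### `IsDefo`: conjugation, push-forward, residual spanning -/

section defo

variable {𝒪 : Type} [CommRing 𝒪] [IsLocalRing 𝒪]
variable {𝒟 : ∀ ⦃A : Type⦄ [CommRing A] [IsLocalRing A] [Algebra 𝒪 A], GaloisRepAdic A → Prop}
variable {rb : Gal →* M2 (ResidueField 𝒪)}

/-- Transport `𝒟` along conjugation. -/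
lemma ofType_conj (h𝒟 : IsDeformationCondition 𝒪 𝒟) {A : Type} [CommRing A] [IsLocalRing A]
    [Algebra 𝒪 A] (hA : IsArtinianTestAlgebra 𝒪 A) {r : Gal →* M2 A} (h : MatCont A r)
    (Q : (M2 A)ˣ) (h' : MatCont A (conjMat Q r)) (hr : 𝒟 (ofMat r h)) :
    𝒟 (ofMat (conjMat Q r) h') :=
  h𝒟.of_isEquiv hA ((ofMat_isEquiv_iff r (conjMat Q r) h h').2 ⟨Q, rfl⟩) hr

lemma IsDefo.conj (h𝒟 : IsDeformationCondition 𝒪 𝒟) {A : Type} [CommRing A] [IsLocalRing A]
    [Algebra 𝒪 A] {r : Gal →* M2 A} (d : IsDefo 𝒪 𝒟 rb r) (Q : (M2 A)ˣ)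
    (hQ : EntriesIn (maximalIdeal A) ((Q : M2 A) - 1)) : IsDefo 𝒪 𝒟 rb (conjMat Q r) where
  test := d.test
  fin := d.fin.conj Q
  strict := d.strict.conj Q hQ
  ofType := ofType_conj h𝒟 d.test _ Q _ d.ofType

/-- Transport `𝒟` along a local algebra hom of Artinian test algebras. -/
lemma ofType_map (h𝒟 : IsDeformationCondition 𝒪 𝒟) {A B : Type} [CommRing A] [IsLocalRing A]
    [Algebra 𝒪 A] [CommRing B] [IsLocalRing B] [Algebra 𝒪 B]
    (hA : IsArtinianTestAlgebra 𝒪 A) (hB : IsArtinianTestAlgebra 𝒪 B)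
    (φ : A →ₐ[𝒪] B) (hφ : IsLocalHom (φ : A →+* B)) {r : Gal →* M2 A} (h : MatCont A r)
    (h' : MatCont B (mapMat (φ : A →+* B) r)) (hr : 𝒟 (ofMat r h)) :
    𝒟 (ofMat (mapMat (φ : A →+* B) r) h') :=
  h𝒟.of_isEquiv hB (ofMat_baseChangeAlong (φ : A →+* B) hφ r h h')
    (h𝒟.baseChangeAlong hA hB φ hφ hr)

lemma IsDefo.map (h𝒟 : IsDeformationCondition 𝒪 𝒟) {A B : Type} [CommRing A] [IsLocalRing A]
    [Algebra 𝒪 A] [CommRing B] [IsLocalRing B] [Algebra 𝒪 B] {r : Gal →* M2 A}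
    (d : IsDefo 𝒪 𝒟 rb r) (hB : IsArtinianTestAlgebra 𝒪 B)
    (φ : A →ₐ[𝒪] B) (hφ : IsLocalHom (φ : A →+* B)) :
    IsDefo 𝒪 𝒟 rb (mapMat (φ : A →+* B) r) where
  test := hB
  fin := d.fin.map _
  strict := d.strict.map φ (fun a ha => by
    rw [Ideal.mem_comap]
    exact (IsLocalRing.mem_maximalIdeal _).2 fun hu =>
      (IsLocalRing.mem_maximalIdeal _).1 ha (hφ.map_nonunit a hu))
  ofType := ofType_map h𝒟 d.test hB φ hφ _ _ d.ofType

/-- Residual spanning for strict lifts, from Burnside. -/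
lemma resSpan_of_strict (hspan : Submodule.span (ResidueField 𝒪) (Set.range rb) = ⊤)
    {A : Type} [CommRing A] [IsLocalRing A] [Algebra 𝒪 A]
    (hloc : IsLocalHom (algebraMap 𝒪 A))
    (hsurj : Function.Surjective (IsLocalRing.residue A ∘ algebraMap 𝒪 A))
    (A₀ : Subring A) (hA₀ : ∀ o : 𝒪, algebraMap 𝒪 A o ∈ A₀) {r : Gal →* M2 A}
    (hstrict : StrictMod 𝒪 rb (maximalIdeal A) r) : ResSpan (maximalIdeal A) A₀ r := by
  refine resSpan_of_span rb hspan (maximalIdeal A) (resK hloc hsurj : A →+* ResidueField 𝒪)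
    ?_ (RingHom.id _) Function.surjective_id A₀ ?_ r ?_
  · ext a
    rw [RingHom.mem_ker]
    exact resK_eq_zero_iff hloc hsurj a
  · intro c
    obtain ⟨o, rfl⟩ := IsLocalRing.residue_surjective c
    refine ⟨algebraMap 𝒪 A o, hA₀ o, ?_⟩
    change resK hloc hsurj (algebraMap 𝒪 A o) = _
    rw [AlgHom.commutes, IsLocalRing.ResidueField.algebraMap_eq]
  · intro σ
    ext i j
    obtain ⟨c, hc⟩ := IsLocalRing.residue_surjective (rb σ i j)
    simp only [RingHom.mapMatrix_apply, Matrix.map_apply, RingHom.id_apply]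
    rw [← hc]
    exact (resK_eq_iff hloc hsurj _ _).2 (hstrict σ i j c hc)

end defo

end Fermat.Agent.S53lib

end
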