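/-
S53 — piece G6: the universal property for Artinian test algebras.
-/
import Fermat.Agent.S53lib.AdmLemmas

set_option autoImplicit false
set_option linter.unusedSectionVars false
set_option linter.style.haveILetI false

noncomputable section

namespace Fermat.Agent.S53lib

open IsLocalRing GaloisRep

lemma conjMat_conjMat {A : Type} [CommRing A] (P P' : (M2 A)ˣ) (r : Gal →* M2 A) :
    conjMat P (conjMat P' r) = conjMat (P * P') r := by
  ext1 σ
  simp only [conjMat_apply, Units.val_mul, mul_inv_rev, mul_assoc]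

lemma conjMat_one {A : Type} [CommRing A] (r : Gal →* M2 A) : conjMat 1 r = r := by
  ext1 σ
  simp [conjMat_apply]

lemma ofMat_congr {A : Type} [CommRing A] [IsLocalRing A] {r r' : Gal →* M2 A} (h : MatCont A r)
    (h' : MatCont A r') (e : r = r') : (ofMat r h).IsEquiv (ofMat r' h') := by
  subst e
  exact ⟨GaloisRepAdic.Equiv.refl _⟩

lemma isEquiv_symm {A : Type} [CommRing A] [IsLocalRing A] {X Y : GaloisRepAdic A}
    (h : X.IsEquiv Y) : Y.IsEquiv X := h.elim fun e => ⟨e.symm⟩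

lemma isEquiv_trans {A : Type} [CommRing A] [IsLocalRing A] {X Y Z : GaloisRepAdic A}
    (h : X.IsEquiv Y) (h' : Y.IsEquiv Z) : X.IsEquiv Z :=
  h.elim fun e => h'.elim fun e' => ⟨e.trans e'⟩

lemma conj_eq_of_forall {A : Type} [CommRing A] (Q : (M2 A)ˣ) (r r' : Gal →* M2 A)
    (h : ∀ g, r' g = (Q : M2 A) * r g * ((Q⁻¹ : (M2 A)ˣ) : M2 A)) : r' = conjMat Q r := by
  ext1 σ
  rw [h σ, conjMat_apply]


section partA

variable {𝒪 : Type} [CommRing 𝒪] [IsLocalRing 𝒪] [Finite (ResidueField 𝒪)]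
variable {𝒟 : ∀ ⦃A : Type⦄ [CommRing A] [IsLocalRing A] [Algebra 𝒪 A], GaloisRepAdic A → Prop}
variable {rb : Gal →* M2 (ResidueField 𝒪)}

/-- The trace algebra map `Pol → B`, `X σ ↦ tr (r σ)`. -/
def trHom {B : Type} [CommRing B] [Algebra 𝒪 B] (r : Gal →* M2 B) : Pol 𝒪 →ₐ[𝒪] B :=
  MvPolynomial.aeval (fun σ => (r σ).trace)

@[simp] lemma trHom_X {B : Type} [CommRing B] [Algebra 𝒪 B] (r : Gal →* M2 B) (σ : Gal) :
    trHom (𝒪 := 𝒪) r (MvPolynomial.X σ) = (r σ).trace := by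
  simp [trHom]

/-- **Trace descent for a deformation datum**: the kernel of the trace map of a deformation datum
over an Artinian test algebra is an admissible ideal. -/
theorem admN_ker_trHom (h𝒟 : IsDeformationCondition 𝒪 𝒟)
    (hspan : Submodule.span (ResidueField 𝒪) (Set.range rb) = ⊤)
    {B : Type} [CommRing B] [IsLocalRing B] [Algebra 𝒪 B] (rB : Gal →* M2 B)
    (d : IsDefo 𝒪 𝒟 rb rB) (n : ℕ) (hn : maximalIdeal B ^ (n + 1) = ⊥) :
    AdmN 𝒪 𝒟 rb n (RingHom.ker (trHom (𝒪 := 𝒪) rB)) := by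
  set f : Pol 𝒪 →ₐ[𝒪] B := trHom rB with hf
  have hBtest := d.test
  haveI hloc : IsLocalHom (algebraMap 𝒪 B) := hBtest.isLocalHom
  haveI hI : IsLocalRing (Pol 𝒪 ⧸ RingHom.ker f) := isLocalRing_quotient_ker hBtest f
  have hItest : IsArtinianTestAlgebra 𝒪 (Pol 𝒪 ⧸ RingHom.ker f) :=
    isArtinianTestAlgebra_quotient_ker hBtest f
  set fb : (Pol 𝒪 ⧸ RingHom.ker f) →ₐ[𝒪] B := Ideal.kerLiftAlg f with hfb
  have hfb_inj : Function.Injective fb := Ideal.kerLiftAlg_injective f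
  haveI hfb_loc : IsLocalHom (fb : (Pol 𝒪 ⧸ RingHom.ker f) →+* B) :=
    isLocalHom_kerLiftAlg hBtest f
  -- trace descent over `B`
  set A₀ : Subring B := (f : Pol 𝒪 →+* B).range with hA₀
  have htr : ∀ g, (rB g).trace ∈ A₀ := fun g => ⟨MvPolynomial.X g, by simp [hf]⟩
  have hA₀alg : ∀ o : 𝒪, algebraMap 𝒪 B o ∈ A₀ := fun o =>
    ⟨algebraMap 𝒪 (Pol 𝒪) o, by simp⟩
  have hres : ResSpan (maximalIdeal B) A₀ rB :=
    resSpan_of_strict hspan hloc hBtest.residue_surjective A₀ hA₀alg d.strict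
  obtain ⟨Q, hQ1, hQ⟩ := trace_descent (maximalIdeal B) (n + 1) hn A₀ rB htr hres
  -- pull back to `Pol ⧸ ker f`
  have hrange : ∀ σ i j, conjMat Q rB σ i j ∈ (fb : (Pol 𝒪 ⧸ RingHom.ker f) →+* B).range := by
    intro σ i j
    obtain ⟨x, hx⟩ := hQ σ i j
    exact ⟨Ideal.Quotient.mk _ x, by rw [conjMat_apply, ← hx]; rfl⟩
  obtain ⟨rI, hrI⟩ := exists_pullback (fb : (Pol 𝒪 ⧸ RingHom.ker f) →+* B) hfb_inj
    (conjMat Q rB) hrange
  have dQ : IsDefo 𝒪 𝒟 rb (conjMat Q rB) := d.conj h𝒟 Q hQ1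
  have hfin : MatFin _ rI :=
    MatFin.of_mapMat_injective (fb : (Pol 𝒪 ⧸ RingHom.ker f) →+* B) hfb_inj (hrI ▸ dQ.fin)
  have hcomap : (maximalIdeal B).comap (fb : (Pol 𝒪 ⧸ RingHom.ker f) →+* B)
      = maximalIdeal (Pol 𝒪 ⧸ RingHom.ker f) :=
    IsLocalRing.maximalIdeal_comap _
  have hstrict : StrictMod 𝒪 rb (maximalIdeal (Pol 𝒪 ⧸ RingHom.ker f)) rI := by
    rw [← hcomap]
    exact StrictMod.comap fb (hrI ▸ dQ.strict)
  have hofType : 𝒟 (ofMat rI hfin.matCont) := by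
    refine h𝒟.of_baseChangeAlong_injective hItest hBtest fb hfb_loc hfb_inj ?_
    have h1 : MatCont B (mapMat (fb : (Pol 𝒪 ⧸ RingHom.ker f) →+* B) rI) := hfin.matCont.map _
    refine h𝒟.of_isEquiv hBtest (isEquiv_symm (ofMat_baseChangeAlong _ hfb_loc rI _ h1)) ?_
    exact h𝒟.of_isEquiv hBtest (ofMat_congr dQ.fin.matCont h1 hrI.symm) dQ.ofType
  refine ⟨hI, rI, ⟨hItest, hfin, hstrict, hofType⟩, ?_, ?_⟩
  · intro σ
    apply hfb_inj
    have h1 : fb ((rI σ).trace) = (mapMat (fb : (Pol 𝒪 ⧸ RingHom.ker f) →+* B) rI σ).trace := by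
      simp [Matrix.trace, mapMat]
    rw [h1, hrI]
    have h2 : (conjMat Q rB σ).trace = (rB σ).trace := trMat_conjMat Q rB σ
    rw [h2]
    change _ = f (MvPolynomial.X σ)
    simp [hf]
  · rw [eq_bot_iff]
    intro x hx
    have h1 : (fb : (Pol 𝒪 ⧸ RingHom.ker f) →+* B) x ∈ maximalIdeal B ^ (n + 1) := by
      have := Ideal.mem_map_of_mem (fb : (Pol 𝒪 ⧸ RingHom.ker f) →+* B) hx
      rw [Ideal.map_pow] at this
      exact Ideal.pow_right_mono (IsLocalRing.map_maximalIdeal_le _) _ this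
    rw [hn, Ideal.mem_bot] at h1
    rw [Ideal.mem_bot]
    exact hfb_inj (by rw [map_zero]; exact h1)

end partA


section main

variable {𝒪 : Type} [CommRing 𝒪] [IsLocalRing 𝒪] [Finite (ResidueField 𝒪)]
variable {𝒟 : ∀ ⦃A : Type⦄ [CommRing A] [IsLocalRing A] [Algebra 𝒪 A], GaloisRepAdic A → Prop}

/-- A local algebra hom into a ring with `m^(n+1) = 0` kills `m^(n+1)`. -/
lemma algHom_eq_of_sub_mem_pow {R B : Type} [CommRing R] [IsLocalRing R] [CommRing B]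
    [IsLocalRing B] (χ : R →+* B) (hχ : IsLocalHom χ) (n : ℕ)
    (hn : maximalIdeal B ^ (n + 1) = ⊥) {x y : R} (hxy : x - y ∈ maximalIdeal R ^ (n + 1)) :
    χ x = χ y := by
  have h1 : χ (x - y) ∈ maximalIdeal B ^ (n + 1) := by
    have := Ideal.mem_map_of_mem χ hxy
    rw [Ideal.map_pow] at this
    exact Ideal.pow_right_mono (IsLocalRing.map_maximalIdeal_le χ) _ this
  rw [hn, Ideal.mem_bot, map_sub, sub_eq_zero] at h1
  exact h1

/-- **G6: the universal property for Artinian test algebras.** -/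
theorem artinian_universal
    (h𝒟 : IsDeformationCondition 𝒪 𝒟) (ρbar : ResidualGaloisRep (ResidueField 𝒪))
    (hspan : Submodule.span (ResidueField 𝒪) (Set.range (rbarMat ρbar)) = ⊤)
    (c : Chain 𝒪 𝒟 (rbarMat ρbar))
    {R : Type} [CommRing R] [IsLocalRing R] [Algebra 𝒪 R]
    (p : ∀ n, R →ₐ[𝒪] (Pol 𝒪 ⧸ c.I n)) (_hp : ∀ n, Function.Surjective (p n))
    (hker : ∀ n, RingHom.ker (p n) = maximalIdeal R ^ (n + 1))
    (rR : Gal →* M2 R) (hR : MatCont R rR)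
    (hstrict : ∀ n, StrictMod 𝒪 (rbarMat ρbar) (maximalIdeal (Pol 𝒪 ⧸ c.I n))
      (mapMat (p n : R →+* (Pol 𝒪 ⧸ c.I n)) rR))
    (htr : ∀ n σ, (p n) ((rR σ).trace) = Ideal.Quotient.mk (c.I n) (MvPolynomial.X σ))
    (B : Type) [CommRing B] [IsLocalRing B] [Algebra 𝒪 B] [IsLocalHom (algebraMap 𝒪 B)]
    [IsArtinianRing B]
    (hB : Function.Surjective (IsLocalRing.residue B ∘ algebraMap 𝒪 B))
    (ρB : GaloisRepAdic B) (hρB : 𝒟 ρB)
    (hres : ρB.residual.IsEquiv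
      (ρbar.baseChangeAlong (IsLocalRing.ResidueField.map (algebraMap 𝒪 B)))) :
    ∃! φ : R →ₐ[𝒪] B, ∃ hφ : IsLocalHom (φ : R →+* B),
      ((ofMat rR hR).baseChangeAlong (φ : R →+* B) hφ).IsEquiv ρB := by
  have hBtest : IsArtinianTestAlgebra 𝒪 B := ⟨inferInstance, hB, inferInstance⟩
  obtain ⟨rB, hBc, hBstrict, hBeq⟩ := exists_strict_of_residual_isEquiv _ ρbar ρB hres
  obtain ⟨N, hN⟩ := exists_pow_eq_bot_of_isArtinianTestAlgebra hBtest
  have hn : maximalIdeal B ^ (N + 1) = ⊥ := by rw [pow_succ, hN, Ideal.bot_mul]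
  have hBfin : MatFin B rB := hBc.matFin_of_pow_eq_bot hN
  have hBs : StrictMod 𝒪 (rbarMat ρbar) (maximalIdeal B) rB :=
    (strictMod_iff_strictLift _ _).2 hBstrict
  have dB : IsDefo 𝒪 𝒟 (rbarMat ρbar) rB :=
    ⟨hBtest, hBfin, hBs, h𝒟.of_isEquiv hBtest (isEquiv_symm hBeq) hρB⟩
  have hadm := admN_ker_trHom h𝒟 hspan rB dB N hn
  set f : Pol 𝒪 →ₐ[𝒪] B := trHom rB with hf
  have hle : c.I N ≤ RingHom.ker f := c.min N _ hadm
  haveI : IsLocalRing (Pol 𝒪 ⧸ RingHom.ker f) := isLocalRing_quotient_ker hBtest f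
  set g : (Pol 𝒪 ⧸ c.I N) →ₐ[𝒪] (Pol 𝒪 ⧸ RingHom.ker f) := Ideal.Quotient.factorₐ 𝒪 hle with hg
  set fb : (Pol 𝒪 ⧸ RingHom.ker f) →ₐ[𝒪] B := Ideal.kerLiftAlg f with hfb
  set φ : R →ₐ[𝒪] B := fb.comp (g.comp (p N)) with hφ
  -- the universal traces
  set T : Pol 𝒪 →ₐ[𝒪] R := MvPolynomial.aeval (fun σ => (rR σ).trace) with hT
  have hpT : (p N).comp T = Ideal.Quotient.mkₐ 𝒪 (c.I N) := by
    apply MvPolynomial.algHom_ext
    intro σ
    simp [hT, htr]
  have hφT : φ.comp T = f := by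
    apply MvPolynomial.algHom_ext
    intro σ
    simp only [AlgHom.comp_apply, hφ, hT, MvPolynomial.aeval_X, htr]
    have h0 : fb (g (Ideal.Quotient.mk (c.I N) (MvPolynomial.X σ))) = f (MvPolynomial.X σ) := rfl
    rw [h0]
  have hφtr : ∀ σ, φ ((rR σ).trace) = (rB σ).trace := by
    intro σ
    have := congrArg (fun h : Pol 𝒪 →ₐ[𝒪] B => h (MvPolynomial.X σ)) hφT
    simpa [hT, hf] using this
  -- every local algebra hom `χ : R → B` gives a strict representation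
  have hχstrict : ∀ χ : R →ₐ[𝒪] B,
      StrictMod 𝒪 (rbarMat ρbar) (maximalIdeal B) (mapMat (χ : R →+* B) rR) := by
    intro χ
    haveI hχloc : IsLocalHom (χ : R →+* B) := isLocalHom_of_residue_surjective hB χ
    intro σ i j o ho
    -- use level `N`: `rR σ i j - algebraMap o` maps to the maximal ideal of `A N`
    have h1 := hstrict N σ i j o ho
    have h2 : (p N) (rR σ i j - algebraMap 𝒪 R o) ∈ maximalIdeal (Pol 𝒪 ⧸ c.I N) := by
      rw [map_sub, AlgHom.commutes]; exact h1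
    have h3 : rR σ i j - algebraMap 𝒪 R o ∈ maximalIdeal R := by
      rw [IsLocalRing.mem_maximalIdeal, mem_nonunits_iff]
      intro hu
      exact (IsLocalRing.mem_maximalIdeal _).1 h2 (hu.map (p N))
    have h4 : (χ : R →+* B) (rR σ i j - algebraMap 𝒪 R o) ∈ maximalIdeal B :=
      IsLocalRing.map_maximalIdeal_le (χ : R →+* B) (Ideal.mem_map_of_mem _ h3)
    rw [map_sub] at h4
    simpa using h4
  -- key: trace condition implies equivalence
  have key : ∀ (χ : R →ₐ[𝒪] B) (hχ : IsLocalHom (χ : R →+* B)),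
      (∀ σ, χ ((rR σ).trace) = (rB σ).trace) →
        ((ofMat rR hR).baseChangeAlong (χ : R →+* B) hχ).IsEquiv ρB := by
    intro χ hχ hχtr
    have hc1 : MatCont B (mapMat (χ : R →+* B) rR) := hR.map _
    have hs := hχstrict χ
    have hspan' : ResSpan (maximalIdeal B) ⊤ (mapMat (χ : R →+* B) rR) :=
      resSpan_of_strict hspan inferInstance hB ⊤ (fun _ => Subring.mem_top _) hs
    obtain ⟨Q, -, hQ⟩ := conj_of_trace_eq (maximalIdeal B) N hN (mapMat (χ : R →+* B) rR) rB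
      (fun σ => hs.entriesIn_sub hBs σ)
      (fun σ => by
        have := trMat_mapMat (χ : R →+* B) rR σ
        simp only [trMat] at this
        rw [this]; exact hχtr σ) hspan'
    have e1 := ofMat_baseChangeAlong (χ : R →+* B) hχ rR hR hc1
    have e2 : (ofMat (mapMat (χ : R →+* B) rR) hc1).IsEquiv (ofMat rB hBc) :=
      (ofMat_isEquiv_iff _ _ _ _).2 ⟨Q, conj_eq_of_forall Q _ _ hQ⟩
    exact isEquiv_trans e1 (isEquiv_trans e2 hBeq)
  have hφloc : IsLocalHom (φ : R →+* B) := isLocalHom_of_residue_surjective hB φ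
  refine ⟨φ, ⟨hφloc, key φ hφloc hφtr⟩, ?_⟩
  -- uniqueness
  rintro ψ ⟨hψ, hψeq⟩
  have hc1 : MatCont B (mapMat (ψ : R →+* B) rR) := hR.map _
  have e1 := ofMat_baseChangeAlong (ψ : R →+* B) hψ rR hR hc1
  have e2 : (ofMat (mapMat (ψ : R →+* B) rR) hc1).IsEquiv (ofMat rB hBc) :=
    isEquiv_trans (isEquiv_symm e1) (isEquiv_trans hψeq (isEquiv_symm hBeq))
  obtain ⟨P, hP⟩ := (ofMat_isEquiv_iff _ _ _ _).1 e2
  have hψtr : ∀ σ, ψ ((rR σ).trace) = (rB σ).trace := by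
    intro σ
    have h1 : (rB σ).trace = trMat (conjMat P (mapMat (ψ : R →+* B) rR)) σ := by
      rw [← hP]; rfl
    rw [h1, trMat_conjMat, trMat_mapMat]; rfl
  have hψT : ψ.comp T = φ.comp T := by
    apply MvPolynomial.algHom_ext
    intro σ
    simp only [AlgHom.comp_apply, hT, MvPolynomial.aeval_X, hψtr, hφtr]
  ext x
  obtain ⟨q, hq⟩ := Ideal.Quotient.mk_surjective (p N x)
  have hx : x - T q ∈ maximalIdeal R ^ (N + 1) := by
    rw [← hker N, RingHom.mem_ker, map_sub, sub_eq_zero]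
    have := congrArg (fun h : Pol 𝒪 →ₐ[𝒪] (Pol 𝒪 ⧸ c.I N) => h q) hpT
    simp only [AlgHom.comp_apply, Ideal.Quotient.mkₐ_eq_mk] at this
    change p N x = p N (T q)
    rw [this, hq]
  have h1 : ψ x = ψ (T q) := algHom_eq_of_sub_mem_pow (ψ : R →+* B) hψ N hn hx
  have h2 : φ x = φ (T q) := algHom_eq_of_sub_mem_pow (φ : R →+* B) hφloc N hn hx
  have h3 : ψ (T q) = φ (T q) := congrArg (fun h : Pol 𝒪 →ₐ[𝒪] B => h q) hψT
  rw [h1, h2, h3]

end main

end Fermat.Agent.S53lib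

end
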