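/-
S53 piece G2 (helper20): existence of a chain of minimal admissible ideals.
-/
import Mathlib
import Fermat.Agent.S53lib.Defs
import Fermat.Agent.S53lib.Adm
import Fermat.Agent.S53lib.TestAlg

set_option autoImplicit false

noncomputable section

namespace Fermat.Agent.S53lib

open IsLocalRing

section

variable {𝒪 : Type} [CommRing 𝒪] [IsLocalRing 𝒪]
  {𝒟 : ∀ ⦃A : Type⦄ [CommRing A] [IsLocalRing A] [Algebra 𝒪 A], GaloisRepAdic A → Prop}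
  {rb : Gal →* M2 (ResidueField 𝒪)}

/-- `AdmN` is monotone in the level. -/
lemma AdmN.mono {n m : ℕ} (hnm : n ≤ m) {I : Ideal (Pol 𝒪)} (h : AdmN 𝒪 𝒟 rb n I) :
    AdmN 𝒪 𝒟 rb m I := by
  obtain ⟨hloc, r, hdefo, htr, hpow⟩ := h
  refine ⟨hloc, r, hdefo, htr, ?_⟩
  obtain ⟨k, rfl⟩ := Nat.exists_eq_add_of_le hnm
  rw [show n + k + 1 = (n + 1) + k by ring, pow_add, hpow, Ideal.bot_mul]

/-- The quotient by an admissible ideal is finite. -/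
lemma AdmN.finite [Finite (ResidueField 𝒪)] {n : ℕ} {I : Ideal (Pol 𝒪)}
    (h : AdmN 𝒪 𝒟 rb n I) : Finite (Pol 𝒪 ⧸ I) := by
  obtain ⟨hloc, r, hdefo, -, -⟩ := h
  exact finite_of_isArtinianTestAlgebra hdefo.test

/-- If `J ≤ I`, `Pol ⧸ J` is finite and `card (Pol ⧸ J) ≤ card (Pol ⧸ I)` then `I ≤ J`. -/
lemma ideal_le_of_card_quotient_le {P : Type} [CommRing P] {I J : Ideal P} (hJI : J ≤ I)
    [Finite (P ⧸ J)] (hcard : Nat.card (P ⧸ J) ≤ Nat.card (P ⧸ I)) : I ≤ J := by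
  have hsurj : Function.Surjective (Ideal.Quotient.factor hJI) :=
    Ideal.Quotient.factor_surjective hJI
  have hfinI : Finite (P ⧸ I) := Finite.of_surjective _ hsurj
  have hle : Nat.card (P ⧸ I) ≤ Nat.card (P ⧸ J) := Nat.card_le_card_of_surjective _ hsurj
  have hbij : Function.Bijective (Ideal.Quotient.factor hJI) :=
    (Nat.bijective_iff_surjective_and_card _).mpr ⟨hsurj, le_antisymm hcard hle⟩
  intro x hx
  have h0 : Ideal.Quotient.factor hJI (Ideal.Quotient.mk J x) = Ideal.Quotient.factor hJI 0 := by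
    rw [Ideal.Quotient.factor_mk, map_zero]
    exact Ideal.Quotient.eq_zero_iff_mem.mpr hx
  exact Ideal.Quotient.eq_zero_iff_mem.mp (hbij.1 h0)

/-- For each level there is a minimum admissible ideal. -/
lemma exists_min_admN [Finite (ResidueField 𝒪)] (n : ℕ)
    (hne : ∃ I, AdmN 𝒪 𝒟 rb n I)
    (hinf : ∀ I₁ I₂, AdmN 𝒪 𝒟 rb n I₁ → AdmN 𝒪 𝒟 rb n I₂ → AdmN 𝒪 𝒟 rb n (I₁ ⊓ I₂))
    (hcard : ∃ C, ∀ I, AdmN 𝒪 𝒟 rb n I → Nat.card (Pol 𝒪 ⧸ I) ≤ C) :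
    ∃ I, AdmN 𝒪 𝒟 rb n I ∧ ∀ I', AdmN 𝒪 𝒟 rb n I' → I ≤ I' := by
  obtain ⟨C, hC⟩ := hcard
  let S : Set ℕ := {c | ∃ I, AdmN 𝒪 𝒟 rb n I ∧ Nat.card (Pol 𝒪 ⧸ I) = c}
  have hSne : S.Nonempty := by
    obtain ⟨I, hI⟩ := hne
    exact ⟨_, I, hI, rfl⟩
  have hSbdd : BddAbove S := ⟨C, by rintro c ⟨I, hI, rfl⟩; exact hC I hI⟩
  obtain ⟨I, hI, hIc⟩ := Nat.sSup_mem hSne hSbdd
  refine ⟨I, hI, fun I' hI' => ?_⟩
  have hJ := hinf I I' hI hI'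
  have hJfin : Finite (Pol 𝒪 ⧸ (I ⊓ I')) := hJ.finite
  have hle : Nat.card (Pol 𝒪 ⧸ (I ⊓ I')) ≤ Nat.card (Pol 𝒪 ⧸ I) := by
    rw [hIc]
    exact le_csSup hSbdd ⟨I ⊓ I', hJ, rfl⟩
  exact (ideal_le_of_card_quotient_le inf_le_left hle).trans inf_le_right

/-- G2. Existence of a chain of minimal admissible ideals. -/
theorem chain_exists [Finite (ResidueField 𝒪)]
    (hne : ∃ I, AdmN 𝒪 𝒟 rb 0 I)
    (hinf : ∀ n I₁ I₂, AdmN 𝒪 𝒟 rb n I₁ → AdmN 𝒪 𝒟 rb n I₂ → AdmN 𝒪 𝒟 rb n (I₁ ⊓ I₂))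
    (hcard : ∀ n, ∃ C, ∀ I, AdmN 𝒪 𝒟 rb n I → Nat.card (Pol 𝒪 ⧸ I) ≤ C) :
    Nonempty (Chain 𝒪 𝒟 rb) := by
  have hex : ∀ n, ∃ I, AdmN 𝒪 𝒟 rb n I ∧ ∀ I', AdmN 𝒪 𝒟 rb n I' → I ≤ I' := fun n =>
    exists_min_admN n (by obtain ⟨I, hI⟩ := hne; exact ⟨I, hI.mono (Nat.zero_le n)⟩)
      (hinf n) (hcard n)
  choose I hI hmin using hex
  exact ⟨⟨I, hI, hmin⟩⟩

end

end Fermat.Agent.S53lib

end
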