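/-
S53 — piece G0 + G1 (helper13): admissible ideals of `Pol` are closed under intersection,
and `AdmN 0` is nonempty.
-/
import Fermat.Agent.S53lib.ArtUniv
import Fermat.Agent.S53lib.ChainExists

set_option autoImplicit false
set_option linter.unusedSectionVars false
set_option linter.style.haveILetI false

noncomputable section

namespace Fermat.Agent.S53lib

open IsLocalRing GaloisRep

section general

variable {𝒪 : Type} [CommRing 𝒪] [IsLocalRing 𝒪]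
variable {𝒟 : ∀ ⦃A : Type⦄ [CommRing A] [IsLocalRing A] [Algebra 𝒪 A], GaloisRepAdic A → Prop}
variable {rb : Gal →* M2 (ResidueField 𝒪)}

/-- The residue field `k` of `𝒪` is an Artinian test algebra. -/
theorem isArtinianTestAlgebra_residueField [Finite (ResidueField 𝒪)] :
    IsArtinianTestAlgebra 𝒪 (ResidueField 𝒪) := by
  refine isArtinianTestAlgebra_of_finite ⟨fun o ho => ?_⟩ ?_
  · rw [IsLocalRing.ResidueField.algebraMap_eq] at ho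
    exact (IsLocalRing.residue_ne_zero_iff_isUnit o).mp ho.ne_zero
  · intro y
    obtain ⟨z, rfl⟩ := IsLocalRing.residue_surjective y
    obtain ⟨o, rfl⟩ := IsLocalRing.residue_surjective z
    exact ⟨o, rfl⟩

/-- The trace of a pushed-forward matrix representation. -/
lemma trace_mapMat_apply {A B : Type} [CommRing A] [CommRing B] (φ : A →+* B)
    (r : Gal →* M2 A) (σ : Gal) : (mapMat φ r σ).trace = φ ((r σ).trace) := by
  simp [Matrix.trace, mapMat]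

section fib

variable {A₁ A₂ : Type} [CommRing A₁] [IsLocalRing A₁] [Algebra 𝒪 A₁]
  [CommRing A₂] [IsLocalRing A₂] [Algebra 𝒪 A₂]

lemma FibK.matrix_ext {x y : M2 (FibK 𝒪 A₁ A₂)}
    (h1 : ((FibK.prA : FibK 𝒪 A₁ A₂ →ₐ[𝒪] A₁) : FibK 𝒪 A₁ A₂ →+* A₁).mapMatrix x =
      ((FibK.prA : FibK 𝒪 A₁ A₂ →ₐ[𝒪] A₁) : FibK 𝒪 A₁ A₂ →+* A₁).mapMatrix y)
    (h2 : ((FibK.prB : FibK 𝒪 A₁ A₂ →ₐ[𝒪] A₂) : FibK 𝒪 A₁ A₂ →+* A₂).mapMatrix x =
      ((FibK.prB : FibK 𝒪 A₁ A₂ →ₐ[𝒪] A₂) : FibK 𝒪 A₁ A₂ →+* A₂).mapMatrix y) : x = y := by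
  refine Matrix.ext fun i j => ?_
  apply FibK.ext_pr
  · have := congrFun (congrFun h1 i) j
    simpa using this
  · have := congrFun (congrFun h2 i) j
    simpa using this

/-- If `m_{A₁}^N = 0` and `m_{A₂}^N = 0` then the maximal ideal of the fibre product `A₁ ×_k A₂`
satisfies `m^N = 0`. -/
theorem FibK.maximalIdeal_pow_eq_bot
    [IsLocalHom (algebraMap 𝒪 A₁)] [IsLocalHom (algebraMap 𝒪 A₂)] {N : ℕ}
    (h1 : maximalIdeal A₁ ^ N = ⊥) (h2 : maximalIdeal A₂ ^ N = ⊥) :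
    maximalIdeal (FibK 𝒪 A₁ A₂) ^ N = ⊥ := by
  rw [eq_bot_iff]
  intro x hx
  rw [Ideal.mem_bot]
  have hmapA : (maximalIdeal (FibK 𝒪 A₁ A₂) ^ N).map
      ((FibK.prA : FibK 𝒪 A₁ A₂ →ₐ[𝒪] A₁) : FibK 𝒪 A₁ A₂ →+* A₁) ≤ maximalIdeal A₁ ^ N := by
    rw [Ideal.map_pow]
    exact Ideal.pow_right_mono (IsLocalRing.map_maximalIdeal_le _) N
  have hmapB : (maximalIdeal (FibK 𝒪 A₁ A₂) ^ N).map
      ((FibK.prB : FibK 𝒪 A₁ A₂ →ₐ[𝒪] A₂) : FibK 𝒪 A₁ A₂ →+* A₂) ≤ maximalIdeal A₂ ^ N := by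
    rw [Ideal.map_pow]
    exact Ideal.pow_right_mono (IsLocalRing.map_maximalIdeal_le _) N
  apply FibK.ext_pr
  · have := hmapA (Ideal.mem_map_of_mem _ hx)
    rw [h1, Ideal.mem_bot] at this
    rw [map_zero]
    exact this
  · have := hmapB (Ideal.mem_map_of_mem _ hx)
    rw [h2, Ideal.mem_bot] at this
    rw [map_zero]
    exact this

/-- The kernel of the trace map of a representation over the fibre product is the intersection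
of the kernels of the trace maps of its two projections. -/
theorem FibK.ker_trHom [Finite (ResidueField 𝒪)] (s : Gal →* M2 (FibK 𝒪 A₁ A₂)) (f₁ : Pol 𝒪 →ₐ[𝒪] A₁)
    (f₂ : Pol 𝒪 →ₐ[𝒪] A₂)
    (h1 : ∀ σ, (mapMat ((FibK.prA : FibK 𝒪 A₁ A₂ →ₐ[𝒪] A₁) : FibK 𝒪 A₁ A₂ →+* A₁) s σ).trace
      = f₁ (MvPolynomial.X σ))
    (h2 : ∀ σ, (mapMat ((FibK.prB : FibK 𝒪 A₁ A₂ →ₐ[𝒪] A₂) : FibK 𝒪 A₁ A₂ →+* A₂) s σ).trace
      = f₂ (MvPolynomial.X σ)) :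
    RingHom.ker (trHom (𝒪 := 𝒪) (B := FibK 𝒪 A₁ A₂) s) = RingHom.ker f₁ ⊓ RingHom.ker f₂ := by
  have hA : (FibK.prA : FibK 𝒪 A₁ A₂ →ₐ[𝒪] A₁).comp (trHom (𝒪 := 𝒪) (B := FibK 𝒪 A₁ A₂) s)
      = f₁ := by
    apply MvPolynomial.algHom_ext
    intro σ
    rw [AlgHom.comp_apply, trHom_X, ← h1 σ]
    exact (trace_mapMat_apply _ s σ).symm
  have hB : (FibK.prB : FibK 𝒪 A₁ A₂ →ₐ[𝒪] A₂).comp (trHom (𝒪 := 𝒪) (B := FibK 𝒪 A₁ A₂) s)
      = f₂ := by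
    apply MvPolynomial.algHom_ext
    intro σ
    rw [AlgHom.comp_apply, trHom_X, ← h2 σ]
    exact (trace_mapMat_apply _ s σ).symm
  ext x
  rw [Ideal.mem_inf, RingHom.mem_ker, RingHom.mem_ker, RingHom.mem_ker, ← hA, ← hB,
    AlgHom.comp_apply, AlgHom.comp_apply]
  constructor
  · intro h
    rw [h, map_zero, map_zero]
    exact ⟨rfl, rfl⟩
  · rintro ⟨e1, e2⟩
    apply FibK.ext_pr
    · rw [map_zero]; exact e1
    · rw [map_zero]; exact e2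

/-- Two deformation data glue to a deformation datum over the fibre product `A₁ ×_k A₂`. -/
theorem IsDefo.fib [Finite (ResidueField 𝒪)] (h𝒟 : IsDeformationCondition 𝒪 𝒟)
    [IsLocalHom (algebraMap 𝒪 A₁)] [IsLocalHom (algebraMap 𝒪 A₂)]
    {r₁ : Gal →* M2 A₁} {r₂ : Gal →* M2 A₂} (h₁ : IsDefo 𝒪 𝒟 rb r₁) (h₂ : IsDefo 𝒪 𝒟 rb r₂) :
    ∃ s : Gal →* M2 (FibK 𝒪 A₁ A₂),
      mapMat ((FibK.prA : FibK 𝒪 A₁ A₂ →ₐ[𝒪] A₁) : FibK 𝒪 A₁ A₂ →+* A₁) s = r₁ ∧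
      mapMat ((FibK.prB : FibK 𝒪 A₁ A₂ →ₐ[𝒪] A₂) : FibK 𝒪 A₁ A₂ →+* A₂) s = r₂ ∧
      IsDefo 𝒪 𝒟 rb s := by
  classical
  have hmem : ∀ σ i j, (r₁ σ i j, r₂ σ i j) ∈ fibK 𝒪 A₁ A₂ := by
    intro σ i j
    obtain ⟨c, hc⟩ := IsLocalRing.residue_surjective (rb σ i j)
    exact ⟨c, h₁.strict σ i j c hc, h₂.strict σ i j c hc⟩
  let s₀ : Gal → M2 (FibK 𝒪 A₁ A₂) := fun σ => Matrix.of fun i j => ⟨(r₁ σ i j, r₂ σ i j), hmem σ i j⟩
  have hA : ∀ σ, ((FibK.prA : FibK 𝒪 A₁ A₂ →ₐ[𝒪] A₁) : FibK 𝒪 A₁ A₂ →+* A₁).mapMatrix (s₀ σ)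
      = r₁ σ := by
    intro σ; ext i j; rfl
  have hB : ∀ σ, ((FibK.prB : FibK 𝒪 A₁ A₂ →ₐ[𝒪] A₂) : FibK 𝒪 A₁ A₂ →+* A₂).mapMatrix (s₀ σ)
      = r₂ σ := by
    intro σ; ext i j; rfl
  let s : Gal →* M2 (FibK 𝒪 A₁ A₂) :=
    { toFun := s₀
      map_one' := by
        apply FibK.matrix_ext
        · rw [hA, map_one, map_one]
        · rw [hB, map_one, map_one]
      map_mul' := fun σ τ => by
        apply FibK.matrix_ext
        · rw [hA, map_mul r₁, map_mul (RingHom.mapMatrix _), hA, hA]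
        · rw [hB, map_mul r₂, map_mul (RingHom.mapMatrix _), hB, hB] }
  have hsA : mapMat ((FibK.prA : FibK 𝒪 A₁ A₂ →ₐ[𝒪] A₁) : FibK 𝒪 A₁ A₂ →+* A₁) s = r₁ := by
    ext1 σ; exact hA σ
  have hsB : mapMat ((FibK.prB : FibK 𝒪 A₁ A₂ →ₐ[𝒪] A₂) : FibK 𝒪 A₁ A₂ →+* A₂) s = r₂ := by
    ext1 σ; exact hB σ
  have htest : IsArtinianTestAlgebra 𝒪 (FibK 𝒪 A₁ A₂) :=
    FibK.isArtinianTestAlgebra h₁.test h₂.test
  have hfin : MatFin (FibK 𝒪 A₁ A₂) s := by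
    obtain ⟨L₁, hL₁, h1⟩ := h₁.fin
    obtain ⟨L₂, hL₂, h2⟩ := h₂.fin
    refine ⟨L₁ ⊔ L₂, inferInstance, fun σ hσ => ?_⟩
    have e1 : r₁ σ = 1 := h1 σ fun x hx => hσ x ((le_sup_left : L₁ ≤ L₁ ⊔ L₂) hx)
    have e2 : r₂ σ = 1 := h2 σ fun x hx => hσ x ((le_sup_right : L₂ ≤ L₁ ⊔ L₂) hx)
    apply FibK.matrix_ext
    · change RingHom.mapMatrix _ (s₀ σ) = _
      rw [hA, e1, map_one]
    · change RingHom.mapMatrix _ (s₀ σ) = _
      rw [hB, e2, map_one]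
  refine ⟨s, hsA, hsB, htest, hfin, ?_, ?_⟩
  · intro σ i j c hc
    rw [FibK.mem_maximalIdeal_iff]
    exact h₁.strict σ i j c hc
  · have hk : IsArtinianTestAlgebra 𝒪 (ResidueField 𝒪) := isArtinianTestAlgebra_residueField
    have hlA := h₁.test.isLocalHom
    have hlB := h₂.test.isLocalHom
    have hsA' := h₁.test.residue_surjective
    have hsB' := h₂.test.residue_surjective
    have hcA : MatCont A₁ (mapMat ((FibK.prA : FibK 𝒪 A₁ A₂ →ₐ[𝒪] A₁) : FibK 𝒪 A₁ A₂ →+* A₁) s) := by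
      rw [hsA]; exact h₁.fin.matCont
    have hcB : MatCont A₂ (mapMat ((FibK.prB : FibK 𝒪 A₁ A₂ →ₐ[𝒪] A₂) : FibK 𝒪 A₁ A₂ →+* A₂) s) := by
      rw [hsB]; exact h₂.fin.matCont
    have dA : 𝒟 ((ofMat s hfin.matCont).baseChangeAlong
        ((FibK.prA : FibK 𝒪 A₁ A₂ →ₐ[𝒪] A₁) : FibK 𝒪 A₁ A₂ →+* A₁) inferInstance) :=
      h𝒟.of_isEquiv h₁.test
        (isEquiv_symm (ofMat_baseChangeAlong _ inferInstance s hfin.matCont hcA))
        (h𝒟.of_isEquiv h₁.test (ofMat_congr h₁.fin.matCont hcA hsA.symm) h₁.ofType)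
    have dB : 𝒟 ((ofMat s hfin.matCont).baseChangeAlong
        ((FibK.prB : FibK 𝒪 A₁ A₂ →ₐ[𝒪] A₂) : FibK 𝒪 A₁ A₂ →+* A₂) inferInstance) :=
      h𝒟.of_isEquiv h₂.test
        (isEquiv_symm (ofMat_baseChangeAlong _ inferInstance s hfin.matCont hcB))
        (h𝒟.of_isEquiv h₂.test (ofMat_congr h₂.fin.matCont hcB hsB.symm) h₂.ofType)
    exact h𝒟.of_fibreProduct h₁.test h₂.test hk htest (resK hlA hsA') (resK hlB hsB')
      FibK.prA FibK.prB inferInstance inferInstance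
      (FibK.resK_comp_prA_eq hlA hsA' hlB hsB') FibK.pr_injective
      (fun a b h => FibK.exists_of_resK_eq hlA hsA' hlB hsB' a b h) dA dB

end fib

/-! ### G1 : admissible ideals are closed under intersection -/

section inf

variable [Finite (ResidueField 𝒪)]

/-- `AdmN n I → Adm I`. -/
theorem AdmN.adm {n : ℕ} {I : Ideal (Pol 𝒪)} (h : AdmN 𝒪 𝒟 rb n I) : Adm 𝒪 𝒟 rb I := by
  obtain ⟨hl, r, hd, ht, -⟩ := h
  exact ⟨hl, r, hd, ht⟩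

/-- Every admissible ideal is admissible of some level. -/
theorem Adm.exists_admN {I : Ideal (Pol 𝒪)} (h : Adm 𝒪 𝒟 rb I) : ∃ n, AdmN 𝒪 𝒟 rb n I := by
  obtain ⟨hl, r, hd, ht⟩ := h
  obtain ⟨N, hN⟩ := exists_pow_eq_bot_of_isArtinianTestAlgebra hd.test
  refine ⟨N, hl, r, hd, ht, ?_⟩
  rw [eq_bot_iff, ← hN]
  exact Ideal.pow_le_pow_right (Nat.le_succ N)

/-- **G1 (level `n`).** Admissible ideals of level `n` are closed under intersection. -/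
theorem AdmN.inf (h𝒟 : IsDeformationCondition 𝒪 𝒟)
    (hspan : Submodule.span (ResidueField 𝒪) (Set.range rb) = ⊤) {n : ℕ} {I₁ I₂ : Ideal (Pol 𝒪)}
    (h₁ : AdmN 𝒪 𝒟 rb n I₁) (h₂ : AdmN 𝒪 𝒟 rb n I₂) : AdmN 𝒪 𝒟 rb n (I₁ ⊓ I₂) := by
  obtain ⟨hl₁, r₁, hd₁, ht₁, hn₁⟩ := h₁
  obtain ⟨hl₂, r₂, hd₂, ht₂, hn₂⟩ := h₂
  haveI hlA := hd₁.test.isLocalHom
  haveI hlB := hd₂.test.isLocalHom
  obtain ⟨s, hsA, hsB, hs⟩ := IsDefo.fib h𝒟 hd₁ hd₂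
  have key := admN_ker_trHom h𝒟 hspan (B := FibK 𝒪 (Pol 𝒪 ⧸ I₁) (Pol 𝒪 ⧸ I₂)) s hs n
    (FibK.maximalIdeal_pow_eq_bot hn₁ hn₂)
  have hker := FibK.ker_trHom s (Ideal.Quotient.mkₐ 𝒪 I₁) (Ideal.Quotient.mkₐ 𝒪 I₂)
    (fun σ => by rw [hsA, ht₁ σ, Ideal.Quotient.mkₐ_eq_mk])
    (fun σ => by rw [hsB, ht₂ σ, Ideal.Quotient.mkₐ_eq_mk])
  have e₁ : RingHom.ker (Ideal.Quotient.mkₐ 𝒪 I₁) = I₁ := by
    ext x
    rw [RingHom.mem_ker, Ideal.Quotient.mkₐ_eq_mk, Ideal.Quotient.eq_zero_iff_mem]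
  have e₂ : RingHom.ker (Ideal.Quotient.mkₐ 𝒪 I₂) = I₂ := by
    ext x
    rw [RingHom.mem_ker, Ideal.Quotient.mkₐ_eq_mk, Ideal.Quotient.eq_zero_iff_mem]
  rw [hker, e₁, e₂] at key
  exact key

/-- **G1.** Admissible ideals are closed under intersection. -/
theorem Adm.inf (h𝒟 : IsDeformationCondition 𝒪 𝒟)
    (hspan : Submodule.span (ResidueField 𝒪) (Set.range rb) = ⊤) {I₁ I₂ : Ideal (Pol 𝒪)}
    (h₁ : Adm 𝒪 𝒟 rb I₁) (h₂ : Adm 𝒪 𝒟 rb I₂) : Adm 𝒪 𝒟 rb (I₁ ⊓ I₂) := by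
  obtain ⟨n₁, hn₁⟩ := h₁.exists_admN
  obtain ⟨n₂, hn₂⟩ := h₂.exists_admN
  exact (AdmN.inf h𝒟 hspan (hn₁.mono (le_max_left n₁ n₂)) (hn₂.mono (le_max_right n₁ n₂))).adm

end inf

/-! ### G0 : `AdmN 0` is nonempty -/

section zero

variable [Finite (ResidueField 𝒪)]

/-- The residual representation itself is a deformation datum over `k`. -/
theorem isDefo_residual (hfin : MatFin (ResidueField 𝒪) rb)
    (hD : 𝒟 (ofMat rb hfin.matCont)) : IsDefo 𝒪 𝒟 rb rb where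
  test := isArtinianTestAlgebra_residueField
  fin := hfin
  strict := by
    intro σ i j c hc
    rw [IsLocalRing.ResidueField.algebraMap_eq, hc, sub_self]
    exact Ideal.zero_mem _
  ofType := hD

/-- **G0 (matrix form).** `AdmN 0` is nonempty: the kernel of `Pol → k`, `X σ ↦ tr (rb σ)`. -/
theorem admN_zero_ker (h𝒟 : IsDeformationCondition 𝒪 𝒟)
    (hspan : Submodule.span (ResidueField 𝒪) (Set.range rb) = ⊤)
    (hfin : MatFin (ResidueField 𝒪) rb) (hD : 𝒟 (ofMat rb hfin.matCont)) :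
    AdmN 𝒪 𝒟 rb 0 (RingHom.ker (trHom (𝒪 := 𝒪) rb)) := by
  refine admN_ker_trHom h𝒟 hspan rb (isDefo_residual hfin hD) 0 ?_
  rw [zero_add, pow_one]
  exact IsLocalRing.maximalIdeal_eq_bot

/-- The `GaloisRepAdic` over `k` attached to `rbarMat ρbar` is equivalent to `ρbar` itself. -/
def ofMatRbarEquiv {k : Type} [Field k] (ρbar : ResidualGaloisRep k) :
    GaloisRepAdic.Equiv (ofMat (rbarMat ρbar) (rbarMat_matFin ρbar).matCont)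
      (GaloisRepAdic.ofResidualGaloisRep ρbar) where
  toLinearEquiv := (rbarMatEquiv ρbar).toLinearEquiv
  map_apply := (rbarMatEquiv ρbar).map_apply

/-- `𝒟` for `ρbar` gives `𝒟` for its matrix form. -/
theorem ofType_rbarMat (h𝒟 : IsDeformationCondition 𝒪 𝒟)
    (ρbar : ResidualGaloisRep (ResidueField 𝒪))
    (hbar : 𝒟 (GaloisRepAdic.ofResidualGaloisRep ρbar)) :
    𝒟 (ofMat (rbarMat ρbar) (rbarMat_matFin ρbar).matCont) :=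
  h𝒟.of_isEquiv isArtinianTestAlgebra_residueField ⟨(ofMatRbarEquiv ρbar).symm⟩ hbar

/-- **G0.** `AdmN 0` is nonempty for `rb = rbarMat ρbar`. -/
theorem exists_admN_zero (h𝒟 : IsDeformationCondition 𝒪 𝒟)
    (ρbar : ResidualGaloisRep (ResidueField 𝒪))
    (hspan : Submodule.span (ResidueField 𝒪) (Set.range (rbarMat ρbar)) = ⊤)
    (hbar : 𝒟 (GaloisRepAdic.ofResidualGaloisRep ρbar)) :
    ∃ I : Ideal (Pol 𝒪), AdmN 𝒪 𝒟 (rbarMat ρbar) 0 I :=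
  ⟨_, admN_zero_ker h𝒟 hspan (rbarMat_matFin ρbar) (ofType_rbarMat h𝒟 ρbar hbar)⟩

end zero

end general

end Fermat.Agent.S53lib

end
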