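/-
S53 piece F0 (helper20): for a trace-generated deformation pair `(A, r)` the map
`(A →ₐ[𝒪] k[ε]) → tangent quotient`, `φ ↦ [ofMat (mapMat φ r)]`, is injective.
-/
import Mathlib
import Fermat.Agent.S53lib.Defs
import Fermat.Agent.S53lib.Dict
import Fermat.Agent.S53lib.Adm

set_option autoImplicit false

noncomputable section

namespace Fermat.Agent.S53lib

open IsLocalRing
open scoped TensorProduct

section

variable (𝒪 : Type) [CommRing 𝒪] [IsLocalRing 𝒪]

/-- The `𝒪`-algebra structure on the dual numbers over the residue field (as in `TangentFinite`). -/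
@[reducible] def dualAlgebra : Algebra 𝒪 (DualNumber (ResidueField 𝒪)) :=
  ((algebraMap (ResidueField 𝒪) (DualNumber (ResidueField 𝒪))).comp
    (algebraMap 𝒪 (ResidueField 𝒪))).toAlgebra

/-- The `k`-algebra structure on the residue field of the dual numbers (as in `TangentFinite`). -/
@[reducible] def dualResAlgebra :
    Algebra (ResidueField 𝒪) (ResidueField (DualNumber (ResidueField 𝒪))) :=
  ((IsLocalRing.residue (DualNumber (ResidueField 𝒪))).comp
    (algebraMap (ResidueField 𝒪) (DualNumber (ResidueField 𝒪)))).toAlgebra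

/-- The ring hom `k → residue field of k[ε]`. -/
def dualResHom : ResidueField 𝒪 →+* ResidueField (DualNumber (ResidueField 𝒪)) :=
  (IsLocalRing.residue (DualNumber (ResidueField 𝒪))).comp
    (algebraMap (ResidueField 𝒪) (DualNumber (ResidueField 𝒪)))

variable (ρbar : ResidualGaloisRep (ResidueField 𝒪))
  (𝒟 : ∀ ⦃A : Type⦄ [CommRing A] [IsLocalRing A] [Algebra 𝒪 A], GaloisRepAdic A → Prop)

/-- The type of deformations to the dual numbers (as in `TangentFinite`). -/
def TangentSub : Type 1 :=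
  letI : Algebra 𝒪 (DualNumber (ResidueField 𝒪)) := dualAlgebra 𝒪
  letI : Algebra (ResidueField 𝒪) (ResidueField (DualNumber (ResidueField 𝒪))) := dualResAlgebra 𝒪
  {ρ : GaloisRepAdic (DualNumber (ResidueField 𝒪)) //
      𝒟 ρ ∧ ρ.residual.IsEquiv (ρbar.baseChange (ResidueField (DualNumber (ResidueField 𝒪)))) }

/-- The setoid of `TangentFinite`. -/
def tangentSetoid : Setoid (TangentSub 𝒪 ρbar 𝒟) :=
  ⟨fun ρ ρ' => ρ.1.IsEquiv ρ'.1, ⟨fun ρ => ⟨GaloisRepAdic.Equiv.refl ρ.1⟩,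
        fun ⟨e⟩ => ⟨e.symm⟩, fun ⟨e⟩ ⟨e'⟩ => ⟨e.trans e'⟩⟩⟩

/-- The tangent quotient of `TangentFinite`. -/
def TangentQuot : Type 1 := Quotient (tangentSetoid 𝒪 ρbar 𝒟)

lemma tangentFinite_iff : GaloisRep.TangentFinite 𝒪 ρbar 𝒟 ↔ Finite (TangentQuot 𝒪 ρbar 𝒟) :=
  Iff.rfl

end

section Dual

variable {𝒪 : Type} [CommRing 𝒪] [IsLocalRing 𝒪]

lemma dualAlgebra_algebraMap (c : 𝒪) :
    letI := dualAlgebra 𝒪
    algebraMap 𝒪 (DualNumber (ResidueField 𝒪)) c =
      algebraMap (ResidueField 𝒪) (DualNumber (ResidueField 𝒪)) (residue 𝒪 c) := rfl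

/-- elements of the maximal ideal of an Artinian local ring are nilpotent. -/
lemma isNilpotent_of_mem_maximalIdeal_of_isArtinian {A : Type} [CommRing A] [IsLocalRing A]
    [IsArtinianRing A] {a : A} (ha : a ∈ maximalIdeal A) : IsNilpotent a := by
  have h := IsArtinianRing.isNilpotent_jacobson_bot (R := A)
  rw [IsLocalRing.jacobson_eq_maximalIdeal (⊥ : Ideal A) bot_ne_top] at h
  obtain ⟨n, hn⟩ := h
  refine ⟨n, ?_⟩
  have : a ^ n ∈ maximalIdeal A ^ n := Ideal.pow_mem_pow ha n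
  rw [hn] at this
  simpa using this

/-- a ring hom from an Artinian local ring to a nontrivial local ring is local. -/
lemma isLocalHom_of_isArtinian {A B : Type} [CommRing A] [IsLocalRing A] [IsArtinianRing A]
    [CommRing B] [Nontrivial B] (φ : A →+* B) : IsLocalHom φ := by
  refine ⟨fun a ha => ?_⟩
  by_contra hna
  have hnil := isNilpotent_of_mem_maximalIdeal_of_isArtinian ((IsLocalRing.mem_maximalIdeal a).mpr hna)
  have : IsNilpotent (φ a) := hnil.map φ
  exact this.not_isUnit ha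

lemma dual_isArtinianTestAlgebra :
    letI := dualAlgebra 𝒪
    GaloisRep.IsArtinianTestAlgebra 𝒪 (DualNumber (ResidueField 𝒪)) := by
  let _ := dualAlgebra 𝒪
  refine ⟨⟨fun c hc => ?_⟩, ?_, ?_⟩
  · rw [dualAlgebra_algebraMap] at hc
    by_contra hnu
    have h0 : residue 𝒪 c = 0 := (IsLocalRing.residue_eq_zero_iff _).mpr
      ((IsLocalRing.mem_maximalIdeal _).mpr hnu)
    rw [h0, map_zero] at hc
    exact not_isUnit_zero hc
  · intro y
    obtain ⟨x, rfl⟩ := IsLocalRing.residue_surjective y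
    obtain ⟨c, hc⟩ := IsLocalRing.residue_surjective (TrivSqZeroExt.fst x)
    refine ⟨c, ?_⟩
    rw [Function.comp_apply, dualAlgebra_algebraMap, hc, ← sub_eq_zero, ← map_sub,
      IsLocalRing.residue_eq_zero_iff, IsLocalRing.mem_maximalIdeal, mem_nonunits_iff]
    intro hu
    have h1 : TrivSqZeroExt.fst (algebraMap (ResidueField 𝒪) (DualNumber (ResidueField 𝒪))
        (TrivSqZeroExt.fst x) - x) = 0 := by
      rw [TrivSqZeroExt.fst_sub]
      simp [TrivSqZeroExt.algebraMap_eq_inl]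
    have h2 := (TrivSqZeroExt.isUnit_iff_isUnit_fst).mp hu
    rw [h1] at h2
    exact not_isUnit_zero h2
  · have : Module.Finite (ResidueField 𝒪) (DualNumber (ResidueField 𝒪)) := by
      refine Module.Finite.of_surjective
        ((TrivSqZeroExt.inlAlgHom (ResidueField 𝒪) (ResidueField 𝒪) (ResidueField 𝒪)).toLinearMap.coprod
          (TrivSqZeroExt.inrHom (ResidueField 𝒪) (ResidueField 𝒪))) ?_
      intro x
      refine ⟨(TrivSqZeroExt.fst x, TrivSqZeroExt.snd x), ?_⟩
      rw [LinearMap.coprod_apply]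
      exact TrivSqZeroExt.inl_fst_add_inr_snd_eq x
    exact IsArtinianRing.of_finite (ResidueField 𝒪) _

end Dual

section Main

variable {𝒪 : Type} [CommRing 𝒪] [IsLocalRing 𝒪]
  (ρbar : ResidualGaloisRep (ResidueField 𝒪))
  (𝒟 : ∀ ⦃A : Type⦄ [CommRing A] [IsLocalRing A] [Algebra 𝒪 A], GaloisRepAdic A → Prop)
  {A : Type} [CommRing A] [IsLocalRing A] [Algebra 𝒪 A]

/-- Bridge: `IsStrictLift` w.r.t. the structure map implies `StrictMod` modulo the maximal ideal. -/
lemma strictMod_of_isStrictLift [IsLocalHom (algebraMap 𝒪 A)]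
    {rb : Gal →* M2 (ResidueField 𝒪)} {r : Gal →* M2 A}
    (h : IsStrictLift (ResidueField.map (algebraMap 𝒪 A)) rb r) :
    StrictMod 𝒪 rb (maximalIdeal A) r := by
  intro σ i j c hc
  have h1 : residue A (r σ i j) = ResidueField.map (algebraMap 𝒪 A) (rb σ i j) := by
    have := congrArg (fun s : Gal →* M2 (ResidueField A) => s σ i j) h
    simpa using this
  rw [← hc, IsLocalRing.ResidueField.map_residue] at h1
  rw [← IsLocalRing.residue_eq_zero_iff, map_sub, h1, sub_self]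

/-- Bridge: `StrictMod` modulo the maximal ideal implies `IsStrictLift` w.r.t. the structure map. -/
lemma isStrictLift_of_strictMod [IsLocalHom (algebraMap 𝒪 A)]
    {rb : Gal →* M2 (ResidueField 𝒪)} {r : Gal →* M2 A}
    (h : StrictMod 𝒪 rb (maximalIdeal A) r) :
    IsStrictLift (ResidueField.map (algebraMap 𝒪 A)) rb r := by
  unfold IsStrictLift
  ext σ i j
  obtain ⟨c, hc⟩ := IsLocalRing.residue_surjective (rb σ i j)
  have h1 := h σ i j c hc
  rw [← IsLocalRing.residue_eq_zero_iff, map_sub, sub_eq_zero] at h1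
  rw [mapMat_apply, mapMat_apply, h1, ← hc, IsLocalRing.ResidueField.map_residue]

lemma strictMod_iff_isStrictLift [IsLocalHom (algebraMap 𝒪 A)]
    {rb : Gal →* M2 (ResidueField 𝒪)} {r : Gal →* M2 A} :
    StrictMod 𝒪 rb (maximalIdeal A) r ↔ IsStrictLift (ResidueField.map (algebraMap 𝒪 A)) rb r :=
  ⟨isStrictLift_of_strictMod, strictMod_of_isStrictLift⟩

variable {ρbar} in
/-- The push-forward of a strict lift along an `𝒪`-algebra hom `A → k[ε]` is a strict lift
w.r.t. `dualResHom`. -/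
lemma isStrictLift_mapMat_dual [IsArtinianRing A] {r : Gal →* M2 A}
    (hstrict : StrictMod 𝒪 (rbarMat ρbar) (maximalIdeal A) r)
    (φ : letI := dualAlgebra 𝒪; A →ₐ[𝒪] DualNumber (ResidueField 𝒪)) :
    IsStrictLift (dualResHom 𝒪) (rbarMat ρbar)
      (mapMat (letI := dualAlgebra 𝒪; (φ : A →+* DualNumber (ResidueField 𝒪))) r) := by
  let _ := dualAlgebra 𝒪
  unfold IsStrictLift
  ext σ i j
  obtain ⟨c, hc⟩ := IsLocalRing.residue_surjective (rbarMat ρbar σ i j)
  have h1 := hstrict σ i j c hc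
  have hnil := isNilpotent_of_mem_maximalIdeal_of_isArtinian h1
  have hnil' : IsNilpotent ((φ : A →+* DualNumber (ResidueField 𝒪)) (r σ i j - algebraMap 𝒪 A c)) :=
    hnil.map _
  have hmem : (φ : A →+* DualNumber (ResidueField 𝒪)) (r σ i j - algebraMap 𝒪 A c) ∈
      maximalIdeal (DualNumber (ResidueField 𝒪)) := by
    rw [IsLocalRing.mem_maximalIdeal, mem_nonunits_iff]
    exact hnil'.not_isUnit
  rw [← IsLocalRing.residue_eq_zero_iff, map_sub, map_sub, sub_eq_zero] at hmem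
  rw [mapMat_apply, mapMat_apply, mapMat_apply, hmem]
  have h2 : (φ : A →+* DualNumber (ResidueField 𝒪)) (algebraMap 𝒪 A c) =
      algebraMap (ResidueField 𝒪) (DualNumber (ResidueField 𝒪)) (residue 𝒪 c) := by
    rw [RingHom.coe_coe, AlgHom.commutes]
    rfl
  rw [h2, hc]
  rfl

variable {ρbar 𝒟} in
/-- The tangent vector attached to an `𝒪`-algebra hom `A → k[ε]` and a deformation datum. -/
def tangentOfHom (h𝒟 : GaloisRep.IsDeformationCondition 𝒪 𝒟) {r : Gal →* M2 A}
    (hdefo : IsDefo 𝒪 𝒟 (rbarMat ρbar) r)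
    (φ : letI := dualAlgebra 𝒪; A →ₐ[𝒪] DualNumber (ResidueField 𝒪)) : TangentSub 𝒪 ρbar 𝒟 :=
  letI := dualAlgebra 𝒪
  letI := dualResAlgebra 𝒪
  haveI : IsArtinianRing A := hdefo.test.isArtinian
  have hφ : IsLocalHom (φ : A →+* DualNumber (ResidueField 𝒪)) := isLocalHom_of_isArtinian _
  have hfin : MatFin (DualNumber (ResidueField 𝒪)) (mapMat (φ : A →+* DualNumber (ResidueField 𝒪)) r) :=
    hdefo.fin.map _
  ⟨ofMat (mapMat (φ : A →+* DualNumber (ResidueField 𝒪)) r) hfin.matCont,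
    h𝒟.of_isEquiv dual_isArtinianTestAlgebra
      (ofMat_baseChangeAlong (φ : A →+* DualNumber (ResidueField 𝒪)) hφ r hdefo.fin.matCont
        hfin.matCont)
      (h𝒟.baseChangeAlong hdefo.test dual_isArtinianTestAlgebra φ hφ hdefo.ofType),
    residual_isEquiv_of_strict (dualResHom 𝒪) ρbar _ hfin.matCont
      (isStrictLift_mapMat_dual hdefo.strict φ)⟩

variable {ρbar 𝒟} in
/-- F0. For a trace-generated deformation datum, `φ ↦ [ofMat (mapMat φ r)]` is injective. -/
theorem tangentOfHom_injective (h𝒟 : GaloisRep.IsDeformationCondition 𝒪 𝒟) {r : Gal →* M2 A}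
    (hdefo : IsDefo 𝒪 𝒟 (rbarMat ρbar) r)
    (hgen : Algebra.adjoin 𝒪 (Set.range fun σ => (r σ).trace) = ⊤) :
    letI := dualAlgebra 𝒪
    Function.Injective (fun φ : A →ₐ[𝒪] DualNumber (ResidueField 𝒪) =>
      (Quotient.mk (tangentSetoid 𝒪 ρbar 𝒟) (tangentOfHom h𝒟 hdefo φ) : TangentQuot 𝒪 ρbar 𝒟)) := by
  let _ := dualAlgebra 𝒪
  intro φ ψ hφψ
  have hrel : (tangentOfHom h𝒟 hdefo φ).1.IsEquiv (tangentOfHom h𝒟 hdefo ψ).1 :=
    Quotient.exact hφψ
  have hfinφ : MatFin (DualNumber (ResidueField 𝒪)) (mapMat (φ : A →+* DualNumber (ResidueField 𝒪)) r) :=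
    hdefo.fin.map _
  have hfinψ : MatFin (DualNumber (ResidueField 𝒪)) (mapMat (ψ : A →+* DualNumber (ResidueField 𝒪)) r) :=
    hdefo.fin.map _
  obtain ⟨P, hP⟩ := (ofMat_isEquiv_iff _ _ hfinφ.matCont hfinψ.matCont).mp hrel
  apply AlgHom.ext_of_adjoin_eq_top hgen
  rintro x ⟨σ, rfl⟩
  have h1 : trMat (mapMat (ψ : A →+* DualNumber (ResidueField 𝒪)) r) σ =
      trMat (mapMat (φ : A →+* DualNumber (ResidueField 𝒪)) r) σ := by
    rw [hP, trMat_conjMat]
  rw [trMat_mapMat, trMat_mapMat] at h1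
  exact h1.symm

variable {ρbar 𝒟} in
/-- F0 (cardinality form). -/
theorem card_algHom_dual_le (h𝒟 : GaloisRep.IsDeformationCondition 𝒪 𝒟)
    (hfin : GaloisRep.TangentFinite 𝒪 ρbar 𝒟) {r : Gal →* M2 A}
    (hdefo : IsDefo 𝒪 𝒟 (rbarMat ρbar) r)
    (hgen : Algebra.adjoin 𝒪 (Set.range fun σ => (r σ).trace) = ⊤) :
    letI := dualAlgebra 𝒪
    Finite (A →ₐ[𝒪] DualNumber (ResidueField 𝒪)) ∧
      Nat.card (A →ₐ[𝒪] DualNumber (ResidueField 𝒪)) ≤ Nat.card (TangentQuot 𝒪 ρbar 𝒟) := by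
  let _ := dualAlgebra 𝒪
  have hF : Finite (Quotient (tangentSetoid 𝒪 ρbar 𝒟)) := hfin
  have hF' : Finite (TangentQuot 𝒪 ρbar 𝒟) := hfin
  have hinj := tangentOfHom_injective h𝒟 hdefo hgen
  exact ⟨Finite.of_injective _ hinj, Nat.card_le_card_of_injective _ hinj⟩

end Main

end Fermat.Agent.S53lib

end
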