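/-
S53 piece F (helper10): bounds from `TangentFinite`.

* `finite_and_card_le_sizeBound` (F2): a local ring with residue field of size `≤ q`, maximal ideal
  generated by `e` elements and `m^(n+1) = 0` has at most `sizeBound q e (n+1)` elements.
* `exists_gens_of_card_algHom_le` (F1): if there are at most `τ` algebra homs `A → k[ε]`, then
  `m_A ≤ (s_1, …, s_τ) + m_𝒪 A`.
* `cotangent_bound`, `card_bound`: the interface of `NOTES/S53_plan.md` (uses F0 = `TangentInj`).
-/
import Mathlib
import Fermat.Agent.S53lib.TestAlg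
import Fermat.Agent.S53lib.TangentInj

set_option autoImplicit false
set_option linter.unusedSectionVars false
set_option linter.style.haveILetI false
set_option linter.unusedVariables false

namespace Fermat.Agent.S53lib

open IsLocalRing

/-! ### F2 : the size bound -/



/-- The size bound for a local ring with residue field of size `≤ q`, maximal ideal generated by
`e` elements and `m ^ n = 0`. -/
def sizeBound (q e : ℕ) : ℕ → ℕ
  | 0 => 1
  | n + 1 => q * (sizeBound q e n) ^ e

lemma bound_isLocalRing_quotient {A : Type} [CommRing A] [IsLocalRing A] (J : Ideal A)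
    (hJ : J ≤ maximalIdeal A) : IsLocalRing (A ⧸ J) := by
  have : Nontrivial (A ⧸ J) := by
    apply Ideal.Quotient.nontrivial_iff.mpr
    intro h
    rw [h] at hJ
    exact (maximalIdeal.isMaximal A).ne_top (top_le_iff.mp hJ)
  exact IsLocalRing.of_surjective' (Ideal.Quotient.mk J) Ideal.Quotient.mk_surjective

lemma bound_maximalIdeal_quotient {A : Type} [CommRing A] [IsLocalRing A] (J : Ideal A)
    (hJ : J ≤ maximalIdeal A) :
    letI := bound_isLocalRing_quotient J hJ
    maximalIdeal (A ⧸ J) = (maximalIdeal A).map (Ideal.Quotient.mk J) := by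
  letI := bound_isLocalRing_quotient J hJ
  apply le_antisymm
  · intro x hx
    obtain ⟨a, rfl⟩ := Ideal.Quotient.mk_surjective x
    apply Ideal.mem_map_of_mem
    rw [mem_maximalIdeal] at hx ⊢
    intro ha
    exact hx (ha.map (Ideal.Quotient.mk J))
  · rw [Ideal.map_le_iff_le_comap]
    intro a ha
    rw [Ideal.mem_comap, mem_maximalIdeal]
    intro hu
    obtain ⟨y, hy⟩ := hu.exists_right_inv
    obtain ⟨b, rfl⟩ := Ideal.Quotient.mk_surjective y
    rw [← map_mul, ← map_one (Ideal.Quotient.mk J), Ideal.Quotient.eq] at hy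
    have h1 : a * b - 1 ∈ maximalIdeal A := hJ hy
    have h2 : a * b ∈ maximalIdeal A := Ideal.mul_mem_right _ _ ha
    have h3 : (1 : A) ∈ maximalIdeal A := by
      have := Ideal.sub_mem _ h2 h1
      simpa using this
    exact (maximalIdeal.isMaximal A).ne_top ((Ideal.eq_top_iff_one _).mpr h3)

theorem finite_and_card_le_sizeBound (q e : ℕ) (n : ℕ) :
    ∀ (A : Type) [CommRing A] [IsLocalRing A], Finite (ResidueField A) →
      Nat.card (ResidueField A) ≤ q →
      (∃ t : Fin e → A, maximalIdeal A = Ideal.span (Set.range t)) →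
      maximalIdeal A ^ (n + 1) = ⊥ → Finite A ∧ Nat.card A ≤ sizeBound q e (n + 1) := by
  induction n with
  | zero =>
    intro A _ _ hfin hq _ hm
    rw [zero_add, pow_one] at hm
    have hinj : Function.Injective (residue A) := by
      rw [injective_iff_map_eq_zero]
      intro a ha
      have : a ∈ maximalIdeal A := (residue_eq_zero_iff a).mp ha
      rw [hm] at this
      exact this
    have := hfin
    refine ⟨Finite.of_injective _ hinj, ?_⟩
    calc Nat.card A ≤ Nat.card (ResidueField A) := Nat.card_le_card_of_injective _ hinj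
      _ ≤ q := hq
      _ = sizeBound q e (0 + 1) := by simp [sizeBound]
  | succ n ih =>
    intro A _ _ hfin hq ht hm
    obtain ⟨t, ht⟩ := ht
    set J : Ideal A := maximalIdeal A ^ (n + 1) with hJdef
    have hJ : J ≤ maximalIdeal A := Ideal.pow_le_self (Nat.succ_ne_zero n)
    letI := bound_isLocalRing_quotient J hJ
    have hmax := bound_maximalIdeal_quotient J hJ
    -- residue field of the quotient
    have hres : Function.Surjective
        (fun c : ResidueField A => (Ideal.Quotient.lift (maximalIdeal A)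
          ((residue (A ⧸ J)).comp (Ideal.Quotient.mk J)) (by
            intro a ha
            rw [RingHom.comp_apply, residue_eq_zero_iff, hmax]
            exact Ideal.mem_map_of_mem _ ha)) c) := by
      intro y
      obtain ⟨x, rfl⟩ := residue_surjective y
      obtain ⟨a, rfl⟩ := Ideal.Quotient.mk_surjective x
      exact ⟨residue A a, rfl⟩
    have := hfin
    have hfin' : Finite (ResidueField (A ⧸ J)) := Finite.of_surjective _ hres
    have hq' : Nat.card (ResidueField (A ⧸ J)) ≤ q :=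
      (Nat.card_le_card_of_surjective _ hres).trans hq
    have ht' : ∃ t' : Fin e → A ⧸ J, maximalIdeal (A ⧸ J) = Ideal.span (Set.range t') := by
      refine ⟨fun i => Ideal.Quotient.mk J (t i), ?_⟩
      rw [hmax, ht, Ideal.map_span]
      congr 1
      ext x
      simp [Set.mem_image, Set.mem_range]
    have hm' : maximalIdeal (A ⧸ J) ^ (n + 1) = ⊥ := by
      rw [hmax, ← Ideal.map_pow, ← hJdef, Ideal.map_quotient_self]
    obtain ⟨hfinQ, hcardQ⟩ := ih (A ⧸ J) hfin' hq' ht' hm'
    -- the surjection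
    let Ψ : ResidueField A × (Fin e → A ⧸ J) → A := fun p =>
      (Quotient.out p.1 : A) + ∑ i, (Quotient.out (p.2 i) : A) * t i
    have hΨ : Function.Surjective Ψ := by
      intro a
      have h1 : a - (Quotient.out (residue A a) : A) ∈ maximalIdeal A := by
        rw [← residue_eq_zero_iff, map_sub, sub_eq_zero]
        exact (Quotient.out_eq (residue A a)).symm
      have h1' : a - (Quotient.out (residue A a) : A) ∈ Ideal.span (Set.range t) := (le_of_eq ht) h1
      obtain ⟨c, hc⟩ := (Ideal.mem_span_range_iff_exists_fun).mp h1'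
      refine ⟨(residue A a, fun i => Ideal.Quotient.mk J (c i)), ?_⟩
      simp only [Ψ]
      have h2 : ∀ i, (Quotient.out (Ideal.Quotient.mk J (c i)) : A) * t i = c i * t i := by
        intro i
        have h3 : (Quotient.out (Ideal.Quotient.mk J (c i)) : A) - c i ∈ J := by
          rw [← Ideal.Quotient.eq]
          exact Quotient.out_eq _
        have h4 : ((Quotient.out (Ideal.Quotient.mk J (c i)) : A) - c i) * t i ∈
            maximalIdeal A ^ (n + 1 + 1) := by
          rw [pow_succ]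
          exact Ideal.mul_mem_mul h3 ((ge_of_eq ht) (Ideal.subset_span ⟨i, rfl⟩))
        rw [hm] at h4
        have h5 : ((Quotient.out (Ideal.Quotient.mk J (c i)) : A) - c i) * t i = 0 := h4
        rw [sub_mul, sub_eq_zero] at h5
        exact h5
      rw [Finset.sum_congr rfl (fun i _ => h2 i), hc]
      ring
    have := hfinQ
    refine ⟨Finite.of_surjective _ hΨ, ?_⟩
    calc Nat.card A ≤ Nat.card (ResidueField A × (Fin e → A ⧸ J)) :=
          Nat.card_le_card_of_surjective _ hΨ
      _ = Nat.card (ResidueField A) * Nat.card (A ⧸ J) ^ e := by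
          rw [Nat.card_prod, Nat.card_fun, Nat.card_fin]
      _ ≤ q * sizeBound q e (n + 1) ^ e :=
          Nat.mul_le_mul hq (Nat.pow_le_pow_left hcardQ e)
      _ = sizeBound q e (n + 1 + 1) := by
          simp [sizeBound]


/-! ### F1 : generators of the maximal ideal from a bound on homs to the dual numbers -/



section F1

variable (𝒪 : Type) [CommRing 𝒪] [IsLocalRing 𝒪]
variable (A : Type) [CommRing A] [IsLocalRing A] [Algebra 𝒪 A]

/-- The `𝒪`-submodule `𝒪·1 + m_A²` of `A`. -/
def cotN : Submodule 𝒪 A :=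
  Submodule.span 𝒪 {(1 : A)} ⊔ ((maximalIdeal A) ^ 2).restrictScalars 𝒪

variable {𝒪 A}

lemma algebraMap_mem_cotN (c : 𝒪) : algebraMap 𝒪 A c ∈ cotN 𝒪 A := by
  apply Submodule.mem_sup_left
  rw [Algebra.algebraMap_eq_smul_one]
  exact Submodule.smul_mem _ _ (Submodule.subset_span rfl)

lemma sq_mem_cotN {x : A} (hx : x ∈ maximalIdeal A ^ 2) : x ∈ cotN 𝒪 A :=
  Submodule.mem_sup_right hx

lemma smul_mem_cotN (hloc : IsLocalHom (algebraMap 𝒪 A))
    (hsurj : Function.Surjective (IsLocalRing.residue A ∘ algebraMap 𝒪 A))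
    {c : 𝒪} (hc : c ∈ maximalIdeal 𝒪) (a : A) : c • a ∈ cotN 𝒪 A := by
  obtain ⟨o, ho⟩ := exists_sub_algebraMap_mem_maximalIdeal hsurj a
  have h1 : c • a = algebraMap 𝒪 A (c * o) + algebraMap 𝒪 A c * (a - algebraMap 𝒪 A o) := by
    rw [Algebra.smul_def, map_mul]
    ring
  rw [h1]
  refine Submodule.add_mem _ (algebraMap_mem_cotN _) (sq_mem_cotN ?_)
  rw [pow_two]
  refine Ideal.mul_mem_mul ?_ ho
  rw [mem_maximalIdeal] at hc ⊢
  exact fun h => hc (hloc.map_nonunit c h)

lemma isTorsionBySet_cotN (hloc : IsLocalHom (algebraMap 𝒪 A))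
    (hsurj : Function.Surjective (IsLocalRing.residue A ∘ algebraMap 𝒪 A)) :
    Module.IsTorsionBySet 𝒪 (A ⧸ cotN 𝒪 A) (maximalIdeal 𝒪 : Set 𝒪) := by
  intro x c
  obtain ⟨a, rfl⟩ := Submodule.Quotient.mk_surjective _ x
  rw [← Submodule.Quotient.mk_smul, Submodule.Quotient.mk_eq_zero]
  exact smul_mem_cotN hloc hsurj c.2 a

/-- The key congruence: `a b ≡ o • b + o' • a` modulo `𝒪·1 + m²` when `a ≡ o`, `b ≡ o'` mod `m`. -/
lemma mul_sub_mem_cotN {a b : A} {o o' : 𝒪} (ha : a - algebraMap 𝒪 A o ∈ maximalIdeal A)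
    (hb : b - algebraMap 𝒪 A o' ∈ maximalIdeal A) :
    a * b - (o • b + o' • a) ∈ cotN 𝒪 A := by
  have h1 : a * b - (o • b + o' • a) =
      - algebraMap 𝒪 A (o * o') + (a - algebraMap 𝒪 A o) * (b - algebraMap 𝒪 A o') := by
    rw [Algebra.smul_def, Algebra.smul_def, map_mul]
    ring
  rw [h1]
  refine Submodule.add_mem _ (Submodule.neg_mem _ (algebraMap_mem_cotN _)) (sq_mem_cotN ?_)
  rw [pow_two]
  exact Ideal.mul_mem_mul ha hb

/-- The cotangent quotient `A ⧸ (𝒪·1 + m²)`, as a type carrying a `k`-vector space structure. -/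
def CotV (hloc : IsLocalHom (algebraMap 𝒪 A))
    (_hsurj : Function.Surjective (IsLocalRing.residue A ∘ algebraMap 𝒪 A)) : Type :=
  A ⧸ cotN 𝒪 A

section CotV

variable (hloc : IsLocalHom (algebraMap 𝒪 A))
  (hsurj : Function.Surjective (IsLocalRing.residue A ∘ algebraMap 𝒪 A))

noncomputable instance cotVAddCommGroup : AddCommGroup (CotV hloc hsurj) :=
  inferInstanceAs (AddCommGroup (A ⧸ cotN 𝒪 A))

noncomputable instance cotVModuleBase : Module 𝒪 (CotV hloc hsurj) :=
  inferInstanceAs (Module 𝒪 (A ⧸ cotN 𝒪 A))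

noncomputable instance cotVModuleResidue : Module (ResidueField 𝒪) (CotV hloc hsurj) :=
  Module.IsTorsionBySet.module (isTorsionBySet_cotN hloc hsurj)

/-- The quotient map `A → CotV`. -/
noncomputable def cotMk : A →ₗ[𝒪] CotV hloc hsurj := (cotN 𝒪 A).mkQ

lemma cotMk_surjective : Function.Surjective (cotMk hloc hsurj) :=
  Submodule.mkQ_surjective _

lemma cotMk_eq_zero_iff (a : A) : cotMk hloc hsurj a = 0 ↔ a ∈ cotN 𝒪 A :=
  Submodule.Quotient.mk_eq_zero _

lemma residue_smul_cotV (o : 𝒪) (v : CotV hloc hsurj) : (residue 𝒪 o) • v = o • v := rfl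

instance cotVFinite [Finite A] : Finite (CotV hloc hsurj) :=
  Finite.of_surjective _ (cotMk_surjective hloc hsurj)

variable [Algebra 𝒪 (DualNumber (ResidueField 𝒪))]

lemma lam_smul (lam : Module.Dual (ResidueField 𝒪) (CotV hloc hsurj)) (o : 𝒪)
    (v : CotV hloc hsurj) : lam (o • v) = residue 𝒪 o * lam v :=
  (congrArg lam (residue_smul_cotV hloc hsurj o v).symm).trans (lam.map_smul (residue 𝒪 o) v)

lemma cotMk_mul (a b : A) {o o' : 𝒪} (ho : a - algebraMap 𝒪 A o ∈ maximalIdeal A)
    (ho' : b - algebraMap 𝒪 A o' ∈ maximalIdeal A) :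
    cotMk hloc hsurj (a * b) = o • cotMk hloc hsurj b + o' • cotMk hloc hsurj a := by
  have h1 := mul_sub_mem_cotN (𝒪 := 𝒪) ho ho'
  have h2 : cotMk hloc hsurj (a * b - (o • b + o' • a)) = 0 :=
    (cotMk_eq_zero_iff hloc hsurj _).mpr h1
  have h3 : cotMk hloc hsurj (a * b - (o • b + o' • a)) =
      cotMk hloc hsurj (a * b) - (o • cotMk hloc hsurj b + o' • cotMk hloc hsurj a) := by
    rw [LinearMap.map_sub, LinearMap.map_add, LinearMap.map_smul, LinearMap.map_smul]
  rw [h3] at h2
  exact sub_eq_zero.mp h2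

lemma lam_der (lam : Module.Dual (ResidueField 𝒪) (CotV hloc hsurj)) (a b : A) :
    lam (cotMk hloc hsurj (a * b)) =
      resK hloc hsurj a * lam (cotMk hloc hsurj b) +
        resK hloc hsurj b * lam (cotMk hloc hsurj a) := by
  obtain ⟨o, ho⟩ := exists_sub_algebraMap_mem_maximalIdeal hsurj a
  obtain ⟨o', ho'⟩ := exists_sub_algebraMap_mem_maximalIdeal hsurj b
  rw [cotMk_mul hloc hsurj a b ho ho', LinearMap.map_add, lam_smul, lam_smul,
    (resK_eq_iff hloc hsurj a o).mpr ho, (resK_eq_iff hloc hsurj b o').mpr ho']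

/-- The algebra hom `A → k[ε]` attached to a functional on `A ⧸ (𝒪·1 + m²)`. -/
noncomputable def dualHom
    (halg : ∀ c : 𝒪, algebraMap 𝒪 (DualNumber (ResidueField 𝒪)) c =
      TrivSqZeroExt.inl (residue 𝒪 c))
    (lam : Module.Dual (ResidueField 𝒪) (CotV hloc hsurj)) :
    A →ₐ[𝒪] DualNumber (ResidueField 𝒪) :=
  { toFun := fun a => TrivSqZeroExt.inl (resK hloc hsurj a) +
      TrivSqZeroExt.inr (lam (cotMk hloc hsurj a))
    map_one' := by
      have h1 : cotMk hloc hsurj (1 : A) = 0 := by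
        rw [cotMk_eq_zero_iff]
        have := algebraMap_mem_cotN (𝒪 := 𝒪) (A := A) 1
        rwa [map_one] at this
      rw [h1, map_zero, map_one, TrivSqZeroExt.inr_zero, add_zero, TrivSqZeroExt.inl_one]
    map_mul' := by
      intro a b
      rw [lam_der]
      ext
      · simp
      · simp
        ring
    map_zero' := by
      simp
    map_add' := by
      intro a b
      rw [map_add, map_add, map_add, TrivSqZeroExt.inl_add, TrivSqZeroExt.inr_add]
      abel
    commutes' := by
      intro c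
      have h1 : cotMk hloc hsurj (algebraMap 𝒪 A c) = 0 := by
        rw [cotMk_eq_zero_iff]
        exact algebraMap_mem_cotN c
      show TrivSqZeroExt.inl (resK hloc hsurj (algebraMap 𝒪 A c)) +
        TrivSqZeroExt.inr (lam (cotMk hloc hsurj (algebraMap 𝒪 A c))) = algebraMap 𝒪 _ c
      rw [h1, map_zero, TrivSqZeroExt.inr_zero, add_zero, halg, AlgHom.commutes,
        IsLocalRing.ResidueField.algebraMap_eq] }

lemma dualHom_apply
    (halg : ∀ c : 𝒪, algebraMap 𝒪 (DualNumber (ResidueField 𝒪)) c =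
      TrivSqZeroExt.inl (residue 𝒪 c))
    (lam : Module.Dual (ResidueField 𝒪) (CotV hloc hsurj)) (a : A) :
    dualHom hloc hsurj halg lam a = TrivSqZeroExt.inl (resK hloc hsurj a) +
      TrivSqZeroExt.inr (lam (cotMk hloc hsurj a)) := rfl

lemma dualHom_injective
    (halg : ∀ c : 𝒪, algebraMap 𝒪 (DualNumber (ResidueField 𝒪)) c =
      TrivSqZeroExt.inl (residue 𝒪 c)) :
    Function.Injective (dualHom hloc hsurj halg) := by
  intro lam lam' h
  apply LinearMap.ext
  intro v
  obtain ⟨a, rfl⟩ := cotMk_surjective hloc hsurj v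
  have h1 := congrArg (fun f : A →ₐ[𝒪] DualNumber (ResidueField 𝒪) => (f a).snd) h
  simpa [dualHom_apply] using h1

/-- The cotangent quotient has at most as many elements as there are `𝒪`-algebra homs
`A → k[ε]`. -/
lemma card_cotV_le [Finite (ResidueField 𝒪)] [Finite A]
    (halg : ∀ c : 𝒪, algebraMap 𝒪 (DualNumber (ResidueField 𝒪)) c =
      TrivSqZeroExt.inl (residue 𝒪 c)) :
    Nat.card (CotV hloc hsurj) ≤ Nat.card (A →ₐ[𝒪] DualNumber (ResidueField 𝒪)) := by
  have hfinD : Finite (DualNumber (ResidueField 𝒪)) :=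
    inferInstanceAs (Finite (ResidueField 𝒪 × ResidueField 𝒪))
  have hfinHom : Finite (A →ₐ[𝒪] DualNumber (ResidueField 𝒪)) :=
    Finite.of_injective (fun f => (f : A → DualNumber (ResidueField 𝒪))) DFunLike.coe_injective
  have hmf : Module.Finite (ResidueField 𝒪) (CotV hloc hsurj) := Module.Finite.of_finite
  have h1 : Nat.card (CotV hloc hsurj) =
      Nat.card (Module.Dual (ResidueField 𝒪) (CotV hloc hsurj)) := by
    rw [Module.natCard_eq_pow_finrank (K := ResidueField 𝒪) (V := CotV hloc hsurj),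
      Module.natCard_eq_pow_finrank (K := ResidueField 𝒪)
        (V := Module.Dual (ResidueField 𝒪) (CotV hloc hsurj)),
      Subspace.dual_finrank_eq]
  rw [h1]
  exact Nat.card_le_card_of_injective _ (dualHom_injective hloc hsurj halg)

include hloc hsurj in
/-- **F1 (algebra)**: if there are at most `τ` algebra homs `A → k[ε]`, the maximal ideal of `A` is
generated by `τ` elements together with the image of the maximal ideal of `𝒪`. -/
theorem exists_gens_of_card_algHom_le [Finite (ResidueField 𝒪)] [Finite A]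
    (halg : ∀ c : 𝒪, algebraMap 𝒪 (DualNumber (ResidueField 𝒪)) c =
      TrivSqZeroExt.inl (residue 𝒪 c))
    (τ : ℕ) (hτ : Nat.card (A →ₐ[𝒪] DualNumber (ResidueField 𝒪)) ≤ τ) :
    ∃ s : Fin τ → A, (∀ i, s i ∈ maximalIdeal A) ∧
      maximalIdeal A ≤ Ideal.span (Set.range s) ⊔ (maximalIdeal 𝒪).map (algebraMap 𝒪 A) := by
  classical
  have hV : Nat.card (CotV hloc hsurj) ≤ τ := (card_cotV_le hloc hsurj halg).trans hτ
  -- a surjection `Fin τ → V`
  let emb : CotV hloc hsurj → Fin τ := fun v => Fin.castLE hV (Finite.equivFin _ v)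
  have hemb : Function.Injective emb := fun v w h =>
    (Finite.equivFin _).injective (Fin.castLE_injective hV h)
  let g : Fin τ → CotV hloc hsurj := Function.invFun emb
  have hg : Function.Surjective g := Function.invFun_surjective hemb
  -- lifts in the maximal ideal
  have hlift : ∀ v : CotV hloc hsurj, ∃ a : A, a ∈ maximalIdeal A ∧ cotMk hloc hsurj a = v := by
    intro v
    obtain ⟨a, rfl⟩ := cotMk_surjective hloc hsurj v
    obtain ⟨o, ho⟩ := exists_sub_algebraMap_mem_maximalIdeal hsurj a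
    refine ⟨a - algebraMap 𝒪 A o, ho, ?_⟩
    rw [map_sub, sub_eq_self, cotMk_eq_zero_iff]
    exact algebraMap_mem_cotN o
  choose lift hlift_mem hlift_eq using hlift
  refine ⟨fun i => lift (g i), fun i => hlift_mem _, ?_⟩
  set N : Ideal A := Ideal.span (Set.range fun i => lift (g i)) ⊔
    (maximalIdeal 𝒪).map (algebraMap 𝒪 A) with hN
  have hfg : (maximalIdeal A).FG := (isNoetherianRing_iff_ideal_fg A).mp inferInstance _
  have key : maximalIdeal A ≤ N ⊔ maximalIdeal A • maximalIdeal A := by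
    intro x hx
    obtain ⟨i, hi⟩ := hg (cotMk hloc hsurj x)
    have h1 : x - lift (g i) ∈ cotN 𝒪 A := by
      rw [← cotMk_eq_zero_iff hloc hsurj, map_sub, hlift_eq, hi, sub_self]
    obtain ⟨u, hu, y, hy, huy⟩ := Submodule.mem_sup.mp h1
    obtain ⟨c, rfl⟩ := Submodule.mem_span_singleton.mp hu
    have hy' : y ∈ maximalIdeal A ^ 2 := hy
    have hym : y ∈ maximalIdeal A := Ideal.pow_le_self two_ne_zero hy'
    have hc1 : c • (1 : A) ∈ maximalIdeal A := by
      have : c • (1 : A) = x - lift (g i) - y := by rw [← huy]; ring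
      rw [this]
      exact Ideal.sub_mem _ (Ideal.sub_mem _ hx (hlift_mem _)) hym
    rw [← Algebra.algebraMap_eq_smul_one] at hc1
    have hc : c ∈ maximalIdeal 𝒪 := by
      rw [mem_maximalIdeal] at hc1 ⊢
      exact fun h => hc1 (h.map _)
    have hx' : x = lift (g i) + algebraMap 𝒪 A c + y := by
      rw [Algebra.algebraMap_eq_smul_one, add_assoc, huy]
      ring
    rw [hx']
    refine Submodule.add_mem _ (Submodule.mem_sup_left (Submodule.add_mem _ ?_ ?_))
      (Submodule.mem_sup_right ?_)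
    · exact Submodule.mem_sup_left (Ideal.subset_span ⟨i, rfl⟩)
    · exact Submodule.mem_sup_right (Ideal.mem_map_of_mem _ hc)
    · rw [smul_eq_mul, ← pow_two]
      exact hy'
  exact Submodule.le_of_le_smul_of_le_jacobson_bot hfg (IsLocalRing.maximalIdeal_le_jacobson _) key

end CotV

end F1


/-! ### The interface -/

section Interface

variable {𝒪 : Type} [CommRing 𝒪] [IsLocalRing 𝒪] [Finite (ResidueField 𝒪)]
variable {ρbar : ResidualGaloisRep (ResidueField 𝒪)}
  {𝒟 : ∀ ⦃A : Type⦄ [CommRing A] [IsLocalRing A] [Algebra 𝒪 A], GaloisRepAdic A → Prop}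

/-- Generators in the maximal ideal, for a trace-generated deformation datum. -/
theorem cotangent_bound_mem (h𝒟 : GaloisRep.IsDeformationCondition 𝒪 𝒟)
    (hfin : GaloisRep.TangentFinite 𝒪 ρbar 𝒟)
    (A : Type) [CommRing A] [IsLocalRing A] [Algebra 𝒪 A] (r : Gal →* M2 A)
    (hdefo : IsDefo 𝒪 𝒟 (rbarMat ρbar) r)
    (hgen : Algebra.adjoin 𝒪 (Set.range fun σ => (r σ).trace) = ⊤) :
    ∃ s : Fin (Nat.card (TangentQuot 𝒪 ρbar 𝒟)) → A, (∀ i, s i ∈ maximalIdeal A) ∧
      maximalIdeal A ≤ Ideal.span (Set.range s) ⊔ (maximalIdeal 𝒪).map (algebraMap 𝒪 A) := by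
  letI := dualAlgebra 𝒪
  have hA : Finite A := finite_of_isArtinianTestAlgebra hdefo.test
  have h0 := card_algHom_dual_le h𝒟 hfin hdefo hgen
  exact exists_gens_of_card_algHom_le hdefo.test.isLocalHom hdefo.test.residue_surjective
    (fun c => rfl) _ h0.2

/-- **F, first half.** `TangentFinite` bounds the number of generators of the maximal ideal of
every trace-generated deformation datum. -/
theorem cotangent_bound (h𝒟 : GaloisRep.IsDeformationCondition 𝒪 𝒟)
    (hfin : GaloisRep.TangentFinite 𝒪 ρbar 𝒟) :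
    ∃ d : ℕ, ∀ (A : Type) [CommRing A] [IsLocalRing A] [Algebra 𝒪 A] (r : Gal →* M2 A),
      IsDefo 𝒪 𝒟 (rbarMat ρbar) r →
      Algebra.adjoin 𝒪 (Set.range fun σ => (r σ).trace) = ⊤ →
      ∃ s : Fin d → A,
        maximalIdeal A ≤ Ideal.span (Set.range s) ⊔ (maximalIdeal 𝒪).map (algebraMap 𝒪 A) := by
  refine ⟨Nat.card (TangentQuot 𝒪 ρbar 𝒟), fun A _ _ _ r hdefo hgen => ?_⟩
  obtain ⟨s, -, hs⟩ := cotangent_bound_mem h𝒟 hfin A r hdefo hgen
  exact ⟨s, hs⟩

/-- **F, second half.** `TangentFinite` bounds the cardinality of every trace-generated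
deformation datum with `m^(n+1) = 0` (`𝒪` with principal maximal ideal, e.g. a DVR). -/
theorem card_bound (h𝒟 : GaloisRep.IsDeformationCondition 𝒪 𝒟)
    (hfin : GaloisRep.TangentFinite 𝒪 ρbar 𝒟)
    (hprinc : ∃ ϖ : 𝒪, maximalIdeal 𝒪 = Ideal.span {ϖ}) :
    ∃ C : ℕ → ℕ, ∀ (n : ℕ) (A : Type) [CommRing A] [IsLocalRing A] [Algebra 𝒪 A]
      (r : Gal →* M2 A), IsDefo 𝒪 𝒟 (rbarMat ρbar) r →
      Algebra.adjoin 𝒪 (Set.range fun σ => (r σ).trace) = ⊤ →
      maximalIdeal A ^ (n + 1) = ⊥ → Finite A ∧ Nat.card A ≤ C n := by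
  obtain ⟨ϖ, hϖ⟩ := hprinc
  refine ⟨fun n => sizeBound (Nat.card (ResidueField 𝒪))
    (Nat.card (TangentQuot 𝒪 ρbar 𝒟) + 1) (n + 1), fun n A _ _ _ r hdefo hgen hn => ?_⟩
  obtain ⟨s, hsm, hs⟩ := cotangent_bound_mem h𝒟 hfin A r hdefo hgen
  have hloc := hdefo.test.isLocalHom
  have hsurj := hdefo.test.residue_surjective
  have hresfin : Finite (ResidueField A) := finite_residueField_of_surjective hloc hsurj
  have hrescard : Nat.card (ResidueField A) ≤ Nat.card (ResidueField 𝒪) :=
    Nat.card_le_card_of_surjective _ (residueField_map_surjective hloc hsurj)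
  have hϖm : algebraMap 𝒪 A ϖ ∈ maximalIdeal A := by
    have h1 : ϖ ∈ maximalIdeal 𝒪 := by rw [hϖ]; exact Ideal.subset_span rfl
    rw [mem_maximalIdeal] at h1 ⊢
    exact fun h => h1 (hloc.map_nonunit ϖ h)
  refine finite_and_card_le_sizeBound _ _ n A hresfin hrescard ?_ hn
  refine ⟨Fin.cons (algebraMap 𝒪 A ϖ) s, le_antisymm ?_ ?_⟩
  · refine hs.trans (sup_le ?_ ?_)
    · rw [Ideal.span_le]
      rintro _ ⟨i, rfl⟩
      exact Ideal.subset_span ⟨i.succ, by simp⟩
    · rw [hϖ, Ideal.map_span, Ideal.span_le]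
      rintro _ ⟨_, rfl, rfl⟩
      exact Ideal.subset_span ⟨0, by simp⟩
  · rw [Ideal.span_le]
    rintro _ ⟨i, rfl⟩
    refine Fin.cases ?_ (fun j => ?_) i
    · simpa using hϖm
    · simpa using hsm j

end Interface

end Fermat.Agent.S53lib
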