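/-
S53 — pieces G3 + G4: the tower `A n := Pol 𝒪 ⧸ c.I n` attached to a chain of minimal admissible
ideals, its transition maps, `ker (π n) = m^(n+1)`, and a compatible system of deformation data.
-/
import Fermat.Agent.S53lib.Adm
import Fermat.Agent.S53lib.AdmLemmas
import Fermat.Agent.S53lib.TestAlg

set_option autoImplicit false
set_option linter.unusedSectionVars false
set_option linter.style.haveILetI false

noncomputable section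

namespace Fermat.Agent.S53lib

open IsLocalRing GaloisRep

section chain

variable {𝒪 : Type} [CommRing 𝒪] [IsLocalRing 𝒪]
variable {𝒟 : ∀ ⦃A : Type⦄ [CommRing A] [IsLocalRing A] [Algebra 𝒪 A], GaloisRepAdic A → Prop}
variable {rb : Gal →* M2 (ResidueField 𝒪)}

/-- The quotient by an admissible ideal of level `n` is local. -/
lemma AdmN.isLocalRing {n : ℕ} {I : Ideal (Pol 𝒪)} (h : AdmN 𝒪 𝒟 rb n I) :
    IsLocalRing (Pol 𝒪 ⧸ I) := h.choose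

/-- Unpacking `c.adm n` with the canonical local ring instance. -/
lemma Chain.exists_rep (c : Chain 𝒪 𝒟 rb) (n : ℕ) :
    ∃ r : Gal →* M2 (Pol 𝒪 ⧸ c.I n), IsDefo 𝒪 𝒟 rb r ∧
      (∀ σ, (r σ).trace = Ideal.Quotient.mk (c.I n) (MvPolynomial.X σ)) ∧
      maximalIdeal (Pol 𝒪 ⧸ c.I n) ^ (n + 1) = ⊥ := by
  obtain ⟨_, r, h1, h2, h3⟩ := c.adm n
  exact ⟨r, h1, h2, h3⟩

lemma Chain.pow_eq_bot (c : Chain 𝒪 𝒟 rb) (n : ℕ) :
    maximalIdeal (Pol 𝒪 ⧸ c.I n) ^ (n + 1) = ⊥ := by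
  obtain ⟨r, -, -, h3⟩ := c.exists_rep n
  exact h3

lemma Chain.test (c : Chain 𝒪 𝒟 rb) (n : ℕ) : IsArtinianTestAlgebra 𝒪 (Pol 𝒪 ⧸ c.I n) := by
  obtain ⟨r, h1, -, -⟩ := c.exists_rep n
  exact h1.test

lemma Chain.residue_surjective (c : Chain 𝒪 𝒟 rb) (n : ℕ) :
    Function.Surjective (residue (Pol 𝒪 ⧸ c.I n) ∘ algebraMap 𝒪 (Pol 𝒪 ⧸ c.I n)) :=
  (c.test n).residue_surjective

/-- Admissibility of level `n` implies admissibility of level `n+1`. -/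
lemma AdmN.succ {n : ℕ} {I : Ideal (Pol 𝒪)} (h : AdmN 𝒪 𝒟 rb n I) : AdmN 𝒪 𝒟 rb (n + 1) I := by
  obtain ⟨hl, r, h1, h2, h3⟩ := h
  refine ⟨hl, r, h1, h2, ?_⟩
  rw [pow_succ, h3, Ideal.bot_mul]

lemma Chain.le_succ (c : Chain 𝒪 𝒟 rb) (n : ℕ) : c.I (n + 1) ≤ c.I n :=
  c.min (n + 1) (c.I n) (c.adm n).succ

/-- The transition maps of the tower. -/
def Chain.π (c : Chain 𝒪 𝒟 rb) (n : ℕ) : (Pol 𝒪 ⧸ c.I (n + 1)) →ₐ[𝒪] (Pol 𝒪 ⧸ c.I n) :=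
  Ideal.Quotient.factorₐ 𝒪 (c.le_succ n)

@[simp] lemma Chain.π_mk (c : Chain 𝒪 𝒟 rb) (n : ℕ) (f : Pol 𝒪) :
    c.π n (Ideal.Quotient.mk (c.I (n + 1)) f) = Ideal.Quotient.mk (c.I n) f := rfl

lemma Chain.π_surjective (c : Chain 𝒪 𝒟 rb) (n : ℕ) : Function.Surjective (c.π n) :=
  Ideal.Quotient.factor_surjective (c.le_succ n)

end chain

/-! ### Quotients of test algebras -/

section quot

variable {𝒪 : Type} [CommRing 𝒪] [IsLocalRing 𝒪]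

lemma isLocalHom_algebraMap_of_residue_surjective {B : Type} [CommRing B] [IsLocalRing B]
    [Algebra 𝒪 B] (hB : Function.Surjective (residue B ∘ algebraMap 𝒪 B)) :
    IsLocalHom (algebraMap 𝒪 B) := by
  have hψ : IsLocalHom ((residue B).comp (algebraMap 𝒪 B)) := IsLocalHom.of_surjective _ hB
  refine ⟨fun c hc => ?_⟩
  have h2 : IsUnit ((residue B).comp (algebraMap 𝒪 B) c) := hc.map (residue B)
  exact isUnit_of_map_unit _ c h2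

/-- A local quotient of a test algebra is a test algebra. -/
lemma isArtinianTestAlgebra_of_surjective [Finite (ResidueField 𝒪)]
    {A B : Type} [CommRing A] [IsLocalRing A] [Algebra 𝒪 A] [CommRing B] [IsLocalRing B]
    [Algebra 𝒪 B] (hA : IsArtinianTestAlgebra 𝒪 A) (φ : A →ₐ[𝒪] B)
    (hφ : Function.Surjective φ) : IsArtinianTestAlgebra 𝒪 B := by
  have hfin : Finite A := finite_of_isArtinianTestAlgebra hA
  have hfinB : Finite B := Finite.of_surjective _ hφ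
  have hloc : IsLocalHom (φ : A →+* B) := IsLocalHom.of_surjective _ hφ
  have hsurj : Function.Surjective (residue B ∘ algebraMap 𝒪 B) := by
    intro x
    obtain ⟨b, rfl⟩ := residue_surjective x
    obtain ⟨a, rfl⟩ := hφ b
    obtain ⟨o, ho⟩ := exists_sub_algebraMap_mem_maximalIdeal hA.residue_surjective a
    refine ⟨o, ?_⟩
    simp only [Function.comp_apply]
    rw [← sub_eq_zero, ← map_sub, residue_eq_zero_iff]
    have h1 : φ (a - algebraMap 𝒪 A o) ∈ maximalIdeal B := by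
      rw [mem_maximalIdeal, mem_nonunits_iff]
      intro hu
      exact (mem_maximalIdeal _).1 ho (hloc.map_nonunit _ hu)
    rw [map_sub, AlgHom.commutes] at h1
    have e : algebraMap 𝒪 B o - φ a = -(φ a - algebraMap 𝒪 B o) := by ring
    rw [e]
    exact (maximalIdeal B).neg_mem h1
  exact isArtinianTestAlgebra_of_finite (isLocalHom_algebraMap_of_residue_surjective hsurj) hsurj

end quot

/-! ### G3 : the kernel of the transition map -/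

section G3

variable {𝒪 : Type} [CommRing 𝒪] [IsLocalRing 𝒪]
variable {𝒟 : ∀ ⦃A : Type⦄ [CommRing A] [IsLocalRing A] [Algebra 𝒪 A], GaloisRepAdic A → Prop}
variable {rb : Gal →* M2 (ResidueField 𝒪)}

lemma Chain.isLocalHom_π (c : Chain 𝒪 𝒟 rb) (n : ℕ) :
    IsLocalHom (c.π n : (Pol 𝒪 ⧸ c.I (n + 1)) →+* (Pol 𝒪 ⧸ c.I n)) :=
  IsLocalHom.of_surjective _ (c.π_surjective n)

lemma Chain.mem_maximalIdeal_of_π (c : Chain 𝒪 𝒟 rb) (n : ℕ) (x : Pol 𝒪 ⧸ c.I (n + 1))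
    (hx : c.π n x ∈ maximalIdeal (Pol 𝒪 ⧸ c.I n)) : x ∈ maximalIdeal (Pol 𝒪 ⧸ c.I (n + 1)) := by
  rw [mem_maximalIdeal, mem_nonunits_iff] at hx ⊢
  exact fun hu => hx (hu.map (c.π n))

/-- **G3.** -/
theorem Chain.ker_π [Finite (ResidueField 𝒪)] (h𝒟 : IsDeformationCondition 𝒪 𝒟)
    (c : Chain 𝒪 𝒟 rb) (n : ℕ) :
    RingHom.ker (c.π n) = maximalIdeal (Pol 𝒪 ⧸ c.I (n + 1)) ^ (n + 1) := by
  apply le_antisymm
  · -- the hard inclusion: minimality of `c.I n`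
    set J : Ideal (Pol 𝒪 ⧸ c.I (n + 1)) := maximalIdeal (Pol 𝒪 ⧸ c.I (n + 1)) ^ (n + 1) with hJ
    set I' : Ideal (Pol 𝒪) := J.comap (Ideal.Quotient.mk (c.I (n + 1))) with hI'
    have hle : c.I (n + 1) ≤ I' := by
      intro f hf
      rw [hI', Ideal.mem_comap, Ideal.Quotient.eq_zero_iff_mem.mpr hf]
      exact J.zero_mem
    have hJle : J ≤ maximalIdeal (Pol 𝒪 ⧸ c.I (n + 1)) := Ideal.pow_le_self (by omega)
    have hI'top : I' ≠ ⊤ := by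
      intro h
      have h1 : (1 : Pol 𝒪) ∈ I' := h ▸ Submodule.mem_top
      rw [hI', Ideal.mem_comap, map_one] at h1
      exact (maximalIdeal.isMaximal _).ne_top ((Ideal.eq_top_iff_one _).mpr (hJle h1))
    have hnt : Nontrivial (Pol 𝒪 ⧸ I') := Ideal.Quotient.nontrivial_iff.mpr hI'top
    let φ : (Pol 𝒪 ⧸ c.I (n + 1)) →ₐ[𝒪] (Pol 𝒪 ⧸ I') := Ideal.Quotient.factorₐ 𝒪 hle
    have hφs : Function.Surjective φ := Ideal.Quotient.factor_surjective hle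
    have hφmk : ∀ f : Pol 𝒪, φ (Ideal.Quotient.mk (c.I (n + 1)) f) = Ideal.Quotient.mk I' f :=
      fun f => rfl
    haveI hlB : IsLocalRing (Pol 𝒪 ⧸ I') :=
      IsLocalRing.of_surjective' (φ : (Pol 𝒪 ⧸ c.I (n + 1)) →+* (Pol 𝒪 ⧸ I')) hφs
    have hφl : IsLocalHom (φ : (Pol 𝒪 ⧸ c.I (n + 1)) →+* (Pol 𝒪 ⧸ I')) :=
      IsLocalHom.of_surjective _ hφs
    have hB : IsArtinianTestAlgebra 𝒪 (Pol 𝒪 ⧸ I') :=
      isArtinianTestAlgebra_of_surjective (c.test (n + 1)) φ hφs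
    obtain ⟨r, hd, htr, -⟩ := c.exists_rep (n + 1)
    have hadm : AdmN 𝒪 𝒟 rb n I' := by
      refine ⟨hlB, mapMat (φ : (Pol 𝒪 ⧸ c.I (n + 1)) →+* (Pol 𝒪 ⧸ I')) r,
        hd.map h𝒟 hB φ hφl, ?_, ?_⟩
      · intro σ
        have := trMat_mapMat (φ : (Pol 𝒪 ⧸ c.I (n + 1)) →+* (Pol 𝒪 ⧸ I')) r σ
        simp only [trMat] at this
        rw [this, htr σ]
        exact hφmk _
      · rw [← map_maximalIdeal_of_surjective (φ : (Pol 𝒪 ⧸ c.I (n + 1)) →+* (Pol 𝒪 ⧸ I')) hφs,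
          ← Ideal.map_pow, Ideal.map_eq_bot_iff_le_ker]
        intro y hy
        obtain ⟨f, rfl⟩ := Ideal.Quotient.mk_surjective y
        rw [RingHom.mem_ker]
        change φ (Ideal.Quotient.mk (c.I (n + 1)) f) = 0
        rw [hφmk, Ideal.Quotient.eq_zero_iff_mem]
        exact hy
    have hmin := c.min n I' hadm
    intro x hx
    obtain ⟨f, rfl⟩ := Ideal.Quotient.mk_surjective x
    rw [RingHom.mem_ker] at hx
    change c.π n (Ideal.Quotient.mk (c.I (n + 1)) f) = 0 at hx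
    rw [Chain.π_mk, Ideal.Quotient.eq_zero_iff_mem] at hx
    exact hmin hx
  · change _ ≤ RingHom.ker (c.π n : (Pol 𝒪 ⧸ c.I (n + 1)) →+* (Pol 𝒪 ⧸ c.I n))
    rw [← Ideal.map_eq_bot_iff_le_ker, Ideal.map_pow,
      map_maximalIdeal_of_surjective (c.π n : (Pol 𝒪 ⧸ c.I (n + 1)) →+* (Pol 𝒪 ⧸ c.I n))
        (c.π_surjective n), c.pow_eq_bot n]

end G3

/-! ### G4 : a compatible system of deformation data -/

section G4

variable {𝒪 : Type} [CommRing 𝒪] [IsLocalRing 𝒪]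
variable {𝒟 : ∀ ⦃A : Type⦄ [CommRing A] [IsLocalRing A] [Algebra 𝒪 A], GaloisRepAdic A → Prop}
variable {rb : Gal →* M2 (ResidueField 𝒪)}

/-- One lifting step. -/
lemma Chain.exists_lift_rep [Finite (ResidueField 𝒪)] (h𝒟 : IsDeformationCondition 𝒪 𝒟)
    (hspan : Submodule.span (ResidueField 𝒪) (Set.range rb) = ⊤)
    (c : Chain 𝒪 𝒟 rb) (n : ℕ) (r : Gal →* M2 (Pol 𝒪 ⧸ c.I n)) (hr : IsDefo 𝒪 𝒟 rb r)
    (htr : ∀ σ, (r σ).trace = Ideal.Quotient.mk (c.I n) (MvPolynomial.X σ)) :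
    ∃ r' : Gal →* M2 (Pol 𝒪 ⧸ c.I (n + 1)), IsDefo 𝒪 𝒟 rb r' ∧
      (∀ σ, (r' σ).trace = Ideal.Quotient.mk (c.I (n + 1)) (MvPolynomial.X σ)) ∧
      mapMat (c.π n : (Pol 𝒪 ⧸ c.I (n + 1)) →+* (Pol 𝒪 ⧸ c.I n)) r' = r := by
  obtain ⟨r₁, d₁, t₁, -⟩ := c.exists_rep (n + 1)
  set πn : (Pol 𝒪 ⧸ c.I (n + 1)) →+* (Pol 𝒪 ⧸ c.I n) :=
    (c.π n : (Pol 𝒪 ⧸ c.I (n + 1)) →+* (Pol 𝒪 ⧸ c.I n)) with hπn
  set s : Gal →* M2 (Pol 𝒪 ⧸ c.I n) := mapMat πn r₁ with hs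
  have ds : IsDefo 𝒪 𝒟 rb s := d₁.map h𝒟 (c.test n) (c.π n) (c.isLocalHom_π n)
  have ts : ∀ σ, (s σ).trace = (r σ).trace := by
    intro σ
    have := trMat_mapMat πn r₁ σ
    simp only [trMat] at this
    rw [this, t₁ σ, htr σ]
    rfl
  have hcong : ∀ σ, EntriesIn (maximalIdeal (Pol 𝒪 ⧸ c.I n)) (s σ - r σ) :=
    fun σ => ds.strict.entriesIn_sub hr.strict σ
  have hsp : ResSpan (maximalIdeal (Pol 𝒪 ⧸ c.I n)) ⊤ s :=
    resSpan_of_strict hspan (c.test n).isLocalHom (c.test n).residue_surjective ⊤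
      (fun _ => Subring.mem_top _) ds.strict
  obtain ⟨Q, hQ1, hQ⟩ := conj_of_trace_eq (maximalIdeal (Pol 𝒪 ⧸ c.I n)) (n + 1)
    (c.pow_eq_bot n) s r hcong ts hsp
  -- lift `Q`
  let Qt : M2 (Pol 𝒪 ⧸ c.I (n + 1)) :=
    Matrix.of fun i j => Function.surjInv (c.π_surjective n) ((Q : M2 (Pol 𝒪 ⧸ c.I n)) i j)
  have hQt : πn.mapMatrix Qt = (Q : M2 (Pol 𝒪 ⧸ c.I n)) := by
    ext i j
    simp only [RingHom.mapMatrix_apply, Matrix.map_apply, Qt, Matrix.of_apply]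
    exact Function.surjInv_eq (c.π_surjective n) _
  have hQt1 : EntriesIn (maximalIdeal (Pol 𝒪 ⧸ c.I (n + 1))) (Qt - 1) := by
    intro i j
    apply c.mem_maximalIdeal_of_π n
    have e : c.π n ((Qt - 1) i j) = (πn.mapMatrix (Qt - 1)) i j := rfl
    rw [e, map_sub, map_one, hQt]
    exact hQ1 i j
  have hQtu : IsUnit Qt :=
    isUnit_of_entriesIn_sub_one (maximalIdeal (Pol 𝒪 ⧸ c.I (n + 1))) (n + 2)
      (c.pow_eq_bot (n + 1)) hQt1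
  set Qu : (M2 (Pol 𝒪 ⧸ c.I (n + 1)))ˣ := hQtu.unit with hQu
  have hQuv : (Qu : M2 (Pol 𝒪 ⧸ c.I (n + 1))) = Qt := rfl
  refine ⟨conjMat Qu r₁, d₁.conj h𝒟 Qu (by rw [hQuv]; exact hQt1), ?_, ?_⟩
  · intro σ
    have := trMat_conjMat Qu r₁ σ
    simp only [trMat] at this
    rw [this, t₁ σ]
  · rw [mapMat_conjMat]
    have hU : Units.map (πn.mapMatrix (m := Fin 2)).toMonoidHom Qu = Q := by
      apply Units.ext
      change πn.mapMatrix (Qu : M2 (Pol 𝒪 ⧸ c.I (n + 1))) = _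
      rw [hQuv, hQt]
    rw [hU]
    ext1 σ
    rw [conjMat_apply]
    exact (hQ σ).symm

/-- **G4.** -/
theorem Chain.exists_compatible [Finite (ResidueField 𝒪)] (h𝒟 : IsDeformationCondition 𝒪 𝒟)
    (hspan : Submodule.span (ResidueField 𝒪) (Set.range rb) = ⊤) (c : Chain 𝒪 𝒟 rb) :
    ∃ r : ∀ n, Gal →* M2 (Pol 𝒪 ⧸ c.I n), (∀ n, IsDefo 𝒪 𝒟 rb (r n)) ∧
      (∀ n σ, ((r n) σ).trace = Ideal.Quotient.mk (c.I n) (MvPolynomial.X σ)) ∧
      ∀ n, mapMat (c.π n : (Pol 𝒪 ⧸ c.I (n + 1)) →+* (Pol 𝒪 ⧸ c.I n)) (r (n + 1)) = r n := by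
  have step : ∀ n (t : {r : Gal →* M2 (Pol 𝒪 ⧸ c.I n) // IsDefo 𝒪 𝒟 rb r ∧
      ∀ σ, (r σ).trace = Ideal.Quotient.mk (c.I n) (MvPolynomial.X σ)}),
      ∃ t' : {r : Gal →* M2 (Pol 𝒪 ⧸ c.I (n + 1)) // IsDefo 𝒪 𝒟 rb r ∧
        ∀ σ, (r σ).trace = Ideal.Quotient.mk (c.I (n + 1)) (MvPolynomial.X σ)},
        mapMat (c.π n : (Pol 𝒪 ⧸ c.I (n + 1)) →+* (Pol 𝒪 ⧸ c.I n)) t'.1 = t.1 := by
    rintro n ⟨r, hr, htr⟩
    obtain ⟨r', h1, h2, h3⟩ := c.exists_lift_rep h𝒟 hspan n r hr htr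
    exact ⟨⟨r', h1, h2⟩, h3⟩
  choose f hf using step
  obtain ⟨r₀, d₀, t₀, -⟩ := c.exists_rep 0
  let seq : ∀ n, {r : Gal →* M2 (Pol 𝒪 ⧸ c.I n) // IsDefo 𝒪 𝒟 rb r ∧
      ∀ σ, (r σ).trace = Ideal.Quotient.mk (c.I n) (MvPolynomial.X σ)} :=
    fun n => Nat.rec ⟨r₀, d₀, t₀⟩ (fun n t => f n t) n
  refine ⟨fun n => (seq n).1, fun n => (seq n).2.1, fun n => (seq n).2.2, fun n => ?_⟩
  exact hf n (seq n)

end G4

end Fermat.Agent.S53lib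

end
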