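/-
S53 piece H (helper12): passing from the Artinian quotients `A ⧸ m^n` to a complete local ring `A`.

* `conj_of_conj_mod_pow_aux` : if `r, r' : G → M₂(A)` (with the `r g` spanning `M₂(A)`) are conjugate
  modulo every power of the maximal ideal, they are conjugate over `A`.
-/
import Mathlib
import Fermat.Agent.S53lib.Defs

set_option autoImplicit false

noncomputable section

namespace Fermat.Agent.S53lib

open IsLocalRing

section Congruence

variable {A : Type} [CommRing A]

/-- Reduction of `2 × 2` matrices modulo an ideal. -/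
def redMat (J : Ideal A) : M2 A →+* M2 (A ⧸ J) := (Ideal.Quotient.mk J).mapMatrix

lemma redMat_apply (J : Ideal A) (X : M2 A) (i j : Fin 2) :
    redMat J X i j = Ideal.Quotient.mk J (X i j) := rfl

lemma redMat_eq_iff (J : Ideal A) (X Y : M2 A) :
    redMat J X = redMat J Y ↔ ∀ i j, X i j - Y i j ∈ J := by
  constructor
  · intro h i j
    have := congrFun (congrFun h i) j
    rwa [redMat_apply, redMat_apply, Ideal.Quotient.eq] at this
  · intro h
    ext i j
    rw [redMat_apply, redMat_apply, Ideal.Quotient.eq]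
    exact h i j

lemma redMat_eq_of_le {J J' : Ideal A} (hJ : J ≤ J') {X Y : M2 A}
    (h : redMat J X = redMat J Y) : redMat J' X = redMat J' Y := by
  rw [redMat_eq_iff] at h ⊢
  exact fun i j => hJ (h i j)

lemma redMat_surjective (J : Ideal A) : Function.Surjective (redMat J) := by
  intro Y
  refine ⟨Matrix.of fun i j => (Ideal.Quotient.mk_surjective (Y i j)).choose, ?_⟩
  ext i j
  rw [redMat_apply, Matrix.of_apply]
  exact (Ideal.Quotient.mk_surjective (Y i j)).choose_spec

/-- Schur's lemma modulo an ideal: if the `r g` span `M₂(A)` and `Y` commutes with all `r g` modulo `J`,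
then `Y` is a scalar modulo `J`. -/
lemma schur_mod {G : Type*} (r : G → M2 A) (hspan : Submodule.span A (Set.range r) = ⊤)
    (J : Ideal A) (Y : M2 A) (hY : ∀ g, redMat J (Y * r g) = redMat J (r g * Y)) :
    ∃ c : A, redMat J Y = redMat J (Matrix.scalar (Fin 2) c) := by
  have hall : ∀ M : M2 A, redMat J (Y * M) = redMat J (M * Y) := by
    intro M
    have hM : M ∈ Submodule.span A (Set.range r) := by rw [hspan]; trivial
    induction hM using Submodule.span_induction with
    | mem M hM => obtain ⟨g, rfl⟩ := hM; exact hY g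
    | zero => simp
    | add M₁ M₂ _ _ h₁ h₂ => rw [mul_add, add_mul, map_add, map_add, h₁, h₂]
    | smul c M _ h =>
      rw [Matrix.mul_smul, Matrix.smul_mul]
      rw [redMat_eq_iff] at h ⊢
      intro i j
      have := J.mul_mem_left c (h i j)
      simpa [Matrix.smul_apply, mul_sub] using this
  have hcomm : Pairwise fun i j => Commute (Matrix.single i j (1 : A ⧸ J)) (redMat J Y) := by
    intro i j _
    have h1 : (Matrix.single i j (1 : A ⧸ J) : M2 (A ⧸ J)) = redMat J (Matrix.single i j 1) := by
      ext a b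
      rw [redMat_apply]
      by_cases hab : i = a ∧ j = b
      · obtain ⟨rfl, rfl⟩ := hab
        simp
      · rw [Matrix.single_apply, Matrix.single_apply, if_neg hab, if_neg hab, map_zero]
    show Matrix.single i j (1 : A ⧸ J) * redMat J Y = redMat J Y * Matrix.single i j 1
    rw [h1, ← map_mul, ← map_mul]
    exact (hall _).symm
  obtain ⟨c, hc⟩ := Matrix.mem_range_scalar_of_commute_single hcomm
  obtain ⟨a, rfl⟩ := Ideal.Quotient.mk_surjective c
  refine ⟨a, ?_⟩
  rw [← hc]
  ext i j
  rw [redMat_apply]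
  by_cases hij : i = j
  · subst hij; simp
  · simp [hij]

end Congruence

section Main

lemma smul_eq_mul_scalar {A : Type} [CommRing A] (c : A) (P : M2 A) :
    P * Matrix.scalar (Fin 2) c = c • P := by
  ext i j
  simp [Matrix.mul_apply, Matrix.scalar_apply, Matrix.diagonal_apply, mul_comm]

variable {A : Type} [CommRing A] [IsLocalRing A]

lemma det_mem_maximalIdeal_of_entries (P : M2 A) (h : ∀ i j, P i j ∈ maximalIdeal A) :
    P.det ∈ maximalIdeal A := by
  rw [Matrix.det_fin_two]
  exact Ideal.sub_mem _ (Ideal.mul_mem_left _ _ (h 1 1)) (Ideal.mul_mem_left _ _ (h 1 0))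

lemma exists_isUnit_entry (P : M2 A) (hP : IsUnit P.det) : ∃ i j, IsUnit (P i j) := by
  by_contra h
  push Not at h
  have hm : ∀ i j, P i j ∈ maximalIdeal A := fun i j => by
    rw [mem_maximalIdeal, mem_nonunits_iff]; exact h i j
  exact (mem_nonunits_iff.mp ((mem_maximalIdeal _).mp (det_mem_maximalIdeal_of_entries P hm))) hP

omit [IsLocalRing A] in
/-- Two families that are conjugate modulo `m^k` and `m^n` (`k ≤ n`): the conjugators agree up to a
scalar modulo `m^k`. -/
lemma conjugator_unique_mod {G : Type*} (r r' : G → M2 A)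
    (hspan : Submodule.span A (Set.range r) = ⊤) (J : Ideal A) (P P' : (M2 A)ˣ)
    (hP : ∀ g, redMat J ((P : M2 A) * r g) = redMat J (r' g * (P : M2 A)))
    (hP' : ∀ g, redMat J ((P' : M2 A) * r g) = redMat J (r' g * (P' : M2 A))) :
    ∃ c : A, redMat J (P' : M2 A) = redMat J (c • (P : M2 A)) := by
  set Pi : M2 A := ((P⁻¹ : (M2 A)ˣ) : M2 A) with hPi
  have hPiP : Pi * (P : M2 A) = 1 := Units.inv_mul P
  have hPPi : (P : M2 A) * Pi = 1 := Units.mul_inv P
  set Y : M2 A := Pi * (P' : M2 A) with hYdef
  have h3 : ∀ g, redMat J (r g * Pi) = redMat J (Pi * r' g) := by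
    intro g
    have e1 : r g * Pi = Pi * ((P : M2 A) * r g) * Pi := by
      rw [← mul_assoc Pi, hPiP, one_mul]
    have e2 : Pi * (r' g * (P : M2 A)) * Pi = Pi * r' g := by
      rw [mul_assoc, mul_assoc, hPPi, mul_one]
    rw [e1, map_mul, map_mul, hP g, ← map_mul, ← map_mul, e2]
  have hY : ∀ g, redMat J (Y * r g) = redMat J (r g * Y) := by
    intro g
    calc redMat J (Y * r g) = redMat J Pi * redMat J ((P' : M2 A) * r g) := by
          rw [← map_mul, hYdef, mul_assoc]
      _ = redMat J Pi * redMat J (r' g * (P' : M2 A)) := by rw [hP' g]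
      _ = redMat J (Pi * r' g) * redMat J (P' : M2 A) := by
          rw [← map_mul, ← map_mul, mul_assoc]
      _ = redMat J (r g * Pi) * redMat J (P' : M2 A) := by rw [h3 g]
      _ = redMat J (r g * Y) := by rw [← map_mul, hYdef, mul_assoc]
  obtain ⟨c, hc⟩ := schur_mod r hspan J Y hY
  refine ⟨c, ?_⟩
  have e : (P' : M2 A) = (P : M2 A) * Y := by
    rw [hYdef, ← mul_assoc, hPPi, one_mul]
  rw [e, map_mul, hc, ← map_mul, smul_eq_mul_scalar]

/-- Core of piece H: conjugate modulo every power of the maximal ideal implies conjugate. -/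
theorem conj_of_conj_mod_pow_aux {G : Type*} [IsAdicComplete (maximalIdeal A) A]
    (r r' : G → M2 A) (hspan : Submodule.span A (Set.range r) = ⊤)
    (h : ∀ n : ℕ, ∃ P : (M2 A)ˣ, ∀ g,
      redMat (maximalIdeal A ^ n) ((P : M2 A) * r g) =
        redMat (maximalIdeal A ^ n) (r' g * (P : M2 A))) :
    ∃ P : (M2 A)ˣ, ∀ g, (P : M2 A) * r g = r' g * (P : M2 A) := by
  classical
  choose P hP using h
  -- Claim A
  have claimA : ∀ k n, k ≤ n → ∃ c : A, redMat (maximalIdeal A ^ k) (P n : M2 A) =
      redMat (maximalIdeal A ^ k) (c • (P k : M2 A)) := by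
    intro k n hkn
    have hle : maximalIdeal A ^ n ≤ maximalIdeal A ^ k := Ideal.pow_le_pow_right hkn
    exact conjugator_unique_mod r r' hspan _ (P k) (P n) (hP k)
      (fun g => redMat_eq_of_le hle (hP n g))
  have hdetP : ∀ n, IsUnit (P n : M2 A).det := fun n =>
    (Matrix.isUnit_iff_isUnit_det _).mp (P n).isUnit
  obtain ⟨i0, j0, hu1⟩ := exists_isUnit_entry (P 1 : M2 A) (hdetP 1)
  -- the chosen entry is a unit at every level `n ≥ 1`
  have hunit : ∀ n, 1 ≤ n → IsUnit ((P n : M2 A) i0 j0) := by
    intro n hn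
    obtain ⟨c, hc⟩ := claimA 1 n hn
    rw [redMat_eq_iff] at hc
    have hc' : ∀ i j, (P n : M2 A) i j - c * (P 1 : M2 A) i j ∈ maximalIdeal A := by
      intro i j
      have := hc i j
      rwa [pow_one, Matrix.smul_apply, smul_eq_mul] at this
    have hcu : IsUnit c := by
      by_contra hcn
      have hcm : c ∈ maximalIdeal A := (mem_maximalIdeal c).mpr (mem_nonunits_iff.mpr hcn)
      have hall : ∀ i j, (P n : M2 A) i j ∈ maximalIdeal A := fun i j => by
        have := Ideal.add_mem _ (hc' i j) (Ideal.mul_mem_right ((P 1 : M2 A) i j) _ hcm)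
        simpa using this
      exact (mem_nonunits_iff.mp ((mem_maximalIdeal _).mp
        (det_mem_maximalIdeal_of_entries _ hall))) (hdetP n)
    rw [← notMem_maximalIdeal]
    intro hmem
    have h1 : c * (P 1 : M2 A) i0 j0 ∈ maximalIdeal A := by
      have := Ideal.sub_mem _ hmem (hc' i0 j0)
      simpa using this
    exact (notMem_maximalIdeal.mpr (hcu.mul hu1)) h1
  -- normalised conjugators
  set u : ℕ → A := fun n => (P n : M2 A) i0 j0 with hu
  set Q : ℕ → M2 A := fun n => Ring.inverse (u n) • (P n : M2 A) with hQ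
  have hQconj : ∀ n g, redMat (maximalIdeal A ^ n) (Q n * r g) =
      redMat (maximalIdeal A ^ n) (r' g * Q n) := by
    intro n g
    have := hP n g
    rw [redMat_eq_iff] at this ⊢
    intro i j
    have h2 := Ideal.mul_mem_left _ (Ring.inverse (u n)) (this i j)
    have e : (Q n * r g) i j - (r' g * Q n) i j =
        Ring.inverse (u n) * (((P n : M2 A) * r g) i j - (r' g * (P n : M2 A)) i j) := by
      simp only [hQ, Matrix.smul_mul, Matrix.mul_smul, Matrix.smul_apply, smul_eq_mul]
      ring
    rw [e]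
    exact h2
  have hcompat : ∀ k n, 1 ≤ k → k ≤ n → redMat (maximalIdeal A ^ k) (Q n) =
      redMat (maximalIdeal A ^ k) (Q k) := by
    intro k n hk hkn
    obtain ⟨c, hc⟩ := claimA k n hkn
    rw [redMat_eq_iff] at hc ⊢
    have hun := hunit n (hk.trans hkn)
    have huk := hunit k hk
    have h0 := hc i0 j0
    rw [Matrix.smul_apply, smul_eq_mul] at h0
    -- `h0 : u n - c * u k ∈ m^k`
    intro i j
    have e : Q n i j - Q k i j =
        Ring.inverse (u n) * ((P n : M2 A) i j - (c • (P k : M2 A)) i j) -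
          Ring.inverse (u n) * Ring.inverse (u k) * (P k : M2 A) i j *
            ((P n : M2 A) i0 j0 - c * (P k : M2 A) i0 j0) := by
      have e1 : u n * Ring.inverse (u n) = 1 := Ring.mul_inverse_cancel _ hun
      have e2 : u k * Ring.inverse (u k) = 1 := Ring.mul_inverse_cancel _ huk
      simp only [hQ, Matrix.smul_apply, smul_eq_mul]
      have e3 : (P n : M2 A) i0 j0 = u n := rfl
      have e4 : (P k : M2 A) i0 j0 = u k := rfl
      rw [e3, e4]
      linear_combination (Ring.inverse (u k) * (P k : M2 A) i j) * e1 -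
        (Ring.inverse (u n) * c * (P k : M2 A) i j) * e2
    rw [e]
    exact Ideal.sub_mem _ (Ideal.mul_mem_left _ _ (hc i j)) (Ideal.mul_mem_left _ _ h0)
  -- the limit
  have hex : ∀ i j, ∃ L : A, ∀ n, Q (n + 1) i j ≡ L
      [SMOD (maximalIdeal A ^ n • ⊤ : Submodule A A)] := by
    intro i j
    refine IsPrecomplete.prec (inferInstance : IsPrecomplete (maximalIdeal A) A)
      (f := fun n => Q (n + 1) i j) ?_
    intro a b hab
    rw [SModEq.sub_mem, smul_eq_mul, Ideal.mul_top]
    have h1 := hcompat (a + 1) (b + 1) (by omega) (by omega)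
    rw [redMat_eq_iff] at h1
    have h2 := Ideal.pow_le_pow_right (I := maximalIdeal A) (Nat.le_succ a) (h1 i j)
    have h3 := Ideal.neg_mem_iff _ |>.mpr h2
    simpa using h3
  choose L hL using hex
  set Qinf : M2 A := Matrix.of L with hQinf
  have hQinfn : ∀ n, redMat (maximalIdeal A ^ n) Qinf = redMat (maximalIdeal A ^ n) (Q (n + 1)) := by
    intro n
    rw [redMat_eq_iff]
    intro i j
    have := hL i j n
    rw [SModEq.sub_mem, smul_eq_mul, Ideal.mul_top] at this
    have h3 := Ideal.neg_mem_iff _ |>.mpr this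
    simpa [hQinf] using h3
  have hconj : ∀ g, Qinf * r g = r' g * Qinf := by
    intro g
    have key : ∀ n, redMat (maximalIdeal A ^ n) (Qinf * r g) =
        redMat (maximalIdeal A ^ n) (r' g * Qinf) := by
      intro n
      have hle : maximalIdeal A ^ (n + 1) ≤ maximalIdeal A ^ n :=
        Ideal.pow_le_pow_right (Nat.le_succ n)
      rw [map_mul, map_mul, hQinfn n, ← map_mul, ← map_mul]
      exact redMat_eq_of_le hle (hQconj (n + 1) g)
    ext i j
    rw [← sub_eq_zero]
    refine IsHausdorff.haus (inferInstance : IsHausdorff (maximalIdeal A) A) _ fun n => ?_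
    rw [SModEq.zero, smul_eq_mul, Ideal.mul_top]
    exact (redMat_eq_iff _ _ _).mp (key n) i j
  have hdet : IsUnit Qinf.det := by
    rw [← notMem_maximalIdeal]
    intro hmem
    have h1 := hQinfn 1
    have h2 : Ideal.Quotient.mk (maximalIdeal A ^ 1) Qinf.det =
        Ideal.Quotient.mk (maximalIdeal A ^ 1) (Q 2).det := by
      rw [RingHom.map_det, RingHom.map_det]
      exact congrArg Matrix.det h1
    rw [Ideal.Quotient.eq, pow_one] at h2
    have h3 : (Q 2).det ∈ maximalIdeal A := by
      have := Ideal.sub_mem _ hmem h2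
      simpa using this
    have h4 : IsUnit (Q 2).det := by
      simp only [hQ, Matrix.det_smul, Fintype.card_fin]
      exact (((hunit 2 (by omega)).ringInverse).pow 2).mul (hdetP 2)
    exact (notMem_maximalIdeal.mpr h4) h3
  exact ⟨((Matrix.isUnit_iff_isUnit_det _).mpr hdet).unit, hconj⟩

end Main

end Fermat.Agent.S53lib
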