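/-
S53 piece H (helper12), part 2: from the universal property for Artinian test algebras to the
universal property for complete Noetherian local algebras.
-/
import Mathlib
import Fermat.Agent.S53lib.Defs
import Fermat.Agent.S53lib.Dict
import Fermat.Agent.S53lib.Burnside
import Fermat.Agent.S53lib.Schur
import Fermat.Agent.S53lib.TestAlg
import Fermat.Agent.S53lib.Complete

set_option autoImplicit false

noncomputable section

namespace Fermat.Agent.S53lib

open IsLocalRing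

section Dictionary

variable {A B : Type} [CommRing A] [IsLocalRing A] [CommRing B] [IsLocalRing B]

/-- If `X ≃ ofMat r` then `X ⊗ B ≃ ofMat (φ ∘ r)`. -/
lemma bc_isEquiv_ofMat (X : GaloisRepAdic A) (r : Gal →* M2 A) (h : MatCont A r)
    (e : (ofMat r h).IsEquiv X) (φ : A →+* B) (hφ : IsLocalHom φ)
    (h' : MatCont B (mapMat φ r)) :
    (X.baseChangeAlong φ hφ).IsEquiv (ofMat (mapMat φ r) h') := by
  obtain ⟨e⟩ := e
  exact ⟨(e.symm.baseChangeAlong φ hφ).trans (ofMatBaseChangeEquiv φ hφ r h h')⟩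

/-- Matrix criterion for `X ⊗_φ B ≃ Y`. -/
lemma bc_isEquiv_iff_conj (X : GaloisRepAdic A) (rX : Gal →* M2 A) (hX : MatCont A rX)
    (eX : (ofMat rX hX).IsEquiv X) (Y : GaloisRepAdic B) (rY : Gal →* M2 B) (hY : MatCont B rY)
    (eY : (ofMat rY hY).IsEquiv Y) (φ : A →+* B) (hφ : IsLocalHom φ) :
    (X.baseChangeAlong φ hφ).IsEquiv Y ↔ ∃ P : (M2 B)ˣ, rY = conjMat P (mapMat φ rX) := by
  have h' : MatCont B (mapMat φ rX) := hX.map φ
  have e1 := bc_isEquiv_ofMat X rX hX eX φ hφ h'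
  rw [← ofMat_isEquiv_iff (mapMat φ rX) rY h' hY]
  constructor
  · intro h
    obtain ⟨a⟩ := e1
    obtain ⟨b⟩ := h
    obtain ⟨c⟩ := eY
    exact ⟨a.symm.trans (b.trans c.symm)⟩
  · intro h
    obtain ⟨a⟩ := e1
    obtain ⟨b⟩ := h
    obtain ⟨c⟩ := eY
    exact ⟨a.trans (b.trans c)⟩

end Dictionary

section Quot

variable (A : Type) [CommRing A] [IsLocalRing A]

lemma maximalIdeal_pow_succ_ne_top (n : ℕ) : maximalIdeal A ^ (n + 1) ≠ ⊤ := by
  intro h
  have h1 : maximalIdeal A ^ (n + 1) ≤ maximalIdeal A := Ideal.pow_le_self (Nat.succ_ne_zero n)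
  rw [h] at h1
  exact (maximalIdeal.isMaximal A).ne_top (top_le_iff.mp h1)

instance instNontrivialQuotPowSucc (n : ℕ) : Nontrivial (A ⧸ maximalIdeal A ^ (n + 1)) :=
  Ideal.Quotient.nontrivial_iff.mpr (maximalIdeal_pow_succ_ne_top A n)

instance instIsLocalRingQuotPowSucc (n : ℕ) : IsLocalRing (A ⧸ maximalIdeal A ^ (n + 1)) :=
  IsLocalRing.of_surjective' (Ideal.Quotient.mk _) Ideal.Quotient.mk_surjective

instance instIsLocalHomMkPowSucc (n : ℕ) :
    IsLocalHom (Ideal.Quotient.mk (maximalIdeal A ^ (n + 1))) :=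
  IsLocalHom.of_surjective _ Ideal.Quotient.mk_surjective

lemma maximalIdeal_quot_pow_succ (n : ℕ) :
    maximalIdeal (A ⧸ maximalIdeal A ^ (n + 1)) =
      (maximalIdeal A).map (Ideal.Quotient.mk (maximalIdeal A ^ (n + 1))) :=
  (IsLocalRing.map_maximalIdeal_of_surjective _ Ideal.Quotient.mk_surjective).symm

lemma maximalIdeal_quot_pow_succ_pow (n : ℕ) :
    maximalIdeal (A ⧸ maximalIdeal A ^ (n + 1)) ^ (n + 1) = ⊥ := by
  rw [maximalIdeal_quot_pow_succ, ← Ideal.map_pow, Ideal.map_quotient_self]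

instance instIsArtinianRingQuotPowSucc [IsNoetherianRing A] (n : ℕ) :
    IsArtinianRing (A ⧸ maximalIdeal A ^ (n + 1)) := by
  rw [isArtinianRing_iff_isNilpotent_maximalIdeal]
  exact ⟨n + 1, maximalIdeal_quot_pow_succ_pow A n⟩

end Quot

section QuotAlg

variable (𝒪 : Type) [CommRing 𝒪] [IsLocalRing 𝒪]
variable (A : Type) [CommRing A] [IsLocalRing A] [Algebra 𝒪 A]

instance instIsLocalHomAlgebraMapQuotPowSucc [IsLocalHom (algebraMap 𝒪 A)] (n : ℕ) :
    IsLocalHom (algebraMap 𝒪 (A ⧸ maximalIdeal A ^ (n + 1))) := by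
  refine ⟨fun a ha => ?_⟩
  have h1 : algebraMap 𝒪 (A ⧸ maximalIdeal A ^ (n + 1)) a =
      Ideal.Quotient.mk (maximalIdeal A ^ (n + 1)) (algebraMap 𝒪 A a) := rfl
  rw [h1] at ha
  exact isUnit_of_map_unit (algebraMap 𝒪 A) a
    (isUnit_of_map_unit (Ideal.Quotient.mk (maximalIdeal A ^ (n + 1))) _ ha)

variable {𝒪 A}

lemma residue_surjective_quot_pow_succ
    (hA : Function.Surjective (residue A ∘ algebraMap 𝒪 A)) (n : ℕ) :
    Function.Surjective (residue (A ⧸ maximalIdeal A ^ (n + 1)) ∘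
      algebraMap 𝒪 (A ⧸ maximalIdeal A ^ (n + 1))) := by
  intro y
  obtain ⟨b, rfl⟩ := IsLocalRing.residue_surjective y
  obtain ⟨a, rfl⟩ := Ideal.Quotient.mk_surjective b
  obtain ⟨o, ho⟩ := exists_sub_algebraMap_mem_maximalIdeal hA a
  refine ⟨o, ?_⟩
  rw [Function.comp_apply, eq_comm, ← sub_eq_zero, ← map_sub, IsLocalRing.residue_eq_zero_iff,
    maximalIdeal_quot_pow_succ]
  have h1 : Ideal.Quotient.mk (maximalIdeal A ^ (n + 1)) a -
      algebraMap 𝒪 (A ⧸ maximalIdeal A ^ (n + 1)) o =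
      Ideal.Quotient.mk (maximalIdeal A ^ (n + 1)) (a - algebraMap 𝒪 A o) := by
    rw [map_sub]; rfl
  rw [h1]
  exact Ideal.mem_map_of_mem _ ho

lemma isArtinianTestAlgebra_quot_pow_succ [IsNoetherianRing A] [IsLocalHom (algebraMap 𝒪 A)]
    (hA : Function.Surjective (residue A ∘ algebraMap 𝒪 A)) (n : ℕ) :
    GaloisRep.IsArtinianTestAlgebra 𝒪 (A ⧸ maximalIdeal A ^ (n + 1)) :=
  ⟨inferInstance, residue_surjective_quot_pow_succ hA n, inferInstance⟩

end QuotAlg

section Strict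

variable {𝒪 : Type} [CommRing 𝒪] [IsLocalRing 𝒪]
variable {A : Type} [CommRing A] [IsLocalRing A] [Algebra 𝒪 A]
variable {B : Type} [CommRing B] [IsLocalRing B] [Algebra 𝒪 B]

lemma residueField_map_algebraMap_comp [IsLocalHom (algebraMap 𝒪 A)]
    [IsLocalHom (algebraMap 𝒪 B)] (f : A →ₐ[𝒪] B) [IsLocalHom (f : A →+* B)] :
    ResidueField.map (algebraMap 𝒪 B) =
      (ResidueField.map (f : A →+* B)).comp (ResidueField.map (algebraMap 𝒪 A)) := by
  ext x
  obtain ⟨o, rfl⟩ := IsLocalRing.residue_surjective x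
  rw [RingHom.comp_apply, ResidueField.map_residue, ResidueField.map_residue,
    ResidueField.map_residue]
  congr 1
  exact (f.commutes o).symm

lemma isStrictLift_mapMat_algHom [IsLocalHom (algebraMap 𝒪 A)]
    [IsLocalHom (algebraMap 𝒪 B)] (rb : Gal →* M2 (ResidueField 𝒪)) (f : A →ₐ[𝒪] B)
    [IsLocalHom (f : A →+* B)] (r : Gal →* M2 A)
    (hs : IsStrictLift (ResidueField.map (algebraMap 𝒪 A)) rb r) :
    IsStrictLift (ResidueField.map (algebraMap 𝒪 B)) rb (mapMat (f : A →+* B) r) := by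
  unfold IsStrictLift at hs ⊢
  ext σ i j
  have h1 := congrFun (congrFun (DFunLike.congr_fun hs σ) i) j
  rw [mapMat_apply, mapMat_apply] at h1
  rw [mapMat_apply, mapMat_apply, mapMat_apply, residueField_map_algebraMap_comp f,
    RingHom.comp_apply, ← h1, ResidueField.map_residue]

/-- A strict lift of an absolutely irreducible residual representation spans the matrix algebra. -/
lemma span_eq_top_of_strict [IsLocalHom (algebraMap 𝒪 A)]
    (hA : Function.Surjective (residue A ∘ algebraMap 𝒪 A))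
    (ρbar : ResidualGaloisRep (ResidueField 𝒪)) (habs : ρbar.IsAbsolutelyIrreducible)
    (r : Gal →* M2 A)
    (hs : IsStrictLift (ResidueField.map (algebraMap 𝒪 A)) (rbarMat ρbar) r) :
    Submodule.span A (Set.range r) = ⊤ := by
  apply span_eq_top_of_residue_span (fun g => r g)
  have hb : Submodule.span (ResidueField 𝒪) (Set.range (rbarMat ρbar)) = ⊤ :=
    burnside_two (rbarMat ρbar) (absIrr_matrix ρbar habs)
  set ι := ResidueField.map (algebraMap 𝒪 A) with hι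
  have hιsurj : Function.Surjective ι := residueField_map_surjective inferInstance hA
  rw [eq_top_iff]
  intro M _
  -- lift `M` entrywise
  choose f hf using hιsurj
  let N : M2 (ResidueField 𝒪) := Matrix.of fun i j => f (M i j)
  have hN : ι.mapMatrix N = M := by
    ext i j
    simp [N, hf]
  have hNmem : N ∈ Submodule.span (ResidueField 𝒪) (Set.range (rbarMat ρbar)) := by
    rw [hb]; trivial
  have key : ∀ Y ∈ Submodule.span (ResidueField 𝒪) (Set.range (rbarMat ρbar)),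
      ι.mapMatrix Y ∈ Submodule.span (ResidueField A)
        (Set.range fun g => (r g).map (residue A)) := by
    intro Y hY
    induction hY using Submodule.span_induction with
    | mem Y hY =>
      obtain ⟨g, rfl⟩ := hY
      refine Submodule.subset_span ⟨g, ?_⟩
      have := DFunLike.congr_fun hs g
      exact this
    | zero => rw [map_zero]; exact Submodule.zero_mem _
    | add Y₁ Y₂ _ _ h₁ h₂ => rw [map_add]; exact Submodule.add_mem _ h₁ h₂
    | smul c Y _ h =>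
      have : ι.mapMatrix (c • Y) = ι c • ι.mapMatrix Y := by
        ext i j
        simp
      rw [this]
      exact Submodule.smul_mem _ _ h
  rw [← hN]
  exact key N hNmem

end Strict

section ConjQuot

variable {A : Type} [CommRing A] [IsLocalRing A]

lemma mapMat_mapMat {A B C : Type} [CommRing A] [CommRing B] [CommRing C] (φ : A →+* B)
    (ψ : B →+* C) (r : Gal →* M2 A) : mapMat ψ (mapMat φ r) = mapMat (ψ.comp φ) r := by
  ext σ i j
  rfl

omit [IsLocalRing A] in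
lemma exists_unit_lift_quot (I : Ideal A) [IsLocalHom (Ideal.Quotient.mk I)]
    (Q : (M2 (A ⧸ I))ˣ) : ∃ P : (M2 A)ˣ, redMat I (P : M2 A) = (Q : M2 (A ⧸ I)) := by
  obtain ⟨P₀, hP₀⟩ := redMat_surjective I (Q : M2 (A ⧸ I))
  have h1 : Ideal.Quotient.mk I P₀.det = (Q : M2 (A ⧸ I)).det := by
    rw [RingHom.map_det]
    exact congrArg Matrix.det hP₀
  have h2 : IsUnit (Q : M2 (A ⧸ I)).det := (Matrix.isUnit_iff_isUnit_det _).mp Q.isUnit
  rw [← h1] at h2
  have h3 : IsUnit P₀.det := isUnit_of_map_unit (Ideal.Quotient.mk I) _ h2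
  exact ⟨((Matrix.isUnit_iff_isUnit_det _).mpr h3).unit, hP₀⟩

lemma conjMat_eq_iff {B : Type} [CommRing B] (P : (M2 B)ˣ) (r r' : Gal →* M2 B) :
    r' = conjMat P r ↔ ∀ g, (P : M2 B) * r g = r' g * (P : M2 B) := by
  constructor
  · rintro rfl g
    rw [conjMat_apply, mul_assoc, Units.inv_mul, mul_one]
  · intro h
    ext1 g
    rw [conjMat_apply, h g, mul_assoc, Units.mul_inv, mul_one]

/-- **Piece H, matrix form.** Two matrix representations over a complete local ring which are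
conjugate modulo every power of the maximal ideal are conjugate. -/
theorem conj_of_conj_mod_pow [IsAdicComplete (maximalIdeal A) A] (r r' : Gal →* M2 A)
    (hspan : Submodule.span A (Set.range r) = ⊤)
    (h : ∀ n : ℕ, ∃ P : (M2 (A ⧸ maximalIdeal A ^ (n + 1)))ˣ,
      mapMat (Ideal.Quotient.mk (maximalIdeal A ^ (n + 1))) r' =
        conjMat P (mapMat (Ideal.Quotient.mk (maximalIdeal A ^ (n + 1))) r)) :
    ∃ P : (M2 A)ˣ, r' = conjMat P r := by
  have haux : ∀ n : ℕ, ∃ P : (M2 A)ˣ, ∀ g,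
      redMat (maximalIdeal A ^ n) ((P : M2 A) * r g) =
        redMat (maximalIdeal A ^ n) (r' g * (P : M2 A)) := by
    intro n
    obtain ⟨Q, hQ⟩ := h n
    obtain ⟨P, hP⟩ := exists_unit_lift_quot (maximalIdeal A ^ (n + 1)) Q
    refine ⟨P, fun g => ?_⟩
    refine redMat_eq_of_le (Ideal.pow_le_pow_right (Nat.le_succ n)) ?_
    have h1 := (conjMat_eq_iff Q _ _).mp hQ g
    rw [map_mul, map_mul, hP]
    exact h1
  obtain ⟨P, hP⟩ := conj_of_conj_mod_pow_aux (fun g => r g) (fun g => r' g) hspan haux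
  exact ⟨P, (conjMat_eq_iff P r r').mpr hP⟩

end ConjQuot

section Univ

variable (𝒪 : Type) [CommRing 𝒪] [IsDomain 𝒪] [IsDiscreteValuationRing 𝒪]
  [IsAdicComplete (IsLocalRing.maximalIdeal 𝒪) 𝒪]

/-- **Piece H.** The universal property for Artinian test algebras implies the universal property
for complete Noetherian local algebras (the `universal` field of `DeformationRingData`). -/
theorem universal_of_artinian
    (ρbar : ResidualGaloisRep (IsLocalRing.ResidueField 𝒪))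
    (𝒟 : ∀ ⦃A : Type⦄ [CommRing A] [IsLocalRing A] [Algebra 𝒪 A], GaloisRepAdic A → Prop)
    (habs : ρbar.IsAbsolutelyIrreducible) (h𝒟 : GaloisRep.IsDeformationCondition 𝒪 𝒟)
    (R : Type) [CommRing R] [IsLocalRing R] [Algebra 𝒪 R] [IsLocalHom (algebraMap 𝒪 R)]
    (ρR : GaloisRepAdic R)
    (hresR : ρR.residual.IsEquiv
      (ρbar.baseChangeAlong (IsLocalRing.ResidueField.map (algebraMap 𝒪 R))))
    (hArt : ∀ (B : Type) [CommRing B] [IsLocalRing B] [Algebra 𝒪 B]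
      [IsLocalHom (algebraMap 𝒪 B)] [IsArtinianRing B],
      Function.Surjective (IsLocalRing.residue B ∘ algebraMap 𝒪 B) →
      ∀ ρB : GaloisRepAdic B, 𝒟 ρB →
        ρB.residual.IsEquiv
          (ρbar.baseChangeAlong (IsLocalRing.ResidueField.map (algebraMap 𝒪 B))) →
        ∃! φ : R →ₐ[𝒪] B, ∃ hφ : IsLocalHom (φ : R →+* B),
          (ρR.baseChangeAlong (φ : R →+* B) hφ).IsEquiv ρB) :
    ∀ (A : Type) [CommRing A] [IsLocalRing A] [IsNoetherianRing A]
      [IsAdicComplete (IsLocalRing.maximalIdeal A) A] [Algebra 𝒪 A] [IsLocalHom (algebraMap 𝒪 A)],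
      Function.Surjective (IsLocalRing.residue A ∘ algebraMap 𝒪 A) →
      ∀ ρA : GaloisRepAdic A, 𝒟 ρA →
        ρA.residual.IsEquiv
          (ρbar.baseChangeAlong (IsLocalRing.ResidueField.map (algebraMap 𝒪 A))) →
        ∃! φ : R →ₐ[𝒪] A, ∃ hφ : IsLocalHom (φ : R →+* A),
          (ρR.baseChangeAlong (φ : R →+* A) hφ).IsEquiv ρA := by
  intro A _ _ _ _ _ _ hA ρA h𝒟A hresA
  -- matrix models
  obtain ⟨rA, hrA, hsA, eA⟩ :=
    exists_strict_of_residual_isEquiv (ResidueField.map (algebraMap 𝒪 A)) ρbar ρA hresA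
  obtain ⟨rR, hrR, hsR, eR⟩ :=
    exists_strict_of_residual_isEquiv (ResidueField.map (algebraMap 𝒪 R)) ρbar ρR hresR
  -- level `n` data
  have hBsurj : ∀ n, Function.Surjective (residue (A ⧸ maximalIdeal A ^ (n + 1)) ∘
      algebraMap 𝒪 (A ⧸ maximalIdeal A ^ (n + 1))) := fun n =>
    residue_surjective_quot_pow_succ hA n
  have hmkloc : ∀ n, IsLocalHom
      ((Ideal.Quotient.mkₐ 𝒪 (maximalIdeal A ^ (n + 1)) :
        A →ₐ[𝒪] A ⧸ maximalIdeal A ^ (n + 1)) : A →+* A ⧸ maximalIdeal A ^ (n + 1)) :=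
    fun n => instIsLocalHomMkPowSucc A n
  have hrB : ∀ n, MatCont (A ⧸ maximalIdeal A ^ (n + 1))
      (mapMat ((Ideal.Quotient.mkₐ 𝒪 (maximalIdeal A ^ (n + 1)) :
        A →ₐ[𝒪] A ⧸ maximalIdeal A ^ (n + 1)) : A →+* A ⧸ maximalIdeal A ^ (n + 1)) rA) :=
    fun n => haveI := hmkloc n; hrA.map _
  have eB : ∀ n, (ofMat _ (hrB n)).IsEquiv (ρA.baseChangeAlong
      ((Ideal.Quotient.mkₐ 𝒪 (maximalIdeal A ^ (n + 1)) :
        A →ₐ[𝒪] A ⧸ maximalIdeal A ^ (n + 1)) : A →+* A ⧸ maximalIdeal A ^ (n + 1))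
      (hmkloc n)) := by
    intro n
    obtain ⟨e⟩ := bc_isEquiv_ofMat ρA rA hrA eA _ (hmkloc n) (hrB n)
    exact ⟨e.symm⟩
  have h𝒟B : ∀ n, 𝒟 (ρA.baseChangeAlong
      ((Ideal.Quotient.mkₐ 𝒪 (maximalIdeal A ^ (n + 1)) :
        A →ₐ[𝒪] A ⧸ maximalIdeal A ^ (n + 1)) : A →+* A ⧸ maximalIdeal A ^ (n + 1))
      (hmkloc n)) := fun n =>
    (h𝒟.iff_forall_surjective inferInstance hA ρA).mp h𝒟A
      (isArtinianTestAlgebra_quot_pow_succ hA n) (Ideal.Quotient.mkₐ 𝒪 _) (hmkloc n)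
      (Ideal.Quotient.mkₐ_surjective 𝒪 _)
  have hresB : ∀ n, (ρA.baseChangeAlong
      ((Ideal.Quotient.mkₐ 𝒪 (maximalIdeal A ^ (n + 1)) :
        A →ₐ[𝒪] A ⧸ maximalIdeal A ^ (n + 1)) : A →+* A ⧸ maximalIdeal A ^ (n + 1))
      (hmkloc n)).residual.IsEquiv
      (ρbar.baseChangeAlong (ResidueField.map
        (algebraMap 𝒪 (A ⧸ maximalIdeal A ^ (n + 1))))) := by
    intro n
    have := hmkloc n
    have hs := isStrictLift_mapMat_algHom (rbarMat ρbar)
      (Ideal.Quotient.mkₐ 𝒪 (maximalIdeal A ^ (n + 1))) rA hsA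
    obtain ⟨e2⟩ := residual_isEquiv_of_strict _ ρbar _ (hrB n) hs
    obtain ⟨e⟩ := eB n
    exact ⟨e.symm.residual.trans e2⟩
  have hex := fun n => hArt (A ⧸ maximalIdeal A ^ (n + 1)) (hBsurj n) _ (h𝒟B n) (hresB n)
  -- matrix criterion at level `n`
  have hcrit : ∀ n (ψ : R →ₐ[𝒪] A ⧸ maximalIdeal A ^ (n + 1))
      (hψ : IsLocalHom (ψ : R →+* A ⧸ maximalIdeal A ^ (n + 1))),
      (ρR.baseChangeAlong (ψ : R →+* A ⧸ maximalIdeal A ^ (n + 1)) hψ).IsEquiv
        (ρA.baseChangeAlong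
          ((Ideal.Quotient.mkₐ 𝒪 (maximalIdeal A ^ (n + 1)) :
            A →ₐ[𝒪] A ⧸ maximalIdeal A ^ (n + 1)) : A →+* A ⧸ maximalIdeal A ^ (n + 1))
          (hmkloc n)) ↔
      ∃ P : (M2 (A ⧸ maximalIdeal A ^ (n + 1)))ˣ,
        mapMat ((Ideal.Quotient.mkₐ 𝒪 (maximalIdeal A ^ (n + 1)) :
          A →ₐ[𝒪] A ⧸ maximalIdeal A ^ (n + 1)) : A →+* A ⧸ maximalIdeal A ^ (n + 1)) rA =
          conjMat P (mapMat (ψ : R →+* A ⧸ maximalIdeal A ^ (n + 1)) rR) :=
    fun n ψ hψ => bc_isEquiv_iff_conj ρR rR hrR eR _ _ (hrB n) (eB n) _ hψ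
  have hlocal : ∀ n (ψ : R →ₐ[𝒪] A ⧸ maximalIdeal A ^ (n + 1)),
      IsLocalHom (ψ : R →+* A ⧸ maximalIdeal A ^ (n + 1)) := fun n ψ =>
    isLocalHom_of_residue_surjective (hBsurj n) ψ
  choose φ hφ huniq using fun n => (hex n)
  -- a candidate at level `n` obtained from a conjugacy is `φ n`
  have hchar : ∀ n (ψ : R →ₐ[𝒪] A ⧸ maximalIdeal A ^ (n + 1)),
      (∃ P : (M2 (A ⧸ maximalIdeal A ^ (n + 1)))ˣ,
        mapMat ((Ideal.Quotient.mkₐ 𝒪 (maximalIdeal A ^ (n + 1)) :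
          A →ₐ[𝒪] A ⧸ maximalIdeal A ^ (n + 1)) : A →+* A ⧸ maximalIdeal A ^ (n + 1)) rA =
          conjMat P (mapMat (ψ : R →+* A ⧸ maximalIdeal A ^ (n + 1)) rR)) → ψ = φ n :=
    fun n ψ hP => huniq n ψ ⟨hlocal n ψ, (hcrit n ψ (hlocal n ψ)).mpr hP⟩
  have hφP : ∀ n, ∃ P : (M2 (A ⧸ maximalIdeal A ^ (n + 1)))ˣ,
      mapMat ((Ideal.Quotient.mkₐ 𝒪 (maximalIdeal A ^ (n + 1)) :
        A →ₐ[𝒪] A ⧸ maximalIdeal A ^ (n + 1)) : A →+* A ⧸ maximalIdeal A ^ (n + 1)) rA =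
        conjMat P (mapMat (φ n : R →+* A ⧸ maximalIdeal A ^ (n + 1)) rR) := by
    intro n
    obtain ⟨hloc, he⟩ := hφ n
    exact (hcrit n (φ n) hloc).mp he
  -- compatibility of the `φ n`
  have hcompat : ∀ a b (hab : a ≤ b),
      (Ideal.Quotient.factorₐ 𝒪 (Ideal.pow_le_pow_right (I := maximalIdeal A)
        (Nat.succ_le_succ hab))).comp (φ b) = φ a := by
    intro a b hab
    apply hchar
    obtain ⟨P, hP⟩ := hφP b
    set τ := Ideal.Quotient.factorₐ 𝒪 (Ideal.pow_le_pow_right (I := maximalIdeal A)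
        (Nat.succ_le_succ hab)) with hτ
    refine ⟨Units.map ((τ : _ →+* _).mapMatrix (m := Fin 2)).toMonoidHom P, ?_⟩
    have h1 := congrArg (mapMat (τ : (A ⧸ maximalIdeal A ^ (b + 1)) →+*
      (A ⧸ maximalIdeal A ^ (a + 1)))) hP
    rw [mapMat_conjMat, mapMat_mapMat, mapMat_mapMat] at h1
    exact h1
  -- the lift
  let f : (n : ℕ) → R →ₐ[𝒪] A ⧸ maximalIdeal A ^ n := fun n =>
    (Ideal.Quotient.factorₐ 𝒪 (Ideal.pow_le_pow_right (I := maximalIdeal A)
      (Nat.le_succ n))).comp (φ n)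
  have hf : ∀ {a b : ℕ} (hle : a ≤ b),
      (Ideal.Quotient.factorₐ 𝒪 (Ideal.pow_le_pow_right hle)).comp (f b) = f a := by
    intro a b hle
    simp only [f]
    rw [← hcompat a b hle, ← AlgHom.comp_assoc, ← AlgHom.comp_assoc,
      Ideal.Quotient.factorₐ_comp, Ideal.Quotient.factorₐ_comp]
  let Φ : R →ₐ[𝒪] A := IsAdicComplete.liftAlgHom (maximalIdeal A) f hf
  have hΦ : ∀ n, (Ideal.Quotient.mkₐ 𝒪 (maximalIdeal A ^ (n + 1))).comp Φ = φ n := by
    intro n
    ext x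
    have h1 := IsAdicComplete.mk_liftAlgHom (maximalIdeal A) f hf (n + 1) x
    have h2 : f (n + 1) x = φ n x := by
      have := DFunLike.congr_fun (hcompat n (n + 1) (Nat.le_succ n)) x
      simp only [f]
      exact this
    rw [AlgHom.comp_apply]
    exact h1.trans h2
  have hΦloc : IsLocalHom (Φ : R →+* A) := isLocalHom_of_residue_surjective hA Φ
  refine ⟨Φ, ⟨hΦloc, ?_⟩, ?_⟩
  · -- existence
    rw [bc_isEquiv_iff_conj ρR rR hrR eR ρA rA hrA eA _ hΦloc]
    have := hΦloc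
    have hsΦ := isStrictLift_mapMat_algHom (rbarMat ρbar) Φ rR hsR
    have hspan := span_eq_top_of_strict hA ρbar habs _ hsΦ
    refine conj_of_conj_mod_pow _ _ hspan fun n => ?_
    obtain ⟨P, hP⟩ := hφP n
    refine ⟨P, ?_⟩
    rw [mapMat_mapMat]
    have h3 : (Ideal.Quotient.mk (maximalIdeal A ^ (n + 1))).comp (Φ : R →+* A) =
        (φ n : R →+* A ⧸ maximalIdeal A ^ (n + 1)) := by
      rw [← hΦ n]
      rfl
    rw [h3]
    exact hP
  · -- uniqueness
    rintro Φ' ⟨hΦ'loc, hΦ'e⟩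
    have hP' := (bc_isEquiv_iff_conj ρR rR hrR eR ρA rA hrA eA _ hΦ'loc).mp hΦ'e
    obtain ⟨P', hP'⟩ := hP'
    have hlev : ∀ n, (Ideal.Quotient.mkₐ 𝒪 (maximalIdeal A ^ (n + 1))).comp Φ' = φ n := by
      intro n
      apply hchar
      refine ⟨Units.map (((Ideal.Quotient.mk (maximalIdeal A ^ (n + 1))).mapMatrix
        (m := Fin 2)).toMonoidHom) P', ?_⟩
      have h1 := congrArg (mapMat (Ideal.Quotient.mk (maximalIdeal A ^ (n + 1)))) hP'
      rw [mapMat_conjMat, mapMat_mapMat] at h1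
      exact h1
    ext x
    rw [← sub_eq_zero]
    refine IsHausdorff.haus (inferInstance : IsHausdorff (maximalIdeal A) A) _ fun n => ?_
    rw [SModEq.zero, smul_eq_mul, Ideal.mul_top]
    have h1 := DFunLike.congr_fun (hlev n) x
    have h2 := DFunLike.congr_fun (hΦ n) x
    have h3 : Ideal.Quotient.mk (maximalIdeal A ^ (n + 1)) (Φ' x) =
        Ideal.Quotient.mk (maximalIdeal A ^ (n + 1)) (Φ x) := h1.trans h2.symm
    rw [Ideal.Quotient.eq] at h3
    exact Ideal.pow_le_pow_right (Nat.le_succ n) h3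

end Univ

end Fermat.Agent.S53lib
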