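/-
S53 piece G5 (helper20): the limit representation over `R = lim A n`.
-/
import Mathlib
import Fermat.Agent.S53lib.Defs
import Fermat.Agent.S53lib.Dict
import Fermat.Agent.S53lib.Adm
import Fermat.Agent.S53lib.TangentInj

set_option autoImplicit false

noncomputable section

namespace Fermat.Agent.S53lib

open IsLocalRing

section LimitRep

variable {𝒪 : Type} [CommRing 𝒪] [IsLocalRing 𝒪]
  (A : ℕ → Type) [∀ n, CommRing (A n)] [∀ n, Algebra 𝒪 (A n)]
  (π : ∀ n, A (n + 1) →ₐ[𝒪] A n)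
  (r : ∀ n, Gal →* M2 (A n))
  (R : Type) [CommRing R] [Algebra 𝒪 R]
  (p : ∀ n, R →ₐ[𝒪] A n)

omit [IsLocalRing 𝒪] in
lemma compat_entry (hcompat : ∀ n, mapMat (π n : A (n + 1) →+* A n) (r (n + 1)) = r n)
    (σ : Gal) (i j : Fin 2) (n : ℕ) : π n (r (n + 1) σ i j) = r n σ i j := by
  have := congrArg (fun s : Gal →* M2 (A n) => s σ i j) (hcompat n)
  simpa using this

/-- The entrywise limit of a compatible family of matrix representations. -/
def limitMatFun (huniq : ∀ a : ∀ n, A n, (∀ n, π n (a (n + 1)) = a n) → ∃! x : R, ∀ n, p n x = a n)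
    (hcompat : ∀ n, mapMat (π n : A (n + 1) →+* A n) (r (n + 1)) = r n) (σ : Gal) : M2 R :=
  Matrix.of fun i j =>
    (huniq (fun n => r n σ i j) (compat_entry A π r hcompat σ i j)).exists.choose

omit [IsLocalRing 𝒪] in
lemma limitMatFun_spec
    (huniq : ∀ a : ∀ n, A n, (∀ n, π n (a (n + 1)) = a n) → ∃! x : R, ∀ n, p n x = a n)
    (hcompat : ∀ n, mapMat (π n : A (n + 1) →+* A n) (r (n + 1)) = r n) (σ : Gal) (n : ℕ)
    (i j : Fin 2) : p n (limitMatFun A π r R p huniq hcompat σ i j) = r n σ i j :=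
  (huniq (fun n => r n σ i j) (compat_entry A π r hcompat σ i j)).exists.choose_spec n

omit [IsLocalRing 𝒪] in
lemma eq_of_forall_p_eq
    (huniq : ∀ a : ∀ n, A n, (∀ n, π n (a (n + 1)) = a n) → ∃! x : R, ∀ n, p n x = a n)
    (hπp : ∀ n, (π n).comp (p (n + 1)) = p n)
    {x y : R} (h : ∀ n, p n x = p n y) : x = y := by
  have hc : ∀ n, π n (p (n + 1) x) = p n x := fun n => by
    rw [← AlgHom.comp_apply, hπp]
  obtain ⟨z, _, hz⟩ := huniq (fun n => p n x) hc
  rw [hz x (fun _ => rfl), hz y (fun n => (h n).symm)]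

omit [IsLocalRing 𝒪] in
lemma limitMatFun_map
    (huniq : ∀ a : ∀ n, A n, (∀ n, π n (a (n + 1)) = a n) → ∃! x : R, ∀ n, p n x = a n)
    (hcompat : ∀ n, mapMat (π n : A (n + 1) →+* A n) (r (n + 1)) = r n) (σ : Gal) (n : ℕ) :
    (p n : R →+* A n).mapMatrix (limitMatFun A π r R p huniq hcompat σ) = r n σ := by
  ext i j
  exact limitMatFun_spec A π r R p huniq hcompat σ n i j

omit [IsLocalRing 𝒪] in
lemma matrix_eq_of_forall_map_eq
    (huniq : ∀ a : ∀ n, A n, (∀ n, π n (a (n + 1)) = a n) → ∃! x : R, ∀ n, p n x = a n)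
    (hπp : ∀ n, (π n).comp (p (n + 1)) = p n)
    {X Y : M2 R} (h : ∀ n, (p n : R →+* A n).mapMatrix X = (p n : R →+* A n).mapMatrix Y) :
    X = Y := by
  ext i j
  apply eq_of_forall_p_eq A π R p huniq hπp
  intro n
  have := congrArg (fun M : M2 (A n) => M i j) (h n)
  simpa using this

/-- The limit representation. -/
def limitMat
    (huniq : ∀ a : ∀ n, A n, (∀ n, π n (a (n + 1)) = a n) → ∃! x : R, ∀ n, p n x = a n)
    (hπp : ∀ n, (π n).comp (p (n + 1)) = p n)
    (hcompat : ∀ n, mapMat (π n : A (n + 1) →+* A n) (r (n + 1)) = r n) : Gal →* M2 R where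
  toFun := limitMatFun A π r R p huniq hcompat
  map_one' := by
    apply matrix_eq_of_forall_map_eq A π R p huniq hπp
    intro n
    rw [limitMatFun_map, map_one, map_one]
  map_mul' σ τ := by
    apply matrix_eq_of_forall_map_eq A π R p huniq hπp
    intro n
    rw [limitMatFun_map, map_mul, map_mul, limitMatFun_map, limitMatFun_map]

omit [IsLocalRing 𝒪] in
lemma mapMat_limitMat
    (huniq : ∀ a : ∀ n, A n, (∀ n, π n (a (n + 1)) = a n) → ∃! x : R, ∀ n, p n x = a n)
    (hπp : ∀ n, (π n).comp (p (n + 1)) = p n)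
    (hcompat : ∀ n, mapMat (π n : A (n + 1) →+* A n) (r (n + 1)) = r n) (n : ℕ) :
    mapMat (p n : R →+* A n) (limitMat A π r R p huniq hπp hcompat) = r n := by
  ext1 σ
  exact limitMatFun_map A π r R p huniq hcompat σ n

end LimitRep

section Main

variable {𝒪 : Type} [CommRing 𝒪] [IsLocalRing 𝒪]

/-- In an Artinian local ring some power of the maximal ideal vanishes. -/
lemma exists_maximalIdeal_pow_succ_eq_bot (B : Type) [CommRing B] [IsLocalRing B]
    [IsArtinianRing B] : ∃ n : ℕ, maximalIdeal B ^ (n + 1) = ⊥ := by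
  have h := IsArtinianRing.isNilpotent_jacobson_bot (R := B)
  rw [IsLocalRing.jacobson_eq_maximalIdeal (⊥ : Ideal B) bot_ne_top] at h
  obtain ⟨n, hn⟩ := h
  refine ⟨n, ?_⟩
  rw [pow_succ, hn]
  simp

/-- G5. The limit representation over `R` (output of `chain_limit`). -/
theorem limitRep
    (𝒟 : ∀ ⦃A : Type⦄ [CommRing A] [IsLocalRing A] [Algebra 𝒪 A], GaloisRepAdic A → Prop)
    (h𝒟 : GaloisRep.IsDeformationCondition 𝒪 𝒟)
    (rb : Gal →* M2 (ResidueField 𝒪))
    (A : ℕ → Type) [∀ n, CommRing (A n)] [∀ n, IsLocalRing (A n)] [∀ n, Algebra 𝒪 (A n)]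
    (π : ∀ n, A (n + 1) →ₐ[𝒪] A n)
    (r : ∀ n, Gal →* M2 (A n))
    (hdefo : ∀ n, IsDefo 𝒪 𝒟 rb (r n))
    (hcompat : ∀ n, mapMat (π n : A (n + 1) →+* A n) (r (n + 1)) = r n)
    (R : Type) [CommRing R] [IsLocalRing R] [IsNoetherianRing R]
    [IsAdicComplete (maximalIdeal R) R] [Algebra 𝒪 R] [IsLocalHom (algebraMap 𝒪 R)]
    (hres : Function.Surjective (residue R ∘ algebraMap 𝒪 R))
    (p : ∀ n, R →ₐ[𝒪] A n)
    (hp : ∀ n, Function.Surjective (p n))
    (hπp : ∀ n, (π n).comp (p (n + 1)) = p n)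
    (hker : ∀ n, RingHom.ker (p n) = maximalIdeal R ^ (n + 1))
    (huniq : ∀ a : ∀ n, A n, (∀ n, π n (a (n + 1)) = a n) → ∃! x : R, ∀ n, p n x = a n) :
    ∃ (rR : Gal →* M2 R) (h : MatCont R rR),
      (∀ n, mapMat (p n : R →+* A n) rR = r n) ∧ 𝒟 (ofMat rR h) ∧
        StrictMod 𝒪 rb (maximalIdeal R) rR := by
  set rR : Gal →* M2 R := limitMat A π r R p huniq hπp hcompat with hrR
  have hmap : ∀ n, mapMat (p n : R →+* A n) rR = r n :=
    fun n => mapMat_limitMat A π r R p huniq hπp hcompat n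
  have hentry : ∀ n σ i j, p n (rR σ i j) = r n σ i j := fun n σ i j => by
    have := congrArg (fun s : Gal →* M2 (A n) => s σ i j) (hmap n)
    simpa using this
  -- continuity
  have hcont : MatCont R rR := by
    intro n
    rcases n with _ | m
    · refine ⟨⊥, inferInstance, fun σ _ i j => ?_⟩
      rw [pow_zero, Ideal.one_eq_top]
      exact Submodule.mem_top
    · obtain ⟨L, hL, h1⟩ := (hdefo m).fin
      refine ⟨L, hL, fun σ hσ i j => ?_⟩
      rw [← hker m, RingHom.mem_ker, Matrix.sub_apply, map_sub, hentry, h1 σ hσ]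
      by_cases hij : i = j
      · subst hij; simp
      · simp [hij]
  -- strictness
  have hstrict : StrictMod 𝒪 rb (maximalIdeal R) rR := by
    intro σ i j c hc
    have h0 := (hdefo 0).strict σ i j c hc
    rw [IsLocalRing.mem_maximalIdeal, mem_nonunits_iff] at h0 ⊢
    intro hu
    apply h0
    have := hu.map (p 0)
    rwa [map_sub, hentry, AlgHom.commutes] at this
  refine ⟨rR, hcont, hmap, ?_, hstrict⟩
  -- the deformation condition
  rw [h𝒟.iff_forall_surjective (A := R) inferInstance hres]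
  intro B _ _ _ hB q hq hqsurj
  have : IsArtinianRing B := hB.isArtinian
  obtain ⟨n, hn⟩ := exists_maximalIdeal_pow_succ_eq_bot B
  have hkerle : RingHom.ker (p n).toRingHom ≤ RingHom.ker q.toRingHom := by
    intro x hx
    have hx' : x ∈ maximalIdeal R ^ (n + 1) := by
      rw [← hker n]; exact hx
    have hmapx : (q : R →+* B) x ∈ (maximalIdeal R ^ (n + 1)).map (q : R →+* B) :=
      Ideal.mem_map_of_mem _ hx'
    have hle : (maximalIdeal R ^ (n + 1)).map (q : R →+* B) ≤ maximalIdeal B ^ (n + 1) := by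
      rw [Ideal.map_pow]
      exact Ideal.pow_right_mono (Ideal.map_le_iff_le_comap.mpr fun a ha =>
        Ideal.mem_comap.mpr (haveI := hq; map_nonunit (q : R →+* B) a ha)) (n + 1)
    have := hle hmapx
    rw [hn] at this
    exact this
  let q' : A n →ₐ[𝒪] B := AlgHom.liftOfSurjective (p n) (hp n) q hkerle
  have hq'p : ∀ x, q' (p n x) = q x := fun x => AlgHom.liftOfSurjective_apply _ _ _ _ x
  have : IsArtinianRing (A n) := (hdefo n).test.isArtinian
  have hq' : IsLocalHom (q' : A n →+* B) := isLocalHom_of_isArtinian _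
  have hfinB : MatFin B (mapMat (q' : A n →+* B) (r n)) := (hdefo n).fin.map _
  have heq : mapMat (q : R →+* B) rR = mapMat (q' : A n →+* B) (r n) := by
    ext σ i j
    rw [mapMat_apply, mapMat_apply, ← hentry n σ i j]
    exact (hq'p _).symm
  have hcontB : MatCont B (mapMat (q : R →+* B) rR) := by
    rw [heq]; exact hfinB.matCont
  have h1 : 𝒟 ((ofMat (r n) (hdefo n).fin.matCont).baseChangeAlong (q' : A n →+* B) hq') :=
    h𝒟.baseChangeAlong (hdefo n).test hB q' hq' (hdefo n).ofType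
  have h2 : 𝒟 (ofMat (mapMat (q' : A n →+* B) (r n)) hfinB.matCont) :=
    h𝒟.of_isEquiv hB (ofMat_baseChangeAlong _ hq' _ _ _) h1
  have h3 : 𝒟 (ofMat (mapMat (q : R →+* B) rR) hcontB) := by
    have : ∀ (s : Gal →* M2 B) (hs : MatCont B s), s = mapMat (q' : A n →+* B) (r n) →
        𝒟 (ofMat s hs) := by
      rintro s hs rfl
      exact h2
    exact this _ _ heq
  have e := ofMat_baseChangeAlong (q : R →+* B) hq rR hcont hcontB
  obtain ⟨e'⟩ := e
  exact h𝒟.of_isEquiv hB ⟨e'.symm⟩ h3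

end Main

end Fermat.Agent.S53lib

end
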