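/-
S53 piece E1 (helper12): `MvPowerSeries σ R` over a complete local ring `R` (finitely many variables)
is complete for its maximal ideal.
-/
import Mathlib

set_option autoImplicit false

noncomputable section

namespace Fermat.Agent.S53lib

open IsLocalRing MvPowerSeries

section Filtration

variable {σ : Type*} {R : Type*} [CommRing R] (I : Ideal R)

/-- Power series whose coefficient at `e` lies in `I ^ (n - deg e)`. -/
def coeffFil (n : ℕ) : Ideal (MvPowerSeries σ R) where
  carrier := {f | ∀ e : σ →₀ ℕ, MvPowerSeries.coeff e f ∈ I ^ (n - e.degree)}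
  zero_mem' := by
    intro e
    simp
  add_mem' := by
    intro f g hf hg e
    rw [map_add]
    exact Ideal.add_mem _ (hf e) (hg e)
  smul_mem' := by
    classical
    intro c f hf e
    rw [smul_eq_mul, MvPowerSeries.coeff_mul]
    refine Ideal.sum_mem _ ?_
    rintro ⟨a, b⟩ hab
    have hab' : a + b = e := Finset.HasAntidiagonal.mem_antidiagonal.mp hab
    have hdeg : b.degree ≤ e.degree := by
      rw [← hab', map_add]
      exact Nat.le_add_left _ _
    exact Ideal.mul_mem_left _ _ (Ideal.pow_le_pow_right (by omega) (hf b))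

lemma mem_coeffFil_iff (n : ℕ) (f : MvPowerSeries σ R) :
    f ∈ coeffFil (σ := σ) I n ↔ ∀ e : σ →₀ ℕ, MvPowerSeries.coeff e f ∈ I ^ (n - e.degree) :=
  Iff.rfl

lemma coeffFil_mul_le (a b : ℕ) :
    coeffFil (σ := σ) I a * coeffFil I b ≤ coeffFil I (a + b) := by
  classical
  rw [Ideal.mul_le]
  intro f hf g hg e
  rw [MvPowerSeries.coeff_mul]
  refine Ideal.sum_mem _ ?_
  rintro ⟨u, v⟩ huv
  have huv' : u + v = e := Finset.HasAntidiagonal.mem_antidiagonal.mp huv
  have hdeg : e.degree = u.degree + v.degree := by rw [← huv', map_add]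
  have h1 := Ideal.mul_mem_mul (hf u) (hg v)
  rw [← pow_add] at h1
  exact Ideal.pow_le_pow_right (by omega) h1

end Filtration

section Local

variable {σ : Type*} {R : Type*} [CommRing R] [IsLocalRing R]

lemma mem_maximalIdeal_mvPowerSeries_iff (f : MvPowerSeries σ R) :
    f ∈ maximalIdeal (MvPowerSeries σ R) ↔ MvPowerSeries.constantCoeff f ∈ maximalIdeal R := by
  rw [mem_maximalIdeal, mem_nonunits_iff, MvPowerSeries.isUnit_iff_constantCoeff,
    mem_maximalIdeal, mem_nonunits_iff]

lemma maximalIdeal_le_coeffFil_one :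
    maximalIdeal (MvPowerSeries σ R) ≤ coeffFil (σ := σ) (maximalIdeal R) 1 := by
  intro f hf e
  rw [mem_maximalIdeal_mvPowerSeries_iff] at hf
  by_cases he : e = 0
  · subst he
    simpa using hf
  · have : 1 ≤ e.degree := by
      rw [Nat.one_le_iff_ne_zero]
      intro h0
      exact he ((Finsupp.degree_eq_zero_iff e).mp h0)
    rw [Nat.sub_eq_zero_of_le this, pow_zero, Ideal.one_eq_top]
    exact Submodule.mem_top

/-- L1: the maximal-ideal filtration is contained in the coefficient filtration. -/
lemma maximalIdeal_pow_le_coeffFil (n : ℕ) :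
    maximalIdeal (MvPowerSeries σ R) ^ n ≤ coeffFil (σ := σ) (maximalIdeal R) n := by
  induction n with
  | zero =>
    intro f _ e
    simp
  | succ n ih =>
    rw [pow_succ]
    exact (Ideal.mul_mono ih maximalIdeal_le_coeffFil_one).trans (coeffFil_mul_le _ n 1)

lemma X_mem_maximalIdeal_mvPowerSeries (i : σ) :
    (MvPowerSeries.X i : MvPowerSeries σ R) ∈ maximalIdeal (MvPowerSeries σ R) := by
  rw [mem_maximalIdeal_mvPowerSeries_iff, MvPowerSeries.constantCoeff_X]
  exact Ideal.zero_mem _

lemma C_mem_maximalIdeal_pow {k : ℕ} {c : R} (hc : c ∈ maximalIdeal R ^ k) :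
    (MvPowerSeries.C c : MvPowerSeries σ R) ∈ maximalIdeal (MvPowerSeries σ R) ^ k := by
  have h1 : (maximalIdeal R).map (MvPowerSeries.C (σ := σ) (R := R)) ≤
      maximalIdeal (MvPowerSeries σ R) := by
    rw [Ideal.map_le_iff_le_comap]
    intro a ha
    rw [Ideal.mem_comap, mem_maximalIdeal_mvPowerSeries_iff, MvPowerSeries.constantCoeff_C]
    exact ha
  have h2 : (maximalIdeal R ^ k).map (MvPowerSeries.C (σ := σ) (R := R)) ≤
      maximalIdeal (MvPowerSeries σ R) ^ k := by
    rw [Ideal.map_pow]
    exact Ideal.pow_right_mono h1 k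
  exact h2 (Ideal.mem_map_of_mem _ hc)

lemma monomial_one_mem_maximalIdeal_pow (e : σ →₀ ℕ) :
    (MvPowerSeries.monomial e (1 : R) : MvPowerSeries σ R) ∈
      maximalIdeal (MvPowerSeries σ R) ^ e.degree := by
  classical
  induction e using Finsupp.induction with
  | zero => simp
  | single_add a b f ha hb ih =>
    have h1 : (MvPowerSeries.monomial (Finsupp.single a b + f) (1 : R) : MvPowerSeries σ R) =
        MvPowerSeries.X a ^ b * MvPowerSeries.monomial f 1 := by
      rw [MvPowerSeries.X_pow_eq, MvPowerSeries.monomial_mul_monomial, one_mul]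
    rw [h1, map_add, Finsupp.degree_single, pow_add]
    exact Ideal.mul_mem_mul (Ideal.pow_mem_pow (X_mem_maximalIdeal_mvPowerSeries a) b) ih

lemma monomial_mem_maximalIdeal_pow {n : ℕ} (e : σ →₀ ℕ) {c : R}
    (hc : c ∈ maximalIdeal R ^ (n - e.degree)) :
    (MvPowerSeries.monomial e c : MvPowerSeries σ R) ∈ maximalIdeal (MvPowerSeries σ R) ^ n := by
  by_cases hn : n ≤ e.degree
  · have h1 : (MvPowerSeries.monomial e c : MvPowerSeries σ R) =
        MvPowerSeries.C c * MvPowerSeries.monomial e 1 := by
      rw [← MvPowerSeries.monomial_zero_eq_C_apply, MvPowerSeries.monomial_mul_monomial,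
        zero_add, mul_one]
    rw [h1]
    exact Ideal.mul_mem_left _ _ (Ideal.pow_le_pow_right hn (monomial_one_mem_maximalIdeal_pow e))
  · have h1 : (MvPowerSeries.monomial e c : MvPowerSeries σ R) =
        MvPowerSeries.C c * MvPowerSeries.monomial e 1 := by
      rw [← MvPowerSeries.monomial_zero_eq_C_apply, MvPowerSeries.monomial_mul_monomial,
        zero_add, mul_one]
    have h2 : maximalIdeal (MvPowerSeries σ R) ^ (n - e.degree) *
        maximalIdeal (MvPowerSeries σ R) ^ e.degree = maximalIdeal (MvPowerSeries σ R) ^ n := by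
      rw [← pow_add]
      congr 1
      omega
    rw [h1, ← h2]
    exact Ideal.mul_mem_mul (C_mem_maximalIdeal_pow hc) (monomial_one_mem_maximalIdeal_pow e)

end Local

section SpanX

variable {σ : Type*} [Finite σ] {R : Type*} [CommRing R]

lemma truncTotal_eq_zero_of_coeff {n : ℕ} (h : MvPowerSeries σ R)
    (hh : ∀ e : σ →₀ ℕ, e.degree < n → MvPowerSeries.coeff e h = 0) :
    MvPowerSeries.truncTotal n h = 0 := by
  ext e
  by_cases he : e.degree < n
  · rw [MvPowerSeries.coeff_truncTotal _ he, hh e he, MvPolynomial.coeff_zero]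
  · rw [MvPowerSeries.coeff_truncTotal_eq_zero _ (not_lt.mp he), MvPolynomial.coeff_zero]

/-- A power series with no monomials of degree `< n` lies in `(X)^n`. -/
lemma mem_span_X_pow_of_coeff_eq_zero {n : ℕ} (h : MvPowerSeries σ R)
    (hh : ∀ e : σ →₀ ℕ, e.degree < n → MvPowerSeries.coeff e h = 0) :
    h ∈ (Ideal.span (Set.range (MvPowerSeries.X : σ → MvPowerSeries σ R))) ^ n := by
  have hmap : Ideal.map (toAdicCompletionAlgEquiv σ R).toRingEquiv
      (Ideal.span (Set.range (MvPowerSeries.X : σ → MvPowerSeries σ R))) =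
      (MvPolynomial.idealOfVars σ R).map (algebraMap _ _) := by
    simp_rw [Ideal.map_span, ← Set.range_comp]
    congr 2; ext1
    simp [AdicCompletion.algebraMap_apply, ← MvPolynomial.coe_X, toAdicCompletion_coe]
  have hmapn : Ideal.map (toAdicCompletionAlgEquiv σ R).toRingEquiv
      ((Ideal.span (Set.range (MvPowerSeries.X : σ → MvPowerSeries σ R))) ^ n) =
      (MvPolynomial.idealOfVars σ R ^ n).map (algebraMap _ _) := by
    rw [Ideal.map_pow, hmap, Ideal.map_pow]
  have hker : (toAdicCompletionAlgEquiv σ R) h ∈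
      (AdicCompletion.eval (MvPolynomial.idealOfVars σ R) (MvPolynomial σ R) n).ker := by
    rw [LinearMap.mem_ker, AdicCompletion.eval_apply, toAdicCompletionAlgEquiv_apply,
      toAdicCompletion_apply_eq_mk_truncTotal, truncTotal_eq_zero_of_coeff h hh]
    rfl
  rw [← AdicCompletion.pow_smul_top_eq_ker_eval (MvPolynomial.idealOfVars_fg σ R),
    Ideal.smul_top_eq_map, Submodule.restrictScalars_mem, ← hmapn] at hker
  obtain ⟨x, hx, hxe⟩ := (Ideal.mem_map_of_equiv _ _).mp hker
  have : x = h := (toAdicCompletionAlgEquiv σ R).injective hxe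
  rwa [← this]

end SpanX

section Main

variable {σ : Type*} {R : Type*} [CommRing R] [IsLocalRing R]

lemma span_X_le_maximalIdeal :
    Ideal.span (Set.range (MvPowerSeries.X : σ → MvPowerSeries σ R)) ≤
      maximalIdeal (MvPowerSeries σ R) := by
  rw [Ideal.span_le]
  rintro _ ⟨i, rfl⟩
  exact X_mem_maximalIdeal_mvPowerSeries i

lemma coe_mem_maximalIdeal_pow {n : ℕ} (p : MvPolynomial σ R)
    (hp : ∀ e : σ →₀ ℕ, MvPolynomial.coeff e p ∈ maximalIdeal R ^ (n - e.degree)) :
    (p : MvPowerSeries σ R) ∈ maximalIdeal (MvPowerSeries σ R) ^ n := by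
  have h1 : (p : MvPowerSeries σ R) =
      ∑ v ∈ p.support, MvPowerSeries.monomial v (MvPolynomial.coeff v p) := by
    conv_lhs => rw [← MvPolynomial.support_sum_monomial_coeff p]
    rw [← MvPolynomial.coeToMvPowerSeries.ringHom_apply, map_sum]
    refine Finset.sum_congr rfl fun v _ => ?_
    rw [MvPolynomial.coeToMvPowerSeries.ringHom_apply, MvPolynomial.coe_monomial]
  rw [h1]
  exact Ideal.sum_mem _ fun v _ => monomial_mem_maximalIdeal_pow v (hp v)

variable [Finite σ]

/-- L2: the coefficient filtration is contained in the maximal-ideal filtration. -/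
lemma coeffFil_le_maximalIdeal_pow (n : ℕ) :
    coeffFil (σ := σ) (maximalIdeal R) n ≤ maximalIdeal (MvPowerSeries σ R) ^ n := by
  intro f hf
  have h1 : f = (f - (MvPowerSeries.truncTotal n f : MvPolynomial σ R)) +
      ((MvPowerSeries.truncTotal n f : MvPolynomial σ R) : MvPowerSeries σ R) := by ring
  rw [h1]
  refine Ideal.add_mem _ ?_ ?_
  · refine Ideal.pow_right_mono span_X_le_maximalIdeal n
      (mem_span_X_pow_of_coeff_eq_zero _ fun e he => ?_)
    rw [map_sub, MvPolynomial.coeff_coe, MvPowerSeries.coeff_truncTotal _ he, sub_self]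
  · refine coe_mem_maximalIdeal_pow _ fun e => ?_
    by_cases he : e.degree < n
    · rw [MvPowerSeries.coeff_truncTotal _ he]
      exact hf e
    · rw [MvPowerSeries.coeff_truncTotal_eq_zero _ (not_lt.mp he)]
      exact Ideal.zero_mem _

lemma maximalIdeal_pow_eq_coeffFil (n : ℕ) :
    maximalIdeal (MvPowerSeries σ R) ^ n = coeffFil (σ := σ) (maximalIdeal R) n :=
  le_antisymm (maximalIdeal_pow_le_coeffFil n) (coeffFil_le_maximalIdeal_pow n)

lemma mem_maximalIdeal_pow_mvPowerSeries_iff (n : ℕ) (f : MvPowerSeries σ R) :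
    f ∈ maximalIdeal (MvPowerSeries σ R) ^ n ↔
      ∀ e : σ →₀ ℕ, MvPowerSeries.coeff e f ∈ maximalIdeal R ^ (n - e.degree) := by
  rw [maximalIdeal_pow_eq_coeffFil]
  exact Iff.rfl

/-- **E1**: power series in finitely many variables over a complete local ring are complete
for the maximal ideal. -/
theorem isAdicComplete_maximalIdeal_mvPowerSeries
    [IsAdicComplete (maximalIdeal R) R] :
    IsAdicComplete (maximalIdeal (MvPowerSeries σ R)) (MvPowerSeries σ R) := by
  refine { toIsHausdorff := ⟨?_⟩, toIsPrecomplete := ⟨?_⟩ }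
  · -- Hausdorff
    intro f hf
    ext e
    rw [map_zero]
    refine IsHausdorff.haus (inferInstance : IsHausdorff (maximalIdeal R) R) _ fun n => ?_
    have h1 := hf (n + e.degree)
    rw [SModEq.zero, smul_eq_mul, Ideal.mul_top, mem_maximalIdeal_pow_mvPowerSeries_iff] at h1
    have h2 := h1 e
    rw [Nat.add_sub_cancel] at h2
    rw [SModEq.zero, smul_eq_mul, Ideal.mul_top]
    exact h2
  · -- precomplete
    intro f hf
    have hcauchy : ∀ e : σ →₀ ℕ, ∃ c : R, ∀ k : ℕ,
        MvPowerSeries.coeff e (f (k + e.degree)) ≡ c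
          [SMOD (maximalIdeal R ^ k • ⊤ : Submodule R R)] := by
      intro e
      refine IsPrecomplete.prec (inferInstance : IsPrecomplete (maximalIdeal R) R)
        (f := fun k => MvPowerSeries.coeff e (f (k + e.degree))) ?_
      intro m n hmn
      have h1 := hf (m := m + e.degree) (n := n + e.degree) (by omega)
      rw [SModEq.sub_mem, smul_eq_mul, Ideal.mul_top,
        mem_maximalIdeal_pow_mvPowerSeries_iff] at h1
      have h2 := h1 e
      rw [Nat.add_sub_cancel, map_sub] at h2
      rw [SModEq.sub_mem, smul_eq_mul, Ideal.mul_top]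
      exact h2
    choose c hc using hcauchy
    let L : MvPowerSeries σ R := fun e => c e
    have hL : ∀ e : σ →₀ ℕ, MvPowerSeries.coeff e L = c e := fun e => rfl
    refine ⟨L, fun n => ?_⟩
    rw [SModEq.sub_mem, smul_eq_mul, Ideal.mul_top, mem_maximalIdeal_pow_mvPowerSeries_iff]
    intro e
    by_cases he : n ≤ e.degree
    · rw [Nat.sub_eq_zero_of_le he, pow_zero, Ideal.one_eq_top]
      exact Submodule.mem_top
    · have h1 := hc e (n - e.degree)
      rw [SModEq.sub_mem, smul_eq_mul, Ideal.mul_top] at h1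
      have h2 : n - e.degree + e.degree = n := by omega
      rw [h2] at h1
      rw [map_sub, hL]
      exact h1

end Main

end Fermat.Agent.S53lib
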