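/-
S53 / E2, part 1: evaluation of a multivariate power series at nilpotent elements,
as an algebra homomorphism (no topology: via total-degree truncation).
-/
import Mathlib

set_option autoImplicit false

noncomputable section

namespace Fermat.Agent.S53lib

open MvPowerSeries

variable {𝒪 : Type} [CommRing 𝒪] {d : ℕ}

/-- `s` kills all monomials of total degree `≥ N`. -/
def KillsDegree {B : Type} [CommRing B] (s : Fin d → B) (N : ℕ) : Prop :=
  ∀ x : Fin d →₀ ℕ, N ≤ x.degree → x.prod (fun i k => s i ^ k) = 0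

lemma KillsDegree.mono {B : Type} [CommRing B] {s : Fin d → B} {N N' : ℕ}
    (h : KillsDegree s N) (hN : N ≤ N') : KillsDegree s N' :=
  fun x hx => h x (hN.trans hx)

lemma KillsDegree.map {B C : Type} [CommRing B] [CommRing C] (φ : B →+* C)
    {s : Fin d → B} {N : ℕ} (h : KillsDegree s N) : KillsDegree (fun i => φ (s i)) N := by
  intro x hx
  have := congrArg φ (h x hx)
  rw [map_zero] at this
  rw [← this, Finsupp.prod, Finsupp.prod, map_prod]
  simp

/-- If all `s i` lie in an ideal `I` with `I ^ N = ⊥`, then `s` kills degree `≥ N`. -/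
lemma killsDegree_of_mem_of_pow_eq_bot {B : Type} [CommRing B] (s : Fin d → B) (N : ℕ)
    (I : Ideal B) (hs : ∀ i, s i ∈ I) (hI : I ^ N = ⊥) : KillsDegree s N := by
  intro x hx
  have h1 : x.prod (fun i k => s i ^ k) ∈ I ^ x.degree := by
    have hdeg : x.degree = ∑ i ∈ x.support, x i := rfl
    rw [Finsupp.prod, hdeg, ← Finset.prod_pow_eq_pow_sum]
    exact Ideal.prod_mem_prod fun i _ => Ideal.pow_mem_pow (hs i) _
  have h2 : I ^ x.degree ≤ I ^ N := Ideal.pow_le_pow_right hx
  have := h2 h1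
  rw [hI] at this
  simpa using this

/-- A polynomial all of whose coefficients in degree `< N` vanish is killed by evaluation
at `s`, if `s` kills degree `≥ N`. -/
lemma aeval_eq_zero_of_killsDegree {B : Type} [CommRing B] [Algebra 𝒪 B] {s : Fin d → B} {N : ℕ}
    (h : KillsDegree s N) (q : MvPolynomial (Fin d) 𝒪)
    (hq : ∀ x : Fin d →₀ ℕ, x.degree < N → q.coeff x = 0) : MvPolynomial.aeval s q = 0 := by
  rw [MvPolynomial.aeval_def, MvPolynomial.eval₂_eq]
  refine Finset.sum_eq_zero fun x hx => ?_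
  have hx' : N ≤ x.degree := by
    by_contra hlt
    exact (MvPolynomial.mem_support_iff.mp hx) (hq x (not_le.mp hlt))
  have := h x hx'
  rw [Finsupp.prod] at this
  rw [this, mul_zero]

/-- Evaluation of a power series at `s` (killing degree `≥ N`), as an algebra hom. -/
def evalNil {B : Type} [CommRing B] [Algebra 𝒪 B] (s : Fin d → B) (N : ℕ) (hN : N ≠ 0)
    (h : KillsDegree s N) : MvPowerSeries (Fin d) 𝒪 →ₐ[𝒪] B where
  toFun f := MvPolynomial.aeval s (truncTotal N f)
  map_one' := by rw [truncTotal_one hN, map_one]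
  map_mul' f g := by
    rw [← map_mul, ← sub_eq_zero, ← map_sub]
    apply aeval_eq_zero_of_killsDegree h
    intro x hx
    rw [MvPolynomial.coeff_sub, coeff_truncTotal _ hx, coeff_truncTotal_mul_truncTotal_eq_coeff_mul _ _ hx,
      sub_self]
  map_zero' := by rw [map_zero, map_zero]
  map_add' f g := by rw [map_add, map_add]
  commutes' c := by
    have : truncTotal N (algebraMap 𝒪 (MvPowerSeries (Fin d) 𝒪) c) = MvPolynomial.C c := by
      ext x
      rw [coeff_truncTotal_eq_ite, MvPolynomial.coeff_C]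
      rw [MvPowerSeries.algebraMap_apply, Algebra.algebraMap_self, RingHom.id_apply, MvPowerSeries.coeff_C]
      by_cases hx : x = 0
      · subst hx
        simp [Nat.pos_of_ne_zero hN]
      · simp [hx, Ne.symm hx]
    rw [this, MvPolynomial.aeval_C]

@[simp] lemma evalNil_apply {B : Type} [CommRing B] [Algebra 𝒪 B] (s : Fin d → B) (N : ℕ)
    (hN : N ≠ 0) (h : KillsDegree s N) (f : MvPowerSeries (Fin d) 𝒪) :
    evalNil s N hN h f = MvPolynomial.aeval s (truncTotal N f) := rfl

lemma evalNil_coe {B : Type} [CommRing B] [Algebra 𝒪 B] (s : Fin d → B) (N : ℕ)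
    (hN : N ≠ 0) (h : KillsDegree s N) (q : MvPolynomial (Fin d) 𝒪) :
    evalNil s N hN h (q : MvPowerSeries (Fin d) 𝒪) = MvPolynomial.aeval s q := by
  rw [evalNil_apply, ← sub_eq_zero, ← map_sub]
  apply aeval_eq_zero_of_killsDegree h
  intro x hx
  rw [MvPolynomial.coeff_sub, coeff_truncTotal _ hx, MvPolynomial.coeff_coe, sub_self]

lemma evalNil_X {B : Type} [CommRing B] [Algebra 𝒪 B] (s : Fin d → B) (N : ℕ)
    (hN : N ≠ 0) (h : KillsDegree s N) (i : Fin d) :
    evalNil s N hN h (MvPowerSeries.X i : MvPowerSeries (Fin d) 𝒪) = s i := by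
  have := evalNil_coe (𝒪 := 𝒪) s N hN h (MvPolynomial.X i)
  rwa [MvPolynomial.coe_X, MvPolynomial.aeval_X] at this

/-- Independence of the truncation level. -/
lemma evalNil_eq_of_le {B : Type} [CommRing B] [Algebra 𝒪 B] (s : Fin d → B) {N N' : ℕ}
    (hN : N ≠ 0) (hN' : N' ≠ 0) (h : KillsDegree s N) (h' : KillsDegree s N') (hle : N ≤ N') :
    evalNil (𝒪 := 𝒪) s N hN h = evalNil s N' hN' h' := by
  ext f
  rw [evalNil_apply, evalNil_apply, ← sub_eq_zero, ← map_sub]
  apply aeval_eq_zero_of_killsDegree h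
  intro x hx
  rw [MvPolynomial.coeff_sub, coeff_truncTotal _ hx, coeff_truncTotal _ (hx.trans_le hle), sub_self]

/-- Compatibility with algebra homs. -/
lemma comp_evalNil {B C : Type} [CommRing B] [Algebra 𝒪 B] [CommRing C] [Algebra 𝒪 C]
    (φ : B →ₐ[𝒪] C) (s : Fin d → B) (N : ℕ) (hN : N ≠ 0) (h : KillsDegree s N) :
    φ.comp (evalNil (𝒪 := 𝒪) s N hN h) =
      evalNil (fun i => φ (s i)) N hN (h.map (φ : B →+* C)) := by
  ext f
  rw [AlgHom.comp_apply, evalNil_apply, evalNil_apply]
  have : φ.comp (MvPolynomial.aeval s) = MvPolynomial.aeval (R := 𝒪) (fun i => φ (s i)) := by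
    apply MvPolynomial.algHom_ext
    intro i
    simp
  rw [← this, AlgHom.comp_apply]

/-- The range of `evalNil` is the subalgebra generated by the `s i`. -/
lemma range_evalNil {B : Type} [CommRing B] [Algebra 𝒪 B] (s : Fin d → B) (N : ℕ)
    (hN : N ≠ 0) (h : KillsDegree s N) :
    (evalNil (𝒪 := 𝒪) s N hN h).range = Algebra.adjoin 𝒪 (Set.range s) := by
  apply le_antisymm
  · rintro _ ⟨f, rfl⟩
    rw [AlgHom.toRingHom_eq_coe, RingHom.coe_coe, evalNil_apply, Algebra.adjoin_range_eq_range_aeval]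
    exact ⟨_, rfl⟩
  · rw [Algebra.adjoin_le_iff]
    rintro _ ⟨i, rfl⟩
    exact ⟨MvPowerSeries.X i, evalNil_X s N hN h i⟩

end Fermat.Agent.S53lib

end
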