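/-
S53 / E2, part 2: generation lemmas (Nakayama-type statements for nilpotent ideals and subalgebras).
-/
import Mathlib

set_option autoImplicit false

noncomputable section

namespace Fermat.Agent.S53lib

open IsLocalRing

/-- If `B` is a subalgebra of `A` with `B + I^2 = A` and `I` nilpotent, then `B = A`. -/
lemma subalgebra_eq_top_of_add_sq {𝒪 A : Type} [CommRing 𝒪] [CommRing A] [Algebra 𝒪 A]
    (B : Subalgebra 𝒪 A) (I : Ideal A) {N : ℕ} (hnil : I ^ N = ⊥)
    (h2 : ∀ a : A, ∃ b ∈ B, a - b ∈ I ^ 2) : B = ⊤ := by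
  -- every element of `I` is congruent to an element of `B ∩ I` modulo `I^2`
  have hI : ∀ y ∈ I, ∃ b ∈ B, b ∈ I ∧ y - b ∈ I ^ 2 := by
    intro y hy
    obtain ⟨b, hb, hyb⟩ := h2 y
    refine ⟨b, hb, ?_, hyb⟩
    have : b = y - (y - b) := by ring
    rw [this]
    exact I.sub_mem hy (Ideal.pow_le_self (by norm_num) hyb)
  -- key claim
  have key : ∀ j : ℕ, ∀ a : A, ∃ b ∈ B, a - b ∈ I ^ (j + 2) := by
    intro j
    induction j with
    | zero => exact h2
    | succ j ih =>
      -- first: every element of `I ^ (j+2)` is congruent to an element of `B` mod `I ^ (j+3)`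
      have hstep : ∀ z ∈ I ^ (j + 2), ∃ b ∈ B, z - b ∈ I ^ (j + 3) := by
        intro z hz
        have hz' : z ∈ I ^ (j + 1) * I := by rwa [← pow_succ]
        refine Submodule.mul_induction_on hz' ?_ ?_
        · intro x hx y hy
          obtain ⟨bx, hbx, hxb⟩ := ih x
          obtain ⟨by', hby, hbyI, hyb⟩ := hI y hy
          refine ⟨bx * by', B.mul_mem hbx hby, ?_⟩
          have hbxI : bx ∈ I ^ (j + 1) := by
            have : bx = x - (x - bx) := by ring
            rw [this]
            exact (I ^ (j + 1)).sub_mem hx (Ideal.pow_le_pow_right (by omega) hxb)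
          have e : x * y - bx * by' = (x - bx) * y + bx * (y - by') := by ring
          rw [e]
          refine (I ^ (j + 3)).add_mem ?_ ?_
          · have : (x - bx) * y ∈ I ^ (j + 2) * I := Ideal.mul_mem_mul hxb hy
            rwa [← pow_succ] at this
          · have : bx * (y - by') ∈ I ^ (j + 1) * I ^ 2 := Ideal.mul_mem_mul hbxI hyb
            rwa [← pow_add] at this
        · rintro x y ⟨bx, hbx, hx⟩ ⟨by', hby, hy⟩
          refine ⟨bx + by', B.add_mem hbx hby, ?_⟩
          have e : x + y - (bx + by') = (x - bx) + (y - by') := by ring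
          rw [e]
          exact (I ^ (j + 3)).add_mem hx hy
      intro a
      obtain ⟨b, hb, hab⟩ := ih a
      obtain ⟨b', hb', hab'⟩ := hstep (a - b) hab
      refine ⟨b + b', B.add_mem hb hb', ?_⟩
      have e : a - (b + b') = a - b - b' := by ring
      rw [e]
      exact hab'
  rw [eq_top_iff]
  intro a _
  obtain ⟨b, hb, hab⟩ := key N a
  have : I ^ (N + 2) = ⊥ := by rw [pow_add, hnil, Ideal.bot_mul]
  rw [this, Ideal.mem_bot, sub_eq_zero] at hab
  rw [hab]
  exact hb

/-- Cotangent generation: residue-surjective local `𝒪`-algebra whose maximal ideal is generated by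
`s` and the image of the maximal ideal of `𝒪` modulo squares: then `𝒪[s] + m^2 = A`. -/
lemma exists_adjoin_sub_mem_sq {𝒪 A : Type} [CommRing 𝒪] [IsLocalRing 𝒪] [CommRing A]
    [IsLocalRing A] [Algebra 𝒪 A]
    (hres : Function.Surjective (residue A ∘ algebraMap 𝒪 A))
    {d : ℕ} (s : Fin d → A) (hs : ∀ i, s i ∈ maximalIdeal A)
    (hgen : maximalIdeal A ≤
      Ideal.span (Set.range s) ⊔ (maximalIdeal 𝒪).map (algebraMap 𝒪 A) ⊔ maximalIdeal A ^ 2)
    (a : A) : ∃ b ∈ Algebra.adjoin 𝒪 (Set.range s), a - b ∈ maximalIdeal A ^ 2 := by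
  set B := Algebra.adjoin 𝒪 (Set.range s) with hB
  -- every element is `algebraMap c` modulo `m`
  have h1 : ∀ a : A, ∃ c : 𝒪, a - algebraMap 𝒪 A c ∈ maximalIdeal A := by
    intro a
    obtain ⟨c, hc⟩ := hres (residue A a)
    refine ⟨c, ?_⟩
    rw [← residue_eq_zero_iff, map_sub, sub_eq_zero]
    exact hc.symm
  -- the image of the maximal ideal of `𝒪` lies in the maximal ideal of `A`
  have hloc : (maximalIdeal 𝒪).map (algebraMap 𝒪 A) ≤ maximalIdeal A := by
    have : IsLocalHom ((residue A).comp (algebraMap 𝒪 A)) :=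
      IsLocalHom.of_surjective _ hres
    rw [Ideal.map_le_iff_le_comap]
    intro c hc
    rw [Ideal.mem_comap, ← residue_eq_zero_iff]
    by_contra hne
    have hu : IsUnit ((residue A).comp (algebraMap 𝒪 A) c) := by
      rw [RingHom.comp_apply]; exact IsUnit.mk0 _ hne
    exact hc (isUnit_of_map_unit _ c hu)
  -- elements of the generating ideals are in `B + m^2`
  have hspan : ∀ y ∈ Ideal.span (Set.range s) ⊔ (maximalIdeal 𝒪).map (algebraMap 𝒪 A),
      ∃ b ∈ B, y - b ∈ maximalIdeal A ^ 2 := by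
    intro y hy
    have hy' : y ∈ Ideal.span (Set.range s ∪ (algebraMap 𝒪 A) '' (maximalIdeal 𝒪 : Set 𝒪)) := by
      rw [Ideal.span_union]
      exact hy
    refine Submodule.span_induction (p := fun y _ => ∃ b ∈ B, y - b ∈ maximalIdeal A ^ 2)
      ?_ ?_ ?_ ?_ hy'
    · rintro x (⟨i, rfl⟩ | ⟨c, -, rfl⟩)
      · exact ⟨s i, Algebra.subset_adjoin ⟨i, rfl⟩, by simp⟩
      · exact ⟨algebraMap 𝒪 A c, B.algebraMap_mem c, by simp⟩
    · exact ⟨0, B.zero_mem, by simp⟩
    · rintro x y _ _ ⟨bx, hbx, hx⟩ ⟨by', hby, hy⟩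
      refine ⟨bx + by', B.add_mem hbx hby, ?_⟩
      have e : x + y - (bx + by') = (x - bx) + (y - by') := by ring
      rw [e]
      exact Ideal.add_mem _ hx hy
    · rintro r x hxmem ⟨bx, hbx, hx⟩
      obtain ⟨c, hc⟩ := h1 r
      refine ⟨algebraMap 𝒪 A c * bx, B.mul_mem (B.algebraMap_mem c) hbx, ?_⟩
      have hxm : x ∈ maximalIdeal A := by
        have : Ideal.span (Set.range s ∪ (algebraMap 𝒪 A) '' (maximalIdeal 𝒪 : Set 𝒪)) ≤
            maximalIdeal A := by
          rw [Ideal.span_le]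
          rintro z (⟨i, rfl⟩ | ⟨c, hc, rfl⟩)
          · exact hs i
          · exact hloc (Ideal.mem_map_of_mem _ hc)
        exact this hxmem
      have e : r • x - algebraMap 𝒪 A c * bx = (r - algebraMap 𝒪 A c) * x + algebraMap 𝒪 A c * (x - bx) := by
        rw [smul_eq_mul]; ring
      rw [e]
      refine Ideal.add_mem _ ?_ (Ideal.mul_mem_left _ _ hx)
      rw [pow_two]
      exact Ideal.mul_mem_mul hc hxm
  obtain ⟨c, hc⟩ := h1 a
  have hc' := hgen hc
  obtain ⟨y, hy, z, hz, hyz⟩ := Submodule.mem_sup.mp hc'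
  obtain ⟨b, hb, hyb⟩ := hspan y hy
  refine ⟨algebraMap 𝒪 A c + b, B.add_mem (B.algebraMap_mem c) hb, ?_⟩
  have e : a - (algebraMap 𝒪 A c + b) = (y - b) + z := by
    have : a - algebraMap 𝒪 A c = y + z := hyz.symm
    linear_combination this
  rw [e]
  exact Ideal.add_mem _ hyb hz

/-- Generation of a residue-surjective local algebra with nilpotent maximal ideal by lifts of
generators of the cotangent space. -/
lemma adjoin_eq_top_of_cotangent {𝒪 A : Type} [CommRing 𝒪] [IsLocalRing 𝒪] [CommRing A]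
    [IsLocalRing A] [Algebra 𝒪 A]
    (hres : Function.Surjective (residue A ∘ algebraMap 𝒪 A))
    {N : ℕ} (hnil : maximalIdeal A ^ N = ⊥)
    {d : ℕ} (s : Fin d → A) (hs : ∀ i, s i ∈ maximalIdeal A)
    (hgen : maximalIdeal A ≤
      Ideal.span (Set.range s) ⊔ (maximalIdeal 𝒪).map (algebraMap 𝒪 A) ⊔ maximalIdeal A ^ 2) :
    Algebra.adjoin 𝒪 (Set.range s) = ⊤ :=
  subalgebra_eq_top_of_add_sq _ (maximalIdeal A) hnil
    (exists_adjoin_sub_mem_sq hres s hs hgen)

end Fermat.Agent.S53lib

end
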