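/-
S53 / E2: the chain theorem.  A tower `A 0 ← A 1 ← A 2 ← ...` of residue-surjective local
`𝒪`-algebras with `ker (A (n+1) → A n) = m^(n+1)` and bounded cotangent space is the tower of
quotients `R / m_R^(n+1)` of a complete Noetherian local `𝒪`-algebra `R` (a quotient of a power
series ring over `𝒪`).
-/
import Mathlib
import Fermat.Prelude.Thm_IsLocalRing_isAdicComplete_of_module_finite
import Fermat.Agent.S53lib.ProLimitEval
import Fermat.Agent.S53lib.ProLimitGen

set_option autoImplicit false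
set_option linter.unusedSectionVars false

noncomputable section

namespace Fermat.Agent.S53lib

open IsLocalRing

section Tower

variable {𝒪 : Type} [CommRing 𝒪]
variable (A : ℕ → Type) [∀ n, CommRing (A n)] [∀ n, IsLocalRing (A n)] [∀ n, Algebra 𝒪 (A n)]
variable (π : ∀ n, A (n + 1) →ₐ[𝒪] A n)

/-- Compatible lifts of a family of elements of `A 1` along the tower. -/
def towerLift (hπ : ∀ n, Function.Surjective (π n)) {d : ℕ} (s : Fin d → A 1) :
    ∀ n, Fin d → A (n + 1)
  | 0 => s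
  | n + 1 => fun i => Function.surjInv (hπ (n + 1)) (towerLift hπ s n i)

lemma towerLift_zero (hπ : ∀ n, Function.Surjective (π n)) {d : ℕ} (s : Fin d → A 1) :
    towerLift A π hπ s 0 = s := rfl

lemma towerLift_succ (hπ : ∀ n, Function.Surjective (π n)) {d : ℕ} (s : Fin d → A 1) (n : ℕ)
    (i : Fin d) : π (n + 1) (towerLift A π hπ s (n + 1) i) = towerLift A π hπ s n i :=
  Function.surjInv_eq (hπ (n + 1)) _

variable {A π}

/-- The maximal ideal of `A n` has vanishing `(n+1)`-st power. -/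
lemma tower_pow_eq_bot (hπ : ∀ n, Function.Surjective (π n))
    (hker : ∀ n, RingHom.ker (π n) = maximalIdeal (A (n + 1)) ^ (n + 1)) (n : ℕ) :
    maximalIdeal (A n) ^ (n + 1) = ⊥ := by
  rw [← map_maximalIdeal_of_surjective (π n : A (n + 1) →+* A n) (hπ n), ← Ideal.map_pow,
    ← hker n]
  exact (Ideal.map_eq_bot_iff_le_ker _).mpr le_rfl

lemma tower_mem_maximalIdeal (n : ℕ) (x : A (n + 1))
    (hx : π n x ∈ maximalIdeal (A n)) : x ∈ maximalIdeal (A (n + 1)) := by
  rw [mem_maximalIdeal, mem_nonunits_iff] at hx ⊢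
  exact fun hu => hx (hu.map (π n))

lemma towerLift_mem (hπ : ∀ n, Function.Surjective (π n)) {d : ℕ} (s : Fin d → A 1)
    (hs : ∀ i, s i ∈ maximalIdeal (A 1)) (n : ℕ) (i : Fin d) :
    towerLift A π hπ s n i ∈ maximalIdeal (A (n + 1)) := by
  induction n with
  | zero => exact hs i
  | succ n ih =>
    apply tower_mem_maximalIdeal (π := π)
    rw [towerLift_succ]
    exact ih

lemma towerLift_kills (hπ : ∀ n, Function.Surjective (π n))
    (hker : ∀ n, RingHom.ker (π n) = maximalIdeal (A (n + 1)) ^ (n + 1))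
    {d : ℕ} (s : Fin d → A 1) (hs : ∀ i, s i ∈ maximalIdeal (A 1)) (n : ℕ) :
    KillsDegree (towerLift A π hπ s n) (n + 2) :=
  killsDegree_of_mem_of_pow_eq_bot _ _ (maximalIdeal (A (n + 1)))
    (towerLift_mem hπ s hs n) (tower_pow_eq_bot hπ hker (n + 1))

/-- The generators at level `n+1` generate `A (n+1)` as an `𝒪`-algebra. -/
lemma towerLift_adjoin [IsLocalRing 𝒪] (hπ : ∀ n, Function.Surjective (π n))
    (hker : ∀ n, RingHom.ker (π n) = maximalIdeal (A (n + 1)) ^ (n + 1))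
    (hres : ∀ n, Function.Surjective (residue (A n) ∘ algebraMap 𝒪 (A n)))
    {d : ℕ} (s : Fin d → A 1) (hs : ∀ i, s i ∈ maximalIdeal (A 1))
    (hgen : maximalIdeal (A 1) ≤
      Ideal.span (Set.range s) ⊔ (maximalIdeal 𝒪).map (algebraMap 𝒪 (A 1))) (n : ℕ) :
    Algebra.adjoin 𝒪 (Set.range (towerLift A π hπ s n)) = ⊤ := by
  induction n with
  | zero =>
    exact adjoin_eq_top_of_cotangent (hres 1) (tower_pow_eq_bot hπ hker 1) s hs
      (hgen.trans le_sup_left)
  | succ n ih =>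
    apply subalgebra_eq_top_of_add_sq _ (maximalIdeal (A (n + 2))) (tower_pow_eq_bot hπ hker (n + 2))
    intro a
    -- `π a` lies in the subalgebra generated at level `n+1`
    have hmem : π (n + 1) a ∈ Algebra.adjoin 𝒪 (Set.range (towerLift A π hπ s n)) := by
      rw [ih]; trivial
    have hmap : Algebra.adjoin 𝒪 (Set.range (towerLift A π hπ s n)) =
        (Algebra.adjoin 𝒪 (Set.range (towerLift A π hπ s (n + 1)))).map (π (n + 1)) := by
      rw [AlgHom.map_adjoin]
      congr 1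
      ext x
      constructor
      · rintro ⟨i, rfl⟩
        exact ⟨_, ⟨i, rfl⟩, towerLift_succ A π hπ s n i⟩
      · rintro ⟨_, ⟨i, rfl⟩, rfl⟩
        exact ⟨i, (towerLift_succ A π hπ s n i).symm⟩
    rw [hmap] at hmem
    obtain ⟨b, hb, hab⟩ := hmem
    refine ⟨b, hb, ?_⟩
    have hk : a - b ∈ RingHom.ker (π (n + 1)) := by
      rw [RingHom.mem_ker, map_sub, sub_eq_zero]
      exact hab.symm
    rw [hker (n + 1)] at hk
    exact Ideal.pow_le_pow_right (by omega) hk

end Tower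

section Theta

variable {𝒪 : Type} [CommRing 𝒪]
variable {A : ℕ → Type} [∀ n, CommRing (A n)] [∀ n, IsLocalRing (A n)] [∀ n, Algebra 𝒪 (A n)]
variable {π : ∀ n, A (n + 1) →ₐ[𝒪] A n}

/-- Evaluation at the generators of level `n+1`. -/
def towerEval' (hπ : ∀ n, Function.Surjective (π n))
    (hker : ∀ n, RingHom.ker (π n) = maximalIdeal (A (n + 1)) ^ (n + 1))
    {d : ℕ} (s : Fin d → A 1) (hs : ∀ i, s i ∈ maximalIdeal (A 1)) (n : ℕ) :
    MvPowerSeries (Fin d) 𝒪 →ₐ[𝒪] A (n + 1) :=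
  evalNil (towerLift A π hπ s n) (n + 2) (by omega) (towerLift_kills hπ hker s hs n)

/-- The compatible system of evaluation maps `P → A n`. -/
def towerEval (hπ : ∀ n, Function.Surjective (π n))
    (hker : ∀ n, RingHom.ker (π n) = maximalIdeal (A (n + 1)) ^ (n + 1))
    {d : ℕ} (s : Fin d → A 1) (hs : ∀ i, s i ∈ maximalIdeal (A 1)) :
    ∀ n, MvPowerSeries (Fin d) 𝒪 →ₐ[𝒪] A n
  | 0 => (π 0).comp (towerEval' hπ hker s hs 0)
  | n + 1 => towerEval' hπ hker s hs n

lemma towerEval'_compat (hπ : ∀ n, Function.Surjective (π n))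
    (hker : ∀ n, RingHom.ker (π n) = maximalIdeal (A (n + 1)) ^ (n + 1))
    {d : ℕ} (s : Fin d → A 1) (hs : ∀ i, s i ∈ maximalIdeal (A 1)) (n : ℕ) :
    (π (n + 1)).comp (towerEval' hπ hker s hs (n + 1)) = towerEval' (𝒪 := 𝒪) hπ hker s hs n := by
  unfold towerEval'
  rw [comp_evalNil]
  have hfun : (fun i => π (n + 1) (towerLift A π hπ s (n + 1) i)) = towerLift A π hπ s n :=
    funext fun i => towerLift_succ A π hπ s n i
  have key : ∀ (t : Fin d → A (n + 1)) (ht : t = towerLift A π hπ s n)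
      (h3 : KillsDegree t (n + 1 + 2)),
      evalNil (𝒪 := 𝒪) t (n + 1 + 2) (by omega) h3 =
        evalNil (towerLift A π hπ s n) (n + 2) (by omega) (towerLift_kills hπ hker s hs n) := by
    intro t ht h3
    subst ht
    exact (evalNil_eq_of_le _ (by omega) (by omega) _ _ (by omega)).symm
  exact key _ hfun _

lemma towerEval_compat (hπ : ∀ n, Function.Surjective (π n))
    (hker : ∀ n, RingHom.ker (π n) = maximalIdeal (A (n + 1)) ^ (n + 1))
    {d : ℕ} (s : Fin d → A 1) (hs : ∀ i, s i ∈ maximalIdeal (A 1)) (n : ℕ) :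
    (π n).comp (towerEval hπ hker s hs (n + 1)) = towerEval (𝒪 := 𝒪) hπ hker s hs n := by
  cases n with
  | zero => rfl
  | succ n => exact towerEval'_compat hπ hker s hs n

lemma towerEval_surjective [IsLocalRing 𝒪] (hπ : ∀ n, Function.Surjective (π n))
    (hker : ∀ n, RingHom.ker (π n) = maximalIdeal (A (n + 1)) ^ (n + 1))
    (hres : ∀ n, Function.Surjective (residue (A n) ∘ algebraMap 𝒪 (A n)))
    {d : ℕ} (s : Fin d → A 1) (hs : ∀ i, s i ∈ maximalIdeal (A 1))
    (hgen : maximalIdeal (A 1) ≤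
      Ideal.span (Set.range s) ⊔ (maximalIdeal 𝒪).map (algebraMap 𝒪 (A 1))) (n : ℕ) :
    Function.Surjective (towerEval (𝒪 := 𝒪) hπ hker s hs n) := by
  have h' : ∀ m, Function.Surjective (towerEval' (𝒪 := 𝒪) hπ hker s hs m) := by
    intro m
    rw [← AlgHom.range_eq_top]
    unfold towerEval'
    rw [range_evalNil]
    exact towerLift_adjoin hπ hker hres s hs hgen m
  cases n with
  | zero => exact (hπ 0).comp (h' 0)
  | succ n => exact h' n

end Theta

section Limit

variable {𝒪 : Type} [CommRing 𝒪]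
variable {P : Type} [CommRing P] [IsLocalRing P] [Algebra 𝒪 P]
variable {A : ℕ → Type} [∀ n, CommRing (A n)] [∀ n, IsLocalRing (A n)] [∀ n, Algebra 𝒪 (A n)]
variable {π : ∀ n, A (n + 1) →ₐ[𝒪] A n}

/-- The kernels of a compatible system decrease. -/
lemma ker_system_antitone (θ : ∀ n, P →ₐ[𝒪] A n) (hθc : ∀ n, (π n).comp (θ (n + 1)) = θ n)
    {m n : ℕ} (hmn : m ≤ n) :
    RingHom.ker (θ n : P →+* A n) ≤ RingHom.ker (θ m : P →+* A m) := by
  induction n, hmn using Nat.le_induction with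
  | base => exact le_rfl
  | succ n _ ih =>
    refine le_trans ?_ ih
    intro x hx
    rw [RingHom.mem_ker] at hx ⊢
    have := congrArg (fun φ : P →ₐ[𝒪] A n => φ x) (hθc n)
    simp only [AlgHom.comp_apply] at this
    change θ n x = 0
    rw [← this]
    change (π n) ((θ (n + 1) : P →+* A (n + 1)) x) = 0
    rw [hx, map_zero]

/-- Powers of the maximal ideal lie in the kernels. -/
lemma pow_le_ker_system (θ : ∀ n, P →ₐ[𝒪] A n) (hθs : ∀ n, Function.Surjective (θ n))
    (hnil : ∀ n, maximalIdeal (A n) ^ (n + 1) = ⊥) (n : ℕ) :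
    maximalIdeal P ^ (n + 1) ≤ RingHom.ker (θ n : P →+* A n) := by
  rw [← Ideal.map_eq_bot_iff_le_ker, Ideal.map_pow,
    map_maximalIdeal_of_surjective (θ n : P →+* A n) (hθs n), hnil n]

/-- One approximation step. -/
lemma ker_system_step (θ : ∀ n, P →ₐ[𝒪] A n) (hθs : ∀ n, Function.Surjective (θ n))
    (hθc : ∀ n, (π n).comp (θ (n + 1)) = θ n)
    (hker : ∀ n, RingHom.ker (π n) = maximalIdeal (A (n + 1)) ^ (n + 1)) (n : ℕ) (x : P)
    (hx : x ∈ RingHom.ker (θ n : P →+* A n)) :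
    ∃ x' : P, x' ∈ RingHom.ker (θ (n + 1) : P →+* A (n + 1)) ∧
      x - x' ∈ maximalIdeal P ^ (n + 1) := by
  have h1 : θ (n + 1) x ∈ RingHom.ker (π n) := by
    rw [RingHom.mem_ker]
    have := congrArg (fun φ : P →ₐ[𝒪] A n => φ x) (hθc n)
    simp only [AlgHom.comp_apply] at this
    rw [this]
    exact hx
  rw [hker n, ← map_maximalIdeal_of_surjective (θ (n + 1) : P →+* A (n + 1)) (hθs (n + 1)),
    ← Ideal.map_pow,
    Ideal.mem_map_iff_of_surjective (θ (n + 1) : P →+* A (n + 1)) (hθs (n + 1))] at h1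
  obtain ⟨y, hy, hyx⟩ := h1
  refine ⟨x - y, ?_, by simpa using hy⟩
  rw [RingHom.mem_ker, map_sub, sub_eq_zero]
  exact hyx.symm

/-- Key lemma: `ker θ_n = ⋂ ker θ_m + m_P^(n+1)`. -/
lemma ker_system_le_sup [IsPrecomplete (maximalIdeal P) P]
    (θ : ∀ n, P →ₐ[𝒪] A n) (hθs : ∀ n, Function.Surjective (θ n))
    (hθc : ∀ n, (π n).comp (θ (n + 1)) = θ n)
    (hker : ∀ n, RingHom.ker (π n) = maximalIdeal (A (n + 1)) ^ (n + 1))
    (hnil : ∀ n, maximalIdeal (A n) ^ (n + 1) = ⊥) (n : ℕ) :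
    RingHom.ker (θ n : P →+* A n) ≤
      (⨅ m, RingHom.ker (θ m : P →+* A m)) ⊔ maximalIdeal P ^ (n + 1) := by
  intro x hx
  have step := ker_system_step θ hθs hθc hker
  choose! nxt hnxt1 hnxt2 using step
  let z : ℕ → P := fun j => Nat.rec x (fun j zj => nxt (n + j) zj) j
  have hz0 : z 0 = x := rfl
  have hzs : ∀ j, z (j + 1) = nxt (n + j) (z j) := fun j => rfl
  have hz : ∀ j, z j ∈ RingHom.ker (θ (n + j) : P →+* A (n + j)) := by
    intro j
    induction j with
    | zero => exact hx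
    | succ j ih => rw [hzs]; exact hnxt1 (n + j) (z j) ih
  have hzd : ∀ j, z j - z (j + 1) ∈ maximalIdeal P ^ (n + j + 1) := by
    intro j
    rw [hzs]
    exact hnxt2 (n + j) (z j) (hz j)
  have hzk : ∀ j k, z j - z (j + k) ∈ maximalIdeal P ^ (n + j + 1) := by
    intro j k
    induction k with
    | zero => simp
    | succ k ih =>
      have e : z j - z (j + (k + 1)) = (z j - z (j + k)) + (z (j + k) - z (j + k + 1)) := by
        rw [← add_assoc]; ring
      rw [e]
      exact Ideal.add_mem _ ih (Ideal.pow_le_pow_right (by omega) (hzd (j + k)))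
  -- the Cauchy sequence `f j = x - z j`
  obtain ⟨L, hL⟩ := IsPrecomplete.prec' (I := maximalIdeal P) (M := P) (fun j => x - z j) (by
    intro a b hab
    obtain ⟨k, rfl⟩ := Nat.exists_eq_add_of_le hab
    rw [SModEq.sub_mem]
    have e : x - z a - (x - z (a + k)) = -(z a - z (a + k)) := by ring
    rw [e]
    have := hzk a k
    rw [smul_eq_mul, Ideal.mul_top]
    exact Ideal.neg_mem_iff _ |>.mpr (Ideal.pow_le_pow_right (by omega) this))
  have hL' : ∀ j, x - z j - L ∈ maximalIdeal P ^ j := by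
    intro j
    have := hL j
    rw [SModEq.sub_mem, smul_eq_mul, Ideal.mul_top] at this
    exact this
  have hLm : L ∈ maximalIdeal P ^ (n + 1) := by
    have h1 : x - z (n + 1) ∈ maximalIdeal P ^ (n + 1) := by
      have := hzk 0 (n + 1)
      simpa [hz0] using this
    have e : L = (x - z (n + 1)) - (x - z (n + 1) - L) := by ring
    rw [e]
    exact Ideal.sub_mem _ h1 (hL' (n + 1))
  have hxL : x - L ∈ ⨅ m, RingHom.ker (θ m : P →+* A m) := by
    rw [Ideal.mem_iInf]
    intro m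
    have e : x - L = z (m + 1) + (x - z (m + 1) - L) := by ring
    rw [e]
    refine Ideal.add_mem _ ?_ ?_
    · exact ker_system_antitone θ hθc (by omega) (hz (m + 1))
    · exact pow_le_ker_system θ hθs hnil m (hL' (m + 1))
  have e : x = (x - L) + L := by ring
  rw [e]
  exact Ideal.add_mem _ (Ideal.mem_sup_left hxL) (Ideal.mem_sup_right hLm)

end Limit

section Main

variable {𝒪 : Type} [CommRing 𝒪] [IsLocalRing 𝒪]

/-- Generic form of the chain theorem: any complete Noetherian local `𝒪`-algebra `P` with a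
compatible system of surjections onto the tower gives the limit ring `R = P ⧸ ⋂ ker`. -/
theorem chain_limit_of_system
    (P : Type) [CommRing P] [IsLocalRing P] [IsNoetherianRing P] [Algebra 𝒪 P]
    [IsAdicComplete (maximalIdeal P) P]
    (A : ℕ → Type) [∀ n, CommRing (A n)] [∀ n, IsLocalRing (A n)] [∀ n, Algebra 𝒪 (A n)]
    (hres : ∀ n, Function.Surjective (residue (A n) ∘ algebraMap 𝒪 (A n)))
    (π : ∀ n, A (n + 1) →ₐ[𝒪] A n)
    (hπ : ∀ n, Function.Surjective (π n))
    (hker : ∀ n, RingHom.ker (π n) = maximalIdeal (A (n + 1)) ^ (n + 1))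
    (θ : ∀ n, P →ₐ[𝒪] A n) (hθs : ∀ n, Function.Surjective (θ n))
    (hθc : ∀ n, (π n).comp (θ (n + 1)) = θ n) :
    ∃ (R : Type) (_ : CommRing R) (_ : IsLocalRing R) (_ : IsNoetherianRing R)
      (_ : IsAdicComplete (maximalIdeal R) R) (_ : Algebra 𝒪 R)
      (_ : IsLocalHom (algebraMap 𝒪 R)),
      Function.Surjective (residue R ∘ algebraMap 𝒪 R) ∧
      ∃ p : ∀ n, R →ₐ[𝒪] A n,
        (∀ n, Function.Surjective (p n)) ∧
        (∀ n, (π n).comp (p (n + 1)) = p n) ∧
        (∀ n, RingHom.ker (p n) = maximalIdeal R ^ (n + 1)) ∧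
        (∀ a : ∀ n, A n, (∀ n, π n (a (n + 1)) = a n) → ∃! r : R, ∀ n, p n r = a n) := by
  have hnil := tower_pow_eq_bot hπ hker
  set K : Ideal P := ⨅ m, RingHom.ker (θ m : P →+* A m) with hK
  have hKle : ∀ n, K ≤ RingHom.ker (θ n : P →+* A n) := fun n => iInf_le _ n
  have hKtop : K ≠ ⊤ := by
    intro h
    have h1 : (1 : P) ∈ RingHom.ker (θ 0 : P →+* A 0) := hKle 0 (h ▸ Submodule.mem_top)
    rw [RingHom.mem_ker, map_one] at h1
    exact one_ne_zero h1
  have : Nontrivial (P ⧸ K) := Ideal.Quotient.nontrivial_iff.mpr hKtop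
  have hloc : IsLocalRing (P ⧸ K) :=
    IsLocalRing.of_surjective' (Ideal.Quotient.mk K) Ideal.Quotient.mk_surjective
  have hlocmk : IsLocalHom (algebraMap P (P ⧸ K)) :=
    IsLocalHom.of_surjective _ Ideal.Quotient.mk_surjective
  have hcomp : IsAdicComplete (maximalIdeal (P ⧸ K)) (P ⧸ K) :=
    IsLocalRing.isAdicComplete_of_module_finite (𝒪 := P) (T := P ⧸ K)
  -- the maps
  let p : ∀ n, (P ⧸ K) →ₐ[𝒪] A n := fun n =>
    Ideal.Quotient.liftₐ K (θ n) (fun a ha => RingHom.mem_ker.mp (hKle n ha))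
  have hp_mk : ∀ n (f : P), p n (Ideal.Quotient.mk K f) = θ n f := fun n f => rfl
  have hps : ∀ n, Function.Surjective (p n) := by
    intro n a
    obtain ⟨f, rfl⟩ := hθs n a
    exact ⟨Ideal.Quotient.mk K f, hp_mk n f⟩
  have hpc : ∀ n, (π n).comp (p (n + 1)) = p n := by
    intro n
    apply AlgHom.ext
    intro r
    obtain ⟨f, rfl⟩ := Ideal.Quotient.mk_surjective r
    rw [AlgHom.comp_apply, hp_mk, hp_mk, ← hθc n, AlgHom.comp_apply]
  have hmax : (maximalIdeal P).map (Ideal.Quotient.mk K) = maximalIdeal (P ⧸ K) :=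
    map_maximalIdeal_of_surjective _ Ideal.Quotient.mk_surjective
  have hpk : ∀ n, RingHom.ker (p n) = maximalIdeal (P ⧸ K) ^ (n + 1) := by
    intro n
    apply le_antisymm
    · intro r hr
      obtain ⟨f, rfl⟩ := Ideal.Quotient.mk_surjective r
      have hf : f ∈ RingHom.ker (θ n : P →+* A n) := by
        rw [RingHom.mem_ker]
        rw [RingHom.mem_ker] at hr
        exact hr
      have := ker_system_le_sup θ hθs hθc hker hnil n hf
      obtain ⟨y, hy, z, hz, rfl⟩ := Submodule.mem_sup.mp this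
      rw [map_add, Ideal.Quotient.eq_zero_iff_mem.mpr hy, zero_add, ← hmax, ← Ideal.map_pow]
      exact Ideal.mem_map_of_mem _ hz
    · rw [← hmax, ← Ideal.map_pow, Ideal.map_le_iff_le_comap]
      intro f hf
      rw [Ideal.mem_comap, RingHom.mem_ker]
      have := pow_le_ker_system θ hθs hnil n hf
      rw [RingHom.mem_ker] at this
      exact this
  have hm0 : maximalIdeal (A 0) = ⊥ := by
    have := hnil 0
    simpa using this
  have hψ : IsLocalHom ((residue (A 0)).comp (algebraMap 𝒪 (A 0))) :=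
    IsLocalHom.of_surjective _ (hres 0)
  have hlh : IsLocalHom (algebraMap 𝒪 (P ⧸ K)) := by
    refine ⟨fun c hc => ?_⟩
    have h1 : IsUnit (p 0 (algebraMap 𝒪 (P ⧸ K) c)) := hc.map (p 0)
    rw [AlgHom.commutes] at h1
    have h2 : IsUnit ((residue (A 0)).comp (algebraMap 𝒪 (A 0)) c) := h1.map (residue (A 0))
    exact isUnit_of_map_unit _ c h2
  have hrs : Function.Surjective (residue (P ⧸ K) ∘ algebraMap 𝒪 (P ⧸ K)) := by
    intro x
    obtain ⟨r, rfl⟩ := residue_surjective x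
    obtain ⟨c, hc⟩ := hres 0 (residue (A 0) (p 0 r))
    refine ⟨c, ?_⟩
    simp only [Function.comp_apply] at hc ⊢
    rw [← sub_eq_zero, ← map_sub, residue_eq_zero_iff] at hc ⊢
    rw [hm0, Ideal.mem_bot, ← AlgHom.commutes (p 0), ← map_sub] at hc
    have : algebraMap 𝒪 (P ⧸ K) c - r ∈ RingHom.ker (p 0) := hc
    rw [hpk 0, zero_add, pow_one] at this
    exact this
  refine ⟨P ⧸ K, inferInstance, hloc, inferInstance, hcomp, inferInstance, hlh, hrs, p, hps, hpc,
    hpk, ?_⟩
  -- the limit property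
  intro a ha
  have hker_anti : ∀ {m n : ℕ}, m ≤ n → RingHom.ker (p n) ≤ RingHom.ker (p m) := by
    intro m n hmn
    rw [hpk, hpk]
    exact Ideal.pow_le_pow_right (by omega)
  choose r hr using fun n => hps n (a n)
  have hstep : ∀ n, r (n + 1) - r n ∈ RingHom.ker (p n) := by
    intro n
    rw [RingHom.mem_ker, map_sub, hr n, ← hpc n, AlgHom.comp_apply, hr (n + 1), ha n, sub_self]
  have hdiff : ∀ m k, r (m + k) - r m ∈ RingHom.ker (p m) := by
    intro m k
    induction k with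
    | zero => simp
    | succ k ih =>
      have e : r (m + (k + 1)) - r m = (r (m + k + 1) - r (m + k)) + (r (m + k) - r m) := by
        rw [← add_assoc]; ring
      rw [e]
      exact Ideal.add_mem _ (hker_anti (by omega) (hstep (m + k))) ih
  obtain ⟨L, hL⟩ := IsPrecomplete.prec' (I := maximalIdeal (P ⧸ K)) (M := P ⧸ K) r (by
    intro m n hmn
    obtain ⟨k, rfl⟩ := Nat.exists_eq_add_of_le hmn
    rw [SModEq.sub_mem, smul_eq_mul, Ideal.mul_top]
    have := hdiff m k
    rw [hpk] at this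
    have h2 : r m - r (m + k) = -(r (m + k) - r m) := by ring
    rw [h2]
    exact (Ideal.neg_mem_iff _).mpr (Ideal.pow_le_pow_right (by omega) this))
  refine ⟨L, ?_, ?_⟩
  · intro n
    have h1 := hL (n + 1)
    rw [SModEq.sub_mem, smul_eq_mul, Ideal.mul_top, ← hpk n, RingHom.mem_ker, map_sub,
      sub_eq_zero] at h1
    rw [← h1, ← hpc n, AlgHom.comp_apply, hr (n + 1), ha n]
  · intro r' hr'
    obtain ⟨f, rfl⟩ := Ideal.Quotient.mk_surjective r'
    obtain ⟨g, rfl⟩ := Ideal.Quotient.mk_surjective L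
    have hL2 : ∀ n, p n (Ideal.Quotient.mk K g) = a n := by
      intro n
      have h1 := hL (n + 1)
      rw [SModEq.sub_mem, smul_eq_mul, Ideal.mul_top, ← hpk n, RingHom.mem_ker, map_sub,
        sub_eq_zero] at h1
      rw [← h1, ← hpc n, AlgHom.comp_apply, hr (n + 1), ha n]
    rw [Ideal.Quotient.eq, hK, Ideal.mem_iInf]
    intro n
    rw [RingHom.mem_ker, map_sub, sub_eq_zero]
    have h1 := hr' n
    have h2 := hL2 n
    rw [hp_mk] at h1 h2
    exact h1.trans h2.symm

/-- **Chain theorem (S53 / E2).**  See `NOTES/S53_E2.md`. -/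
theorem chain_limit
    {𝒪 : Type} [CommRing 𝒪] [IsDomain 𝒪] [IsDiscreteValuationRing 𝒪]
    (d : ℕ)
    (hP : IsAdicComplete (maximalIdeal (MvPowerSeries (Fin d) 𝒪)) (MvPowerSeries (Fin d) 𝒪))
    (A : ℕ → Type) [∀ n, CommRing (A n)] [∀ n, IsLocalRing (A n)] [∀ n, Algebra 𝒪 (A n)]
    (hres : ∀ n, Function.Surjective (residue (A n) ∘ algebraMap 𝒪 (A n)))
    (π : ∀ n, A (n + 1) →ₐ[𝒪] A n)
    (hπ : ∀ n, Function.Surjective (π n))
    (hker : ∀ n, RingHom.ker (π n) = maximalIdeal (A (n + 1)) ^ (n + 1))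
    (hgen : ∃ s : Fin d → A 1, (∀ i, s i ∈ maximalIdeal (A 1)) ∧ maximalIdeal (A 1) ≤
        Ideal.span (Set.range s) ⊔ (maximalIdeal 𝒪).map (algebraMap 𝒪 (A 1))) :
    ∃ (R : Type) (_ : CommRing R) (_ : IsLocalRing R) (_ : IsNoetherianRing R)
      (_ : IsAdicComplete (maximalIdeal R) R) (_ : Algebra 𝒪 R)
      (_ : IsLocalHom (algebraMap 𝒪 R)),
      Function.Surjective (residue R ∘ algebraMap 𝒪 R) ∧
      ∃ p : ∀ n, R →ₐ[𝒪] A n,
        (∀ n, Function.Surjective (p n)) ∧
        (∀ n, (π n).comp (p (n + 1)) = p n) ∧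
        (∀ n, RingHom.ker (p n) = maximalIdeal R ^ (n + 1)) ∧
        (∀ a : ∀ n, A n, (∀ n, π n (a (n + 1)) = a n) → ∃! r : R, ∀ n, p n r = a n) := by
  obtain ⟨s, hs, hgen⟩ := hgen
  have := hP
  exact chain_limit_of_system (MvPowerSeries (Fin d) 𝒪) A hres π hπ hker
    (towerEval hπ hker s hs) (towerEval_surjective hπ hker hres s hs hgen)
    (towerEval_compat hπ hker s hs)

end Main

end Fermat.Agent.S53lib

end
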