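/-
S53 — final assembly.
-/
import Fermat.Agent.S53lib.ArtUniv
import Fermat.Agent.S53lib.Burnside
import Fermat.Agent.S53lib.LimitRep
import Fermat.Agent.S53lib.ProLimit
import Fermat.Agent.S53lib.PowerSeriesComplete
import Fermat.Agent.S53lib.Complete

set_option autoImplicit false
set_option linter.unusedSectionVars false
set_option linter.style.haveILetI false

noncomputable section

namespace Fermat.Agent.S53lib

open IsLocalRing GaloisRep

section

variable {𝒪 : Type} [CommRing 𝒪] [IsDomain 𝒪] [IsDiscreteValuationRing 𝒪]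
  [IsAdicComplete (IsLocalRing.maximalIdeal 𝒪) 𝒪]
variable {ρbar : ResidualGaloisRep (IsLocalRing.ResidueField 𝒪)}
variable {𝒟 : ∀ ⦃A : Type⦄ [CommRing A] [IsLocalRing A] [Algebra 𝒪 A], GaloisRepAdic A → Prop}

/-- Packaging: a ring with a universal representation gives `DeformationRingData`. -/
theorem nonempty_deformationRingData_of
    (R : Type) [CommRing R] [IsLocalRing R] [IsNoetherianRing R]
    [IsAdicComplete (maximalIdeal R) R] [Algebra 𝒪 R] [IsLocalHom (algebraMap 𝒪 R)]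
    (hres : Function.Surjective (IsLocalRing.residue R ∘ algebraMap 𝒪 R))
    (habs : ρbar.IsAbsolutelyIrreducible) (ρ : GaloisRepAdic R) (hρ : 𝒟 ρ)
    (hresid : ρ.residual.IsEquiv
      (ρbar.baseChangeAlong (IsLocalRing.ResidueField.map (algebraMap 𝒪 R))))
    (huniv : ∀ (A : Type) [CommRing A] [IsLocalRing A] [IsNoetherianRing A]
      [IsAdicComplete (IsLocalRing.maximalIdeal A) A] [Algebra 𝒪 A] [IsLocalHom (algebraMap 𝒪 A)],
      Function.Surjective (IsLocalRing.residue A ∘ algebraMap 𝒪 A) →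
      ∀ ρA : GaloisRepAdic A, 𝒟 ρA →
        ρA.residual.IsEquiv
          (ρbar.baseChangeAlong (IsLocalRing.ResidueField.map (algebraMap 𝒪 A))) →
        ∃! φ : R →ₐ[𝒪] A, ∃ hφ : IsLocalHom (φ : R →+* A),
          (ρ.baseChangeAlong (φ : R →+* A) hφ).IsEquiv ρA) :
    Nonempty (GaloisRep.DeformationRingData 𝒪 ρbar 𝒟) :=
  ⟨{ R := R
     residue_surjective := hres
     absIrr := habs
     ρ := ρ
     isOfType := hρ
     residual_isEquiv := hresid
     universal := huniv }⟩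


/-- The traces `X σ mod I` generate `Pol ⧸ I` as an `𝒪`-algebra. -/
lemma adjoin_trace_eq_top (I : Ideal (Pol 𝒪)) (r : Gal →* M2 (Pol 𝒪 ⧸ I))
    (htr : ∀ σ, (r σ).trace = Ideal.Quotient.mk I (MvPolynomial.X σ)) :
    Algebra.adjoin 𝒪 (Set.range fun σ => (r σ).trace) = ⊤ := by
  have h1 : (Set.range fun σ => (r σ).trace)
      = (Ideal.Quotient.mkₐ 𝒪 I) '' (Set.range (MvPolynomial.X : Gal → Pol 𝒪)) := by
    ext x
    constructor
    · rintro ⟨σ, rfl⟩
      exact ⟨MvPolynomial.X σ, ⟨σ, rfl⟩, (htr σ).symm⟩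
    · rintro ⟨_, ⟨σ, rfl⟩, rfl⟩
      exact ⟨σ, htr σ⟩
  rw [h1, ← AlgHom.map_adjoin, MvPolynomial.adjoin_range_X, Algebra.map_top,
    AlgHom.range_eq_top]
  exact Ideal.Quotient.mkₐ_surjective 𝒪 I

/-- **Assembly**: from a chain of minimal admissible ideals with compatible deformation data to
`DeformationRingData`.  `hH` is the passage from the Artinian universal property to the
complete Noetherian one (piece H). -/
theorem nonempty_of_chain [Finite (IsLocalRing.ResidueField 𝒪)]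
    (h𝒟 : IsDeformationCondition 𝒪 𝒟) (habs : ρbar.IsAbsolutelyIrreducible)
    (c : Chain 𝒪 𝒟 (rbarMat ρbar))
    (π : ∀ n, (Pol 𝒪 ⧸ c.I (n + 1)) →ₐ[𝒪] (Pol 𝒪 ⧸ c.I n))
    (hπ : ∀ n, Function.Surjective (π n))
    (hkerπ : ∀ n, RingHom.ker (π n) = maximalIdeal (Pol 𝒪 ⧸ c.I (n + 1)) ^ (n + 1))
    (r : ∀ n, Gal →* M2 (Pol 𝒪 ⧸ c.I n))
    (hdefo : ∀ n, IsDefo 𝒪 𝒟 (rbarMat ρbar) (r n))
    (htr : ∀ n σ, ((r n) σ).trace = Ideal.Quotient.mk (c.I n) (MvPolynomial.X σ))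
    (hcompat : ∀ n, mapMat (π n : (Pol 𝒪 ⧸ c.I (n + 1)) →+* (Pol 𝒪 ⧸ c.I n)) (r (n + 1)) = r n)
    (d : ℕ)
    (hgen : ∃ s : Fin d → Pol 𝒪 ⧸ c.I 1, (∀ i, s i ∈ maximalIdeal (Pol 𝒪 ⧸ c.I 1)) ∧
      maximalIdeal (Pol 𝒪 ⧸ c.I 1) ≤
        Ideal.span (Set.range s) ⊔ (maximalIdeal 𝒪).map (algebraMap 𝒪 (Pol 𝒪 ⧸ c.I 1)))
    (hH : ∀ (R : Type) [CommRing R] [IsLocalRing R] [IsNoetherianRing R]
      [IsAdicComplete (maximalIdeal R) R] [Algebra 𝒪 R] [IsLocalHom (algebraMap 𝒪 R)]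
      (_ : Function.Surjective (IsLocalRing.residue R ∘ algebraMap 𝒪 R))
      (ρR : GaloisRepAdic R) (_ : 𝒟 ρR)
      (_ : ρR.residual.IsEquiv
        (ρbar.baseChangeAlong (IsLocalRing.ResidueField.map (algebraMap 𝒪 R))))
      (_ : ∀ (B : Type) [CommRing B] [IsLocalRing B] [Algebra 𝒪 B] [IsLocalHom (algebraMap 𝒪 B)]
        [IsArtinianRing B],
        Function.Surjective (IsLocalRing.residue B ∘ algebraMap 𝒪 B) →
        ∀ ρB : GaloisRepAdic B, 𝒟 ρB →
        ρB.residual.IsEquiv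
          (ρbar.baseChangeAlong (IsLocalRing.ResidueField.map (algebraMap 𝒪 B))) →
        ∃! φ : R →ₐ[𝒪] B, ∃ hφ : IsLocalHom (φ : R →+* B),
          (ρR.baseChangeAlong (φ : R →+* B) hφ).IsEquiv ρB),
      ∀ (A : Type) [CommRing A] [IsLocalRing A] [IsNoetherianRing A]
      [IsAdicComplete (IsLocalRing.maximalIdeal A) A] [Algebra 𝒪 A] [IsLocalHom (algebraMap 𝒪 A)],
      Function.Surjective (IsLocalRing.residue A ∘ algebraMap 𝒪 A) →
      ∀ ρA : GaloisRepAdic A, 𝒟 ρA →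
        ρA.residual.IsEquiv
          (ρbar.baseChangeAlong (IsLocalRing.ResidueField.map (algebraMap 𝒪 A))) →
        ∃! φ : R →ₐ[𝒪] A, ∃ hφ : IsLocalHom (φ : R →+* A),
          (ρR.baseChangeAlong (φ : R →+* A) hφ).IsEquiv ρA) :
    Nonempty (GaloisRep.DeformationRingData 𝒪 ρbar 𝒟) := by
  have hspan : Submodule.span (ResidueField 𝒪) (Set.range (rbarMat ρbar)) = ⊤ :=
    burnside_two (rbarMat ρbar) (absIrr_matrix ρbar habs)
  have hresA : ∀ n, Function.Surjective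
      (IsLocalRing.residue (Pol 𝒪 ⧸ c.I n) ∘ algebraMap 𝒪 (Pol 𝒪 ⧸ c.I n)) :=
    fun n => (hdefo n).test.residue_surjective
  have hP : IsAdicComplete (maximalIdeal (MvPowerSeries (Fin d) 𝒪)) (MvPowerSeries (Fin d) 𝒪) :=
    isAdicComplete_maximalIdeal_mvPowerSeries
  obtain ⟨R, iCR, iLR, iNR, iAC, iAlg, iLH, hresR, p, hp, hπp, hkerR, huniq⟩ :=
    chain_limit d hP (fun n => Pol 𝒪 ⧸ c.I n) hresA π hπ hkerπ hgen
  obtain ⟨rR, hRc, hmap, hRD, hRstrict⟩ :=
    limitRep 𝒟 h𝒟 (rbarMat ρbar) (fun n => Pol 𝒪 ⧸ c.I n) π r hdefo hcompat R hresR p hp hπp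
      hkerR huniq
  have hresid : (ofMat rR hRc).residual.IsEquiv
      (ρbar.baseChangeAlong (IsLocalRing.ResidueField.map (algebraMap 𝒪 R))) :=
    residual_isEquiv_of_strict _ ρbar rR hRc ((strictMod_iff_strictLift _ _).1 hRstrict)
  refine nonempty_deformationRingData_of R hresR habs (ofMat rR hRc) hRD hresid ?_
  refine hH R hresR (ofMat rR hRc) hRD hresid ?_
  intro B _ _ _ _ _ hB ρB hρB hres
  refine artinian_universal h𝒟 ρbar hspan c p hp hkerR rR hRc ?_ ?_ B hB ρB hρB hres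
  · intro n
    rw [hmap n]
    exact (hdefo n).strict
  · intro n σ
    have h1 := trMat_mapMat (p n : R →+* (Pol 𝒪 ⧸ c.I n)) rR σ
    simp only [trMat] at h1
    have h2 : (p n) ((rR σ).trace) = ((mapMat (p n : R →+* (Pol 𝒪 ⧸ c.I n)) rR) σ).trace := h1.symm
    rw [h2, hmap n, htr n σ]

end

end Fermat.Agent.S53lib

end
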