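/-
S53 — piece G0: the level-zero admissible ideal (kernel of the evaluation `Pol → k`,
`X σ ↦ tr (ρbar σ)`), from `hbar : 𝒟 (ofResidualGaloisRep ρbar)`.
-/
import Fermat.Agent.S53lib.Adm
import Fermat.Agent.S53lib.AdmLemmas
import Fermat.Agent.S53lib.TestAlg

set_option autoImplicit false
set_option linter.unusedSectionVars false
set_option linter.style.haveILetI false

noncomputable section

namespace Fermat.Agent.S53lib

open IsLocalRing GaloisRep

section

variable {𝒪 : Type} [CommRing 𝒪] [IsLocalRing 𝒪]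
  {𝒟 : ∀ ⦃A : Type⦄ [CommRing A] [IsLocalRing A] [Algebra 𝒪 A], GaloisRepAdic A → Prop}

/-- The residue field is an Artinian test algebra. -/
lemma residueField_isArtinianTestAlgebra : IsArtinianTestAlgebra 𝒪 (ResidueField 𝒪) where
  isLocalHom := by
    refine ⟨fun a ha => ?_⟩
    by_contra h
    have h0 : algebraMap 𝒪 (ResidueField 𝒪) a = 0 :=
      (IsLocalRing.residue_eq_zero_iff a).2 ((mem_maximalIdeal a).2 (mem_nonunits_iff.2 h))
    rw [h0] at ha
    exact not_isUnit_zero ha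
  residue_surjective := by
    intro y
    obtain ⟨x, rfl⟩ := IsLocalRing.residue_surjective y
    obtain ⟨c, rfl⟩ := IsLocalRing.residue_surjective x
    exact ⟨c, rfl⟩
  isArtinian := inferInstance

/-- The adic representation attached to `ρbar` is the matrix representation `rbarMat ρbar`. -/
lemma ofResidual_isEquiv_ofMat {k : Type} [Field k] (ρbar : ResidualGaloisRep k) :
    (GaloisRepAdic.ofResidualGaloisRep ρbar).IsEquiv
      (ofMat (rbarMat ρbar) (rbarMat_matFin ρbar).matCont) := by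
  have e : GaloisRepAdic.Equiv (ofMat (rbarMat ρbar) (rbarMat_matFin ρbar).matCont)
      (GaloisRepAdic.ofResidualGaloisRep ρbar) :=
    { toLinearEquiv := (rbarMatEquiv ρbar).toLinearEquiv
      map_apply := fun σ x => (rbarMatEquiv ρbar).map_apply σ x }
  exact ⟨e.symm⟩

/-- `ρbar` itself, in matrix form, is a deformation datum over `k`. -/
lemma isDefo_rbarMat (h𝒟 : IsDeformationCondition 𝒪 𝒟)
    (ρbar : ResidualGaloisRep (ResidueField 𝒪))
    (hbar : 𝒟 (GaloisRepAdic.ofResidualGaloisRep ρbar)) :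
    IsDefo 𝒪 𝒟 (rbarMat ρbar) (rbarMat ρbar) where
  test := residueField_isArtinianTestAlgebra
  fin := rbarMat_matFin ρbar
  strict := by
    intro σ i j c hc
    have : algebraMap 𝒪 (ResidueField 𝒪) c = rbarMat ρbar σ i j := hc
    rw [this, sub_self]
    exact Submodule.zero_mem _
  ofType := h𝒟.of_isEquiv residueField_isArtinianTestAlgebra (ofResidual_isEquiv_ofMat ρbar) hbar

/-- The evaluation `Pol → k`, `X σ ↦ tr (ρbar σ)`. -/
def evTr (ρbar : ResidualGaloisRep (ResidueField 𝒪)) : Pol 𝒪 →ₐ[𝒪] ResidueField 𝒪 :=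
  MvPolynomial.aeval fun σ => (rbarMat ρbar σ).trace

lemma evTr_surjective (ρbar : ResidualGaloisRep (ResidueField 𝒪)) :
    Function.Surjective (evTr ρbar) := by
  intro y
  obtain ⟨c, rfl⟩ := IsLocalRing.residue_surjective y
  exact ⟨MvPolynomial.C c, by
    rw [evTr, MvPolynomial.aeval_C]; rfl⟩

/-- **G0.** There is an admissible ideal of level `0`. -/
theorem admN_zero_nonempty [Finite (ResidueField 𝒪)] (h𝒟 : IsDeformationCondition 𝒪 𝒟)
    (ρbar : ResidualGaloisRep (ResidueField 𝒪))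
    (hbar : 𝒟 (GaloisRepAdic.ofResidualGaloisRep ρbar)) :
    ∃ I, AdmN 𝒪 𝒟 (rbarMat ρbar) 0 I := by
  have hk : IsArtinianTestAlgebra 𝒪 (ResidueField 𝒪) := residueField_isArtinianTestAlgebra
  refine ⟨RingHom.ker (evTr ρbar), ?_⟩
  haveI hloc : IsLocalRing (Pol 𝒪 ⧸ RingHom.ker (evTr ρbar)) :=
    isLocalRing_quotient_ker hk (evTr ρbar)
  have hA : IsArtinianTestAlgebra 𝒪 (Pol 𝒪 ⧸ RingHom.ker (evTr ρbar)) :=
    isArtinianTestAlgebra_quotient_ker hk (evTr ρbar)
  let e : (Pol 𝒪 ⧸ RingHom.ker (evTr ρbar)) ≃ₐ[𝒪] ResidueField 𝒪 :=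
    Ideal.quotientKerAlgEquivOfSurjective (evTr_surjective ρbar)
  have he : ∀ f : Pol 𝒪, e (Ideal.Quotient.mk _ f) = evTr ρbar f := fun f => rfl
  let φ : ResidueField 𝒪 →ₐ[𝒪] (Pol 𝒪 ⧸ RingHom.ker (evTr ρbar)) := e.symm.toAlgHom
  have hφe : ∀ a, e (φ a) = a := fun a => e.apply_symm_apply a
  have heφ : ∀ x, φ (e x) = x := fun x => e.symm_apply_apply x
  have hφ : IsLocalHom (φ : ResidueField 𝒪 →+* (Pol 𝒪 ⧸ RingHom.ker (evTr ρbar))) := by
    refine ⟨fun a ha => ?_⟩
    have := ha.map (e : (Pol 𝒪 ⧸ RingHom.ker (evTr ρbar)) →+* ResidueField 𝒪)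
    have h2 : (e : (Pol 𝒪 ⧸ RingHom.ker (evTr ρbar)) →+* ResidueField 𝒪)
        ((φ : ResidueField 𝒪 →+* (Pol 𝒪 ⧸ RingHom.ker (evTr ρbar))) a) = a := hφe a
    rwa [h2] at this
  refine ⟨hloc, mapMat (φ : ResidueField 𝒪 →+* (Pol 𝒪 ⧸ RingHom.ker (evTr ρbar)))
    (rbarMat ρbar), (isDefo_rbarMat h𝒟 ρbar hbar).map h𝒟 hA φ hφ, ?_, ?_⟩
  · intro σ
    apply e.injective
    rw [he]
    have h1 : evTr ρbar (MvPolynomial.X σ) = (rbarMat ρbar σ).trace := by
      rw [evTr, MvPolynomial.aeval_X]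
    rw [h1]
    simp only [Matrix.trace, Matrix.diag, Fin.sum_univ_two, mapMat_apply, map_add]
    have h3 : ∀ a, e ((φ : ResidueField 𝒪 →+* (Pol 𝒪 ⧸ RingHom.ker (evTr ρbar))) a) = a := hφe
    rw [h3, h3]
  · rw [zero_add, pow_one, eq_bot_iff]
    intro x hx
    rw [Ideal.mem_bot]
    apply e.injective
    rw [map_zero]
    by_contra h
    have hu : IsUnit (e x) := isUnit_iff_ne_zero.2 h
    have hu' : IsUnit x := by
      have := hu.map φ
      rwa [heφ] at this
    exact (mem_maximalIdeal x).1 hx hu'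

end

end Fermat.Agent.S53lib

end
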